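/-
MLT (project S59) / Min (helper2): **SHARED DEFINITIONS** of the streams [M], [N], [W], Top.

Everything is a function of ONE bundle `B : MltBase 𝒪` (the residual datum, fixed once) and of the
finite set `Sig` (`= Σ`) of auxiliary primes where the deformation problem is unrestricted.

* `mltX p flat`            : the local condition at `p` (`IsFlatAt p` / `IsOrdinaryAt p`);
* `mltCond 𝒪 p flat Smin Sig` : the deformation problem `D^X_Σ`, LITERALLY `twCond` of `Lib/TW/Wiring`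
  with `T = Smin ∪ Σ`, hence (after `unfold`) the `𝒟` of S56 with `Q = Σ`;
* `MltBase 𝒪`              : the data `p, ρbar, flat, Smin, N0, S0, t, cut, lam`;
* `B.level Sig = N0 · ∏_{q ∈ Σ} q²`, `B.bad Sig = S0 ∪ Σ`, `B.Ps Sig`, `B.theta Sig`;
* `B.H Sig`                : the Hecke module `H_Σ`, the `θ`-part of `Hom_par(Γ₀(N_Σ), 𝒪)` (helper3's
  `ih4Part`) for the family `T_ℓ - t ℓ` (`ℓ ∉ S_Σ`), `U_q` (`q ∈ Σ`: topologically nilpotent),
  `U_c - lam c` (`c ∈ cut`: the Hida cut `U_p ≡ unit` for `ord`, the auxiliary prime when `p = 3`);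
* `MltBase.Valid`          : the standing hypotheses;
* `MltRT B Sig`            : **`R_Σ ≅ T_Σ`, complete intersection, `H_Σ` free of rank 2 over `T_Σ`**
  (`T_Σ = IhdT 𝒪 θ`, helper7's local Hecke ring of level `N_Σ` away from `S_Σ`).
-/
import Mathlib
import Fermat.Agent.Lib.Ihara.H4.TwBetti
import Fermat.Agent.Lib.Ihara.Dat.Datum
import Fermat.Agent.Lib.TW.Wiring

set_option autoImplicit false
set_option linter.unusedSectionVars false
set_option linter.unusedVariables false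
set_option linter.style.haveILetI false

open IsLocalRing Polynomial Fermat.Agent.TW Fermat.Agent.Ihara

namespace Fermat.Agent.MLT

local notation "Qbar" => AlgebraicClosure ℚ
local notation "GQ" => (AlgebraicClosure ℚ ≃ₐ[ℚ] AlgebraicClosure ℚ)

/-- the local condition at `p`: flat (`flat = true`) or (non-strict) ordinary (`flat = false`) -/
def mltX (p : ℕ) (flat : Bool) :
    ∀ ⦃A : Type⦄ [CommRing A] [IsLocalRing A], GaloisRepAdic A → Prop :=
  fun _A _ _ ρ => match flat with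
    | true => ρ.IsFlatAt p
    | false => ρ.IsOrdinaryAt p

/-- **the deformation problem `D^X_Σ`**: cyclotomic determinant, `X` at `p`, unramified outside
`Smin ∪ Σ`, unipotent inertia at the primes of `Smin` other than `p` (no condition at `Σ`) -/
abbrev mltCond (𝒪 : Type) [CommRing 𝒪] (p : ℕ) (flat : Bool) (Smin Sig : Finset ℕ) :
    ∀ ⦃A : Type⦄ [CommRing A] [IsLocalRing A] [Algebra 𝒪 A], GaloisRepAdic A → Prop :=
  twCond 𝒪 (mltX p flat) p Smin (Smin ∪ Sig)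

/-- `D^flat_Σ` is literally the flat deformation problem of S56 with `Q = Σ` -/
theorem mltCond_flat_iff (𝒪 : Type) [CommRing 𝒪] (p : ℕ) (Smin Sig : Finset ℕ)
    {A : Type} [CommRing A] [IsLocalRing A] [Algebra 𝒪 A] (ρ : GaloisRepAdic A) :
    mltCond 𝒪 p true Smin Sig ρ ↔
      (GaloisRep.flatCondition 𝒪 p (Smin ∪ Sig) ρ ∧
        ∀ q ∈ Smin, q.Prime → q ≠ p → ρ.IsUnipotentOnInertiaAt q) := Iff.rfl

/-- `D^ord_Σ` is literally the (non-strict) ordinary deformation problem with `Q = Σ` -/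
theorem mltCond_ord_iff (𝒪 : Type) [CommRing 𝒪] (p : ℕ) (Smin Sig : Finset ℕ)
    {A : Type} [CommRing A] [IsLocalRing A] [Algebra 𝒪 A] (ρ : GaloisRepAdic A) :
    mltCond 𝒪 p false Smin Sig ρ ↔
      (GaloisRep.ordinaryCondition 𝒪 p (Smin ∪ Sig) ρ ∧
        ∀ q ∈ Smin, q.Prime → q ≠ p → ρ.IsUnipotentOnInertiaAt q) := Iff.rfl

/-- **the base datum of MLT** (fixed once and for all by the residual package [R]) -/
structure MltBase (𝒪 : Type) [CommRing 𝒪] [IsLocalRing 𝒪] : Type 1 where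
  /-- the residue characteristic -/
  p : ℕ
  /-- the residual representation -/
  ρbar : ResidualGaloisRep (ResidueField 𝒪)
  /-- `true`: flat problem, level prime to `p`; `false`: ordinary problem, `p ∥` level -/
  flat : Bool
  /-- `p` and the primes where `ρbar` is ramified -/
  Smin : Finset ℕ
  /-- the base level `N_∅ · p^δ · r_aux` -/
  N0 : ℕ
  /-- the bad set at the base level: `Smin`, the primes of `N0` -/
  S0 : Finset ℕ
  /-- lifts of the traces of Frobenius: `tr ρbar(Frob_ℓ) = t ℓ mod 𝔪` for `ℓ ∉ S0` -/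
  t : ℕ → 𝒪
  /-- the primes of `N0` where the Hecke module is cut by `U_c ≡ lam c` -/
  cut : Finset ℕ
  /-- the eigenvalues of the cut -/
  lam : ℕ → 𝒪

namespace MltBase

variable {𝒪 : Type} [CommRing 𝒪] [IsLocalRing 𝒪] (B : MltBase 𝒪) (Sig : Finset ℕ)

/-- the level `N_Σ = N0 · ∏_{q ∈ Σ} q²` -/
def level : ℕ := B.N0 * ∏ q ∈ Sig, q ^ 2

/-- the bad set `S_Σ = S0 ∪ Σ` -/
def bad : Finset ℕ := B.S0 ∪ Sig

/-- the primes whose Hecke operator enters the definition of `H_Σ` -/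
def Ps : Set ℕ := {ℓ | (ℓ.Prime ∧ ℓ ∉ B.bad Sig) ∨ ℓ ∈ Sig ∨ ℓ ∈ B.cut}

open Classical in
/-- the eigenvalues: `0` at `Σ` (`U_q` topologically nilpotent), `lam` at the cut primes, `t` at the
good primes -/
noncomputable def theta : ℕ → 𝒪 :=
  fun ℓ => if ℓ ∈ Sig then 0 else if ℓ ∈ B.cut then B.lam ℓ else B.t ℓ

theorem theta_of_mem {ℓ : ℕ} (h : ℓ ∈ Sig) : B.theta Sig ℓ = 0 := by
  unfold theta
  rw [if_pos h]

theorem theta_of_cut {ℓ : ℕ} (h : ℓ ∉ Sig) (hc : ℓ ∈ B.cut) : B.theta Sig ℓ = B.lam ℓ := by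
  unfold theta
  rw [if_neg h, if_pos hc]

theorem theta_of_good {ℓ : ℕ} (h : ℓ ∉ Sig) (hc : ℓ ∉ B.cut) : B.theta Sig ℓ = B.t ℓ := by
  unfold theta
  rw [if_neg h, if_neg hc]

/-- the deformation problem `D^X_Σ` of the base datum -/
abbrev cond : ∀ ⦃A : Type⦄ [CommRing A] [IsLocalRing A] [Algebra 𝒪 A], GaloisRepAdic A → Prop :=
  mltCond 𝒪 B.p B.flat B.Smin Sig

theorem level_empty : B.level ∅ = B.N0 := by
  unfold level
  rw [Finset.prod_empty, mul_one]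

theorem bad_empty : B.bad ∅ = B.S0 := by
  unfold bad
  rw [Finset.union_empty]

theorem level_insert {q : ℕ} (hq : q ∉ Sig) : B.level (insert q Sig) = B.level Sig * q ^ 2 := by
  unfold level
  rw [Finset.prod_insert hq]
  ring

theorem level_ne_zero (hN0 : B.N0 ≠ 0) (hSig : ∀ q ∈ Sig, q.Prime) : B.level Sig ≠ 0 := by
  unfold level
  refine mul_ne_zero hN0 (Finset.prod_ne_zero_iff.mpr fun q hq => ?_)
  exact pow_ne_zero 2 (hSig q hq).ne_zero

end MltBase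

section Hecke

variable {𝒪 : Type} [CommRing 𝒪] [IsDomain 𝒪] [IsDiscreteValuationRing 𝒪] [CharZero 𝒪]
  [IsAdicComplete (maximalIdeal 𝒪) 𝒪] (B : MltBase 𝒪) (Sig : Finset ℕ)

/-- **the Hecke module `H_Σ`**: the part of `Hom_par(Γ₀(N_Σ), 𝒪)` on which `T_ℓ - t ℓ` (`ℓ ∉ S_Σ`),
`U_q` (`q ∈ Σ`) and `U_c - lam c` (`c ∈ cut`) are topologically nilpotent -/
noncomputable def MltBase.H [NeZero (B.level Sig)] : Submodule 𝒪 (Ih4H 𝒪 𝒪 (B.level Sig)) :=
  ih4Part 𝒪 (B.level Sig) (B.Ps Sig) (B.theta Sig)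

end Hecke

section Valid

variable {𝒪 : Type} [CommRing 𝒪] [IsDomain 𝒪] [IsDiscreteValuationRing 𝒪] [CharZero 𝒪]
  [IsAdicComplete (maximalIdeal 𝒪) 𝒪] [Finite (ResidueField 𝒪)]

/-- **the standing hypotheses on the base datum** -/
structure MltBase.Valid (B : MltBase 𝒪) : Prop where
  /-- `p ∈ {3, 5}` is only used for `p = 3` (auxiliary prime); everything else needs `p` odd -/
  prime : B.p.Prime
  odd : B.p ≠ 2
  mem : (B.p : 𝒪) ∈ maximalIdeal 𝒪
  /-- the hypotheses of S56 on `ρbar` -/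
  absIrr : B.ρbar.IsAbsolutelyIrreducible
  det : (GaloisRepAdic.ofResidualGaloisRep B.ρbar).DetIsCyclotomic B.p
  split : ∀ σ : GQ, ∃ α β : ResidueField 𝒪,
    LinearMap.charpoly (B.ρbar.ρ σ) = (X - C α) * (X - C β)
  tw : ∀ (K : Type) [Field K] [Algebra (ResidueField 𝒪) K] (G : Subgroup GQ), G.index = 2 →
    ∀ V : Submodule K (B.ρbar.baseChange K).V,
      (∀ σ ∈ G, ∀ x ∈ V, (B.ρbar.baseChange K).ρ σ x ∈ V) → V = ⊥ ∨ V = ⊤
  /-- the sets of primes -/
  p_mem_Smin : B.p ∈ B.Smin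
  Smin_sub : B.Smin ⊆ B.S0
  S0_prime : ∀ q ∈ B.S0, q.Prime
  Smin_iff : ∀ q : ℕ, q.Prime → q ≠ B.p → (q ∈ B.Smin ↔ ¬ B.ρbar.IsUnramifiedAt q)
  /-- the level: squarefree, its primes are `Smin \ {p}`, `p` iff `ord`, and the cut primes -/
  N0_sqfree : Squarefree B.N0
  N0_dvd_iff : ∀ q : ℕ, q.Prime →
    (q ∣ B.N0 ↔ ((q ∈ B.Smin ∧ q ≠ B.p) ∨ (q = B.p ∧ B.flat = false) ∨ q ∈ B.cut))
  N0_sub : ∀ q : ℕ, q.Prime → q ∣ B.N0 → q ∈ B.S0
  /-- the cut primes: `p` exactly when `ord`; the others are auxiliary primes outside `Smin` -/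
  cut_sub : ∀ c ∈ B.cut, c.Prime ∧ c ∈ B.S0
  p_mem_cut_iff : B.p ∈ B.cut ↔ B.flat = false
  cut_unit : ∀ c ∈ B.cut, IsUnit (B.lam c)
  cut_aux : ∀ c ∈ B.cut, c ≠ B.p → c ∉ B.Smin ∧
    ∃ b : 𝒪, B.lam c * b = (c : 𝒪) ∧ IsUnit (B.lam c - b) ∧ IsUnit (B.lam c - (c : 𝒪) * b) ∧
      IsUnit (b - (c : 𝒪) * B.lam c) ∧
      ∀ P : ValuationSubring Qbar, P.LiesOverPrime c → ∀ σ : GQ, P.IsFrobeniusAt σ c →
        LinearMap.charpoly (B.ρbar.ρ σ) = (X - C (residue 𝒪 (B.lam c))) * (X - C (residue 𝒪 b))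
  /-- no `p`-torsion in `Γ₀(N0)` when `p = 3`: a prime `≡ 2 mod 3` divides the level -/
  no_torsion : B.p = 3 → ∃ r : ℕ, r.Prime ∧ r ∣ B.N0 ∧ r % 3 = 2
  /-- the traces of Frobenius -/
  frob : ∀ (ℓ : ℕ), ℓ.Prime → ℓ ∉ B.S0 →
    ∀ P : ValuationSubring Qbar, P.LiesOverPrime ℓ → ∀ σ : GQ, P.IsFrobeniusAt σ ℓ →
      LinearMap.charpoly (B.ρbar.ρ σ) =
        X ^ 2 - C (residue 𝒪 (B.t ℓ)) * X + C ((ℓ : ResidueField 𝒪))
  /-- `ρbar` is of type `D^X_∅` -/
  bar : B.cond ∅ (GaloisRepAdic.ofResidualGaloisRep B.ρbar)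
  /-- residual modularity at the base level, in the cut form -/
  modular : ∀ [NeZero (B.level ∅)], B.H ∅ ≠ ⊥

end Valid

end Fermat.Agent.MLT
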