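/-
MLT (project S59) / Min (helper2): **the statement `MltRT B Sig`** (v2) = "`R_Σ ≅ T_Σ`, complete intersection,
`H_Σ` free of some rank `d > 0` over `T_Σ`", the common currency of the streams [M] (`Sig = ∅`), [N] (the step
`Sig → insert q Sig`) and [W]/Top (the point of `W`).

`T_Σ = IhdT 𝒪 θ` is helper7's local Hecke ring (`Lib/Ihara/Dat/Hecke.lean`) of level `N_Σ` away from
`S_Σ` at the residual eigencharacter `θ` of `ρbar` (`B.IsTheta Sig θ`: `θ T_ℓ = t ℓ mod 𝔪`); its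
Hecke–Galois datum is `ihd_exists_datum` (`Lib/Ihara/Dat/Datum.lean`), the map `R_Σ → T_Σ` is S54.
-/
import Mathlib
import Fermat.Agent.Lib.MLT.Min.Defs

set_option autoImplicit false
set_option linter.unusedSectionVars false
set_option linter.unusedVariables false
set_option linter.style.haveILetI false

open IsLocalRing Polynomial Fermat.Agent.TW Fermat.Agent.Ihara

namespace Fermat.Agent.MLT

local notation "Qbar" => AlgebraicClosure ℚ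
local notation "GQ" => (AlgebraicClosure ℚ ≃ₐ[ℚ] AlgebraicClosure ℚ)

variable {𝒪 : Type} [CommRing 𝒪] [IsDomain 𝒪] [IsDiscreteValuationRing 𝒪] [CharZero 𝒪]
  [IsAdicComplete (maximalIdeal 𝒪) 𝒪] [Finite (ResidueField 𝒪)]

/-- `θ : 𝕋(N_Σ, S_Σ) → k` is the residual eigencharacter of `ρbar`: `θ T_ℓ = t ℓ mod 𝔪` (`ℓ ∉ S_Σ`) -/
def MltBase.IsTheta (B : MltBase 𝒪) (Sig : Finset ℕ) [NeZero (B.level Sig)]
    (θ : CuspForm.heckeAlgebra (B.level Sig) 2 (↑(B.bad Sig) : Set ℕ) →+* ResidueField 𝒪) : Prop :=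
  ∀ (ℓ : ℕ) (hℓ : ℓ.Prime) (hℓN : ¬ ℓ ∣ B.level Sig) (hℓS : ℓ ∉ (↑(B.bad Sig) : Set ℕ)),
    θ (CuspForm.heckeAlgebra.T hℓ hℓN hℓS) = residue 𝒪 (B.t ℓ)

/-- **`R_Σ ≅ T_Σ`, complete intersection, `H_Σ` free of some rank `d > 0` over `T_Σ`** (v2: the rank is
not asserted to be `2`; that is multiplicity one, a separate input) -/
def MltRT (B : MltBase 𝒪) (Sig : Finset ℕ) [NeZero (B.level Sig)] : Prop :=
  ∀ (θ : CuspForm.heckeAlgebra (B.level Sig) 2 (↑(B.bad Sig) : Set ℕ) →+* ResidueField 𝒪),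
    B.IsTheta Sig θ →
  ∀ (D : GaloisRep.DeformationRingData 𝒪 B.ρbar (B.cond Sig))
    (Hk : CuspForm.HeckeGaloisRepDatum (B.level Sig) (↑(B.bad Sig) : Set ℕ) 𝒪 θ (IhdT 𝒪 θ)),
    Hk.π = ihdPi 𝒪 θ →
  ∀ (φ : D.R →ₐ[𝒪] IhdT 𝒪 θ) (hφ : IsLocalHom (φ : D.R →+* IhdT 𝒪 θ)),
    (D.ρ.baseChangeAlong (φ : D.R →+* IhdT 𝒪 θ) hφ).IsEquiv Hk.ρ →
    -- (1) `R_Σ → T_Σ` is an isomorphism
    Function.Bijective φ ∧
    -- (2) `R_Σ` is a complete intersection: `𝒪⟦x_1..x_r⟧ / (f_1..f_r)`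
    (∃ (r : ℕ) (ψ : MvPowerSeries (Fin r) 𝒪 →ₐ[𝒪] D.R) (f : Fin r → MvPowerSeries (Fin r) 𝒪),
      Function.Surjective ψ ∧ RingHom.ker (ψ : MvPowerSeries (Fin r) 𝒪 →+* D.R)
        = Ideal.span (Set.range f)) ∧
    -- (3) `T_Σ` acts on `H_Σ` through the Hecke operators, and `H_Σ` is free of rank `d > 0`
    ∃ act : IhdT 𝒪 θ →ₐ[𝒪] Module.End 𝒪 ↥(B.H Sig),
      (∀ (ℓ : ℕ) (hℓ : ℓ.Prime) (hℓN : ¬ ℓ ∣ B.level Sig) (hℓS : ℓ ∉ (↑(B.bad Sig) : Set ℕ))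
        (x : ↥(B.H Sig)),
        ((act (ihdPi 𝒪 θ (CuspForm.heckeAlgebra.T hℓ hℓN hℓS)) x : ↥(B.H Sig)) :
            Ih4H 𝒪 𝒪 (B.level Sig))
          = ih4Op 𝒪 (B.level Sig) ℓ (x : Ih4H 𝒪 𝒪 (B.level Sig))) ∧
      ∃ d : ℕ, 0 < d ∧ ∃ w : Fin d → ↥(B.H Sig), ∀ x : ↥(B.H Sig),
        ∃! c : Fin d → IhdT 𝒪 θ, x = ∑ i, act (c i) (w i)

/-- the admissible auxiliary sets: primes outside `S0` -/
def MltBase.IsAux (B : MltBase 𝒪) (Sig : Finset ℕ) : Prop := ∀ q ∈ Sig, q.Prime ∧ q ∉ B.S0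

/-- **the shape of the induction step `Σ → Σ ∪ {q}`** (stream [N]); stated here because it only involves
the shared notions -/
def MltStepShape (B : MltBase 𝒪) : Prop :=
  ∀ (Sig : Finset ℕ) (q : ℕ), B.IsAux Sig → q.Prime → q ∉ B.S0 → q ∉ Sig →
    ∀ [NeZero (B.level Sig)] [NeZero (B.level (insert q Sig))],
      MltRT B Sig → MltRT B (insert q Sig)

end Fermat.Agent.MLT
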