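/-
MLT (project S59) / Min (helper2): **unramifiedness at the auxiliary (cut) primes**.

* `mltm_unip_trivial` (pure `2 × 2` algebra): `Sg` unipotent (`tr = 2`, `det = 1`), `Ph * Sg = Sg ^ c * Ph`,
  the characteristic polynomial of `Ph` has the roots `al, be` with `al - be`, `al - c be`,
  `be - c al` units, and the ring is reduced  ⟹  `Sg = 1`.
  (In the eigenbasis of `Ph` the nilpotent `n = Sg - 1` satisfies `Ph n = c n Ph`, so its off-diagonal
  entries vanish; the diagonal ones have square zero.)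
* `mltm_unramified_of_unipotent` : a deformation `ρ` of `ρbar` to a reduced complete local ring, with
  unipotent inertia at a prime `c ≠ p` where `ρbar` is unramified with Frobenius eigenvalues `α, β`,
  `α ≠ β, cβ`, `β ≠ cα`, is unramified at `c`.
-/
import Mathlib
import Fermat.Agent.Lib.Ihara.Ta.TWPrime
import Fermat.Agent.Lib.Ihara.Ta.Rel
import Fermat.Agent.Lib.TW.BaseChange
import Fermat.Agent.Lib.S53.Assembly
import Fermat.Agent.Lib.S31.Trace.PowTrace
import Fermat.Agent.Lib.Helper6.FrobeniusExists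

set_option autoImplicit false
set_option linter.unusedSectionVars false
set_option linter.unusedVariables false
set_option linter.style.haveILetI false

open IsLocalRing Polynomial Fermat.Agent.S53Lib Fermat.Agent.TW Fermat.Agent.Ihara

namespace Fermat.Agent.MLT

local notation "Qbar" => AlgebraicClosure ℚ
local notation "GQ" => (AlgebraicClosure ℚ ≃ₐ[ℚ] AlgebraicClosure ℚ)

/-- **a unipotent matrix normalised by a matrix with "generic" eigenvalues is trivial** -/
theorem mltm_unip_trivial {A : Type*} [CommRing A] [IsReduced A]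
    (Ph Sg : Matrix (Fin 2) (Fin 2) A) (c : ℕ) (htr : Sg.trace = 2) (hdet : Sg.det = 1)
    (hrel : Ph * Sg = Sg ^ c * Ph) (al be : A) (hsum : al + be = Ph.trace)
    (hprod : al * be = Ph.det) (h1 : IsUnit (al - be)) (h2 : IsUnit (al - (c : A) * be))
    (h3 : IsUnit (be - (c : A) * al)) : Sg = 1 := by
  set n : Matrix (Fin 2) (Fin 2) A := Sg - 1 with hn
  have hSg : Sg = 1 + n := by rw [hn]; abel
  have hnn : n * n = 0 := by
    have h := ihta_sq Sg
    rw [htr, hdet] at h
    rw [hn, sub_mul, mul_sub, mul_sub, h, mul_one, one_mul, one_mul, two_smul, one_smul]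
    abel
  have hpow : ∀ k : ℕ, Sg ^ k = 1 + (k : A) • n := by
    intro k
    induction k with
    | zero => rw [pow_zero, Nat.cast_zero, zero_smul, add_zero]
    | succ k ih =>
      rw [pow_succ, ih, hSg, add_mul, mul_add, mul_add, one_mul, one_mul, mul_one,
        Matrix.smul_mul, hnn, smul_zero, add_zero, Nat.cast_succ, add_smul, one_smul]
      abel
  have hrel' : Ph * n = (c : A) • (n * Ph) := by
    rw [hpow, hSg, mul_add, add_mul, mul_one, one_mul, Matrix.smul_mul] at hrel
    exact add_left_cancel hrel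
  obtain ⟨di, hdi⟩ := h1.exists_left_inv
  obtain ⟨e, f, hef1, hef, hfe, hee, hff, hPe, heP, hPf, hfP, htre, htrf, hdete, hdetf, -⟩ :=
    ihta_proj Ph al be di hsum hprod hdi
  -- the off-diagonal blocks vanish
  have henf : e * n * f = 0 := by
    have h : (al - (c : A) * be) • (e * n * f) = 0 := by
      have e1 : al • (e * n * f) = e * (Ph * n) * f := by
        rw [← Matrix.mul_assoc, heP, Matrix.smul_mul, Matrix.smul_mul]
      have e2 : e * (Ph * n) * f = ((c : A) * be) • (e * n * f) := by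
        rw [hrel', Matrix.mul_smul, Matrix.smul_mul, Matrix.mul_assoc, Matrix.mul_assoc n Ph f, hPf,
          Matrix.mul_smul, Matrix.mul_smul, smul_smul, Matrix.mul_assoc]
      rw [sub_smul, e1, e2, sub_self]
    exact h2.smul_eq_zero.mp h
  have hfne : f * n * e = 0 := by
    have h : (be - (c : A) * al) • (f * n * e) = 0 := by
      have e1 : be • (f * n * e) = f * (Ph * n) * e := by
        rw [← Matrix.mul_assoc, hfP, Matrix.smul_mul, Matrix.smul_mul]
      have e2 : f * (Ph * n) * e = ((c : A) * al) • (f * n * e) := by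
        rw [hrel', Matrix.mul_smul, Matrix.smul_mul, Matrix.mul_assoc, Matrix.mul_assoc n Ph e, hPe,
          Matrix.mul_smul, Matrix.mul_smul, smul_smul, Matrix.mul_assoc]
      rw [sub_smul, e1, e2, sub_self]
    exact h3.smul_eq_zero.mp h
  -- `n` is diagonal
  have hdiag : n = (e * n).trace • e + (f * n).trace • f := by
    have h : n = e * n * e + f * n * f := by
      calc n = (e + f) * n * (e + f) := by rw [hef1, one_mul, mul_one]
        _ = e * n * e + e * n * f + f * n * e + f * n * f := by noncomm_ring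
        _ = e * n * e + f * n * f := by rw [henf, hfne, add_zero, add_zero]
    rw [ihta_rank_one e n hdete, ihta_rank_one f n hdetf] at h
    exact h
  set a := (e * n).trace with ha
  set d := (f * n).trace with hd
  have hsq : (a * a) • e + (d * d) • f = 0 := by
    rw [← ihta_diag_mul hee hff hef hfe, ← hdiag, hnn]
  have haa : a * a = 0 := by
    have h := congrArg (fun Z => (e * Z).trace) hsq
    simp only [mul_add, Matrix.mul_smul, hee, hef, smul_zero, add_zero, mul_zero,
      Matrix.trace_smul, htre, Matrix.trace_zero, smul_eq_mul, mul_one] at h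
    exact h
  have hdd : d * d = 0 := by
    have h := congrArg (fun Z => (f * Z).trace) hsq
    simp only [mul_add, Matrix.mul_smul, hff, hfe, smul_zero, zero_add, mul_zero,
      Matrix.trace_smul, htrf, Matrix.trace_zero, smul_eq_mul, mul_one] at h
    exact h
  have ha0 : a = 0 := IsReduced.eq_zero a ⟨2, by rw [sq]; exact haa⟩
  have hd0 : d = 0 := IsReduced.eq_zero d ⟨2, by rw [sq]; exact hdd⟩
  rw [hSg, hdiag, ha0, hd0, zero_smul, zero_smul, add_zero, add_zero]

section Unr

variable {𝒪 : Type} [CommRing 𝒪] [IsLocalRing 𝒪]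
  {T : Type} [CommRing T] [IsLocalRing T] [IsAdicComplete (maximalIdeal T) T] [IsReduced T]
  [Algebra 𝒪 T] [IsLocalHom (algebraMap 𝒪 T)]

/-- **unipotent inertia + generic Frobenius eigenvalues ⟹ unramified** -/
theorem mltm_unramified_of_unipotent {p c : ℕ} (hp : p.Prime) (hc : c.Prime) (hpc : p ≠ c)
    (hpT : (p : T) ∈ maximalIdeal T)
    (ρbar : ResidualGaloisRep (ResidueField 𝒪)) (hunr : ρbar.IsUnramifiedAt c)
    (α β : 𝒪) (hu1 : IsUnit (α - β)) (hu2 : IsUnit (α - (c : 𝒪) * β))
    (hu3 : IsUnit (β - (c : 𝒪) * α))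
    (hfrobc : ∀ P : ValuationSubring Qbar, P.LiesOverPrime c → ∀ σ : GQ, P.IsFrobeniusAt σ c →
      LinearMap.charpoly (ρbar.ρ σ) = (X - C (residue 𝒪 α)) * (X - C (residue 𝒪 β)))
    (ρ : GaloisRepAdic T)
    (hres : ρ.residual.IsEquiv (ρbar.baseChangeAlong (ResidueField.map (algebraMap 𝒪 T))))
    (hunip : ρ.IsUnipotentOnInertiaAt c) : ρ.IsUnramifiedAt c := by
  classical
  set b : Module.Basis (Fin 2) (ResidueField 𝒪) ρbar.V :=
    Module.finBasisOfFinrankEq (ResidueField 𝒪) ρbar.V ρbar.finrank_eq with hb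
  obtain ⟨r, hcts, hstrict, heq⟩ := exists_strictLift_of_residual_isEquiv ρbar b ρ hres
  refine isUnramifiedAt_of_isEquiv (isEquiv_symm heq) ?_
  intro P hP σ hσ
  obtain ⟨φ, hφ⟩ := Fermat.Agent.Lib.Helper6.exists_isFrobeniusAt P hc hP
  obtain ⟨hSg1, hinv, hrel⟩ :=
    ihta_rel_strictLift hp hc hpc hpT ρbar b hunr P hP r hcts hstrict hφ hσ
  -- the inertia element is unipotent
  have hmat : ∀ τ : GQ, LinearMap.toMatrix (ofMatBasis r hcts) (ofMatBasis r hcts)
      ((ofMat r hcts).ρ τ) = r τ := fun τ => DFunLike.congr_fun (toMatrixRep_ofMat r hcts) τ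
  have hunip' := isUnipotentOnInertiaAt_of_isEquiv heq hunip P hP σ hσ
  have hpoly : ((X : T[X]) - 1) ^ 2 = X ^ 2 - C (2 : T) * X + C (1 : T) := by
    rw [map_ofNat, map_one]
    ring
  rw [hpoly] at hunip'
  obtain ⟨htr, hdet⟩ := Fermat.Agent.S31T.s31t_trace_det_of_charpoly (ofMatBasis r hcts)
    ((ofMat r hcts).ρ σ) _ _ hunip'
  rw [hmat] at htr hdet
  -- the Frobenius element
  set ι := ResidueField.map (algebraMap 𝒪 T) with hι
  have hpolyφ : LinearMap.charpoly (ρbar.ρ φ) =
      X ^ 2 - C (residue 𝒪 α + residue 𝒪 β) * X + C (residue 𝒪 α * residue 𝒪 β) := by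
    rw [hfrobc P hP φ hφ, map_add, map_mul]
    ring
  obtain ⟨htrφ, hdetφ⟩ := Fermat.Agent.S31T.s31t_trace_det_of_charpoly b (ρbar.ρ φ) _ _ hpolyφ
  have hst := hstrict φ
  rw [resMat_apply] at hst
  have htrT : residue T (r φ).trace = ι (residue 𝒪 α + residue 𝒪 β) := by
    rw [← htrφ]
    have e1 : residue T (r φ).trace = ((r φ).map (residue T)).trace :=
      AddMonoidHom.map_trace (residue T).toAddMonoidHom (r φ)
    have e2 : ι (LinearMap.toMatrix b b (ρbar.ρ φ)).trace =
        ((LinearMap.toMatrix b b (ρbar.ρ φ)).map ι).trace :=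
      AddMonoidHom.map_trace ι.toAddMonoidHom _
    rw [e1, e2, hst]
  have hdetT : residue T (r φ).det = ι (residue 𝒪 α * residue 𝒪 β) := by
    rw [← hdetφ]
    have e1 : residue T (r φ).det = ((r φ).map (residue T)).det :=
      RingHom.map_det (residue T) (r φ)
    have e2 : ι (LinearMap.toMatrix b b (ρbar.ρ φ)).det =
        ((LinearMap.toMatrix b b (ρbar.ρ φ)).map ι).det := RingHom.map_det ι _
    rw [e1, e2, hst]
  set a₀ : T := algebraMap 𝒪 T α with ha₀
  set b₀ : T := algebraMap 𝒪 T β with hb₀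
  have hra : residue T a₀ = ι (residue 𝒪 α) := by rw [ha₀, hι, ResidueField.map_residue]
  have hrb : residue T b₀ = ι (residue 𝒪 β) := by rw [hb₀, hι, ResidueField.map_residue]
  have hsum0 : a₀ + b₀ - (r φ).trace ∈ maximalIdeal T := by
    rw [← residue_eq_zero_iff, map_sub, map_add, hra, hrb, htrT, map_add, sub_self]
  have hprod0 : a₀ * b₀ - (r φ).det ∈ maximalIdeal T := by
    rw [← residue_eq_zero_iff, map_sub, map_mul, hra, hrb, hdetT, map_mul, sub_self]
  have hunit0 : IsUnit (a₀ - b₀) := by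
    rw [ha₀, hb₀, ← map_sub]
    exact hu1.map _
  obtain ⟨al, be, hsum, hprod, hunit, hal, hbe⟩ :=
    ihta_TW_hensel (r φ) a₀ b₀ hsum0 hprod0 hunit0
  have hcT : ((c : 𝒪) : 𝒪) = (c : 𝒪) := rfl
  have h2 : IsUnit (al - (c : T) * be) := by
    have e : al - (c : T) * be =
        algebraMap 𝒪 T (α - (c : 𝒪) * β) + ((al - a₀) - (c : T) * (be - b₀)) := by
      rw [map_sub, map_mul, map_natCast]
      ring
    rw [e]
    exact ihta_isUnit_add (hu2.map _)
      (Ideal.sub_mem _ hal (Ideal.mul_mem_left _ _ hbe))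
  have h3 : IsUnit (be - (c : T) * al) := by
    have e : be - (c : T) * al =
        algebraMap 𝒪 T (β - (c : 𝒪) * α) + ((be - b₀) - (c : T) * (al - a₀)) := by
      rw [map_sub, map_mul, map_natCast]
      ring
    rw [e]
    exact ihta_isUnit_add (hu3.map _)
      (Ideal.sub_mem _ hbe (Ideal.mul_mem_left _ _ hal))
  have hSg : r σ = 1 :=
    mltm_unip_trivial (r φ) (r σ) c htr hdet hrel al be hsum hprod hunit h2 h3
  apply LinearMap.ext
  intro v
  rw [ofMat_ρ_apply, hSg, Matrix.one_mulVec]
  rfl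

end Unr

end Fermat.Agent.MLT
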