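/-
MLT (project S59) / Min (helper2): **existence of the comparison map `R_Σ → T_Σ`**.

`mltm_compare` : for a valid base datum `B` with `S0 = Smin ∪ cut`, an admissible auxiliary set `Σ`, the
residual eigencharacter `θ` (`B.IsTheta Σ θ`) and any universal deformation ring `D` of type `D^X_Σ`:
there are a Hecke–Galois datum `Hk` over `T_Σ = IhdT 𝒪 θ` with `Hk.π = ihdPi 𝒪 θ` and a SURJECTIVE local
`𝒪`-algebra homomorphism `φ : R_Σ → T_Σ` with `ρ^univ ⊗_φ T_Σ ≅ ρ_{T_Σ}`.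

Proof: `ihd_exists_datum` (helper7) gives `Hk` with residual representation `ρbar`; `Hk.ρ` is of type
`D^X_Σ`: cyclotomic determinant (`ihi_detIsCyclotomic`), flat (S32) resp. ordinary (S33) at `p`,
unramified outside `S_Σ` (S31), unipotent inertia at `q ∥ N_Σ` (S34), and unramified at the cut primes
`c ≠ p` (`mltm_unramified_of_unipotent`: S34 + tame relation + `cut_aux` + `T_Σ` reduced); then S54.
-/
import Mathlib
import Fermat.Agent.Lib.MLT.Min.RT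
import Fermat.Agent.Lib.MLT.Min.CutUnr
import Fermat.Agent.Lib.Ihara.Img.Rep
import Fermat.Agent.Lib.Ihara.Dat.Datum
import Fermat.Agent.S31
import Fermat.Agent.S32
import Fermat.Agent.S33
import Fermat.Agent.S34
import Fermat.Agent.S54

set_option autoImplicit false
set_option linter.unusedSectionVars false
set_option linter.unusedVariables false
set_option linter.style.haveILetI false

open IsLocalRing Polynomial Fermat.Agent.S53Lib Fermat.Agent.TW Fermat.Agent.Ihara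
open scoped TensorProduct

namespace Fermat.Agent.MLT

local notation "Qbar" => AlgebraicClosure ℚ
local notation "GQ" => (AlgebraicClosure ℚ ≃ₐ[ℚ] AlgebraicClosure ℚ)

/-! ### The ordinary condition for residual representations -/

section ResOrd

variable {k k' : Type} [Field k] [Field k']

/-- the ordinary condition at `P` for a residual representation, in raw form -/
def MltmResOrdAt (ρ : ResidualGaloisRep k) (P : ValuationSubring Qbar) : Prop :=
  ∃ L : Submodule k ρ.V,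
    (∃ b : Module.Basis (Fin 2) k ρ.V, L = k ∙ b 0) ∧
    (∀ σ ∈ P.decompositionSubgroup ℚ, ∀ v ∈ L, ρ.ρ σ v ∈ L) ∧
    (∀ σ ∈ P.inertiaSubgroupIn ℚ, ∀ v : ρ.V, ρ.ρ σ v - v ∈ L)

theorem mltm_resOrd_iff (ρ : ResidualGaloisRep k) (p : ℕ) :
    (GaloisRepAdic.ofResidualGaloisRep ρ).IsOrdinaryAt p ↔
      ∀ P : ValuationSubring Qbar, P.LiesOverPrime p → MltmResOrdAt ρ P := Iff.rfl

/-- the ordinary condition for a residual representation is stable under extension of the field -/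
theorem mltm_resOrd_baseChangeAlong (ι : k →+* k') (ρbar : ResidualGaloisRep k) {p : ℕ}
    (h : (GaloisRepAdic.ofResidualGaloisRep ρbar).IsOrdinaryAt p) :
    (GaloisRepAdic.ofResidualGaloisRep (ρbar.baseChangeAlong ι)).IsOrdinaryAt p := by
  rw [mltm_resOrd_iff] at h ⊢
  letI : Algebra k k' := ι.toAlgebra
  intro P hP
  obtain ⟨L, ⟨b, hb⟩, hD, hI⟩ := h P hP
  refine ⟨(k' ∙ ((1 : k') ⊗ₜ[k] b 0) : Submodule k' (k' ⊗[k] ρbar.V)),
    ⟨Algebra.TensorProduct.basis k' b, ?_⟩, ?_, ?_⟩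
  · show (k' ∙ ((1 : k') ⊗ₜ[k] b 0) : Submodule k' (k' ⊗[k] ρbar.V)) =
      k' ∙ (Algebra.TensorProduct.basis k' b 0)
    rw [Algebra.TensorProduct.basis_apply]
  · intro σ hσ v hv
    exact bc_baseChange_span_stable hb (ρbar.ρ σ) (hD σ hσ) v hv
  · intro σ hσ v
    exact bc_baseChange_sub_mem_span (B := k') hb (ρbar.ρ σ) (hI σ hσ) v

/-- the ordinary condition for a residual representation is invariant under equivalence -/
theorem mltm_resOrd_of_isEquiv {ρ₁ ρ₂ : ResidualGaloisRep k} (he : ρ₁.IsEquiv ρ₂) {p : ℕ}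
    (h : (GaloisRepAdic.ofResidualGaloisRep ρ₁).IsOrdinaryAt p) :
    (GaloisRepAdic.ofResidualGaloisRep ρ₂).IsOrdinaryAt p := by
  rw [mltm_resOrd_iff] at h ⊢
  obtain ⟨e⟩ := he
  intro P hP
  obtain ⟨L, ⟨b, hb⟩, hD, hI⟩ := h P hP
  refine ⟨L.map e.toLinearEquiv.toLinearMap, ⟨b.map e.toLinearEquiv, ?_⟩, ?_, ?_⟩
  · rw [hb, Submodule.map_span, Set.image_singleton]
    rfl
  · rintro σ hσ _ ⟨v, hv, rfl⟩
    refine ⟨ρ₁.ρ σ v, hD σ hσ v hv, ?_⟩
    exact e.map_apply σ v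
  · intro σ hσ w
    refine ⟨ρ₁.ρ σ (e.toLinearEquiv.symm w) - e.toLinearEquiv.symm w, hI σ hσ _, ?_⟩
    have h1 := e.map_apply σ (e.toLinearEquiv.symm w)
    rw [LinearEquiv.apply_symm_apply] at h1
    show e.toLinearEquiv (ρ₁.ρ σ (e.toLinearEquiv.symm w) - e.toLinearEquiv.symm w) = _
    rw [map_sub, h1, LinearEquiv.apply_symm_apply]

end ResOrd

/-! ### Arithmetic of the level `N_Σ` -/

section Level

variable {𝒪 : Type} [CommRing 𝒪] [IsDomain 𝒪] [IsDiscreteValuationRing 𝒪] [CharZero 𝒪]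
  [IsAdicComplete (maximalIdeal 𝒪) 𝒪] [Finite (ResidueField 𝒪)]
  (B : MltBase 𝒪) (hB : B.Valid) (Sig : Finset ℕ) (hSig : B.IsAux Sig)

include hSig in
/-- a prime dividing `∏_{q ∈ Σ} q²` belongs to `Σ` -/
theorem mltm_mem_of_dvd_prod {q : ℕ} (hq : q.Prime) (h : q ∣ ∏ q' ∈ Sig, q' ^ 2) : q ∈ Sig := by
  obtain ⟨q', hq', hdvd⟩ := (Prime.dvd_finsetProd_iff hq.prime _).mp h
  have h1 : q ∣ q' := hq.dvd_of_dvd_pow hdvd
  have h2 : q = q' := (Nat.prime_dvd_prime_iff_eq hq (hSig q' hq').1).mp h1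
  rw [h2]
  exact hq'

include hB hSig in
/-- the primes of the level `N_Σ` belong to the bad set `S_Σ` -/
theorem mltm_hNS : ∀ q : ℕ, q.Prime → q ∣ B.level Sig → q ∈ B.bad Sig := by
  intro q hq hdvd
  unfold MltBase.level at hdvd
  unfold MltBase.bad
  rcases (Nat.Prime.dvd_mul hq).mp hdvd with h | h
  · exact Finset.mem_union_left _ (hB.N0_sub q hq h)
  · exact Finset.mem_union_right _ (mltm_mem_of_dvd_prod B Sig hSig hq h)

include hB in
theorem mltm_hpS : B.p ∈ B.bad Sig :=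
  Finset.mem_union_left _ (hB.Smin_sub hB.p_mem_Smin)

include hB hSig in
/-- a prime of `S0` divides the level `N_Σ` exactly as it divides `N0` -/
theorem mltm_dvd_level_iff {q : ℕ} (hq : q.Prime) (hqS : q ∈ B.S0) :
    (q ∣ B.level Sig ↔ q ∣ B.N0) ∧ ¬ q ^ 2 ∣ B.level Sig := by
  have hqSig : q ∉ Sig := fun h => (hSig q h).2 hqS
  have hcop : Nat.Coprime q (∏ q' ∈ Sig, q' ^ 2) := by
    rw [Nat.Prime.coprime_iff_not_dvd hq]
    exact fun h => hqSig (mltm_mem_of_dvd_prod B Sig hSig hq h)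
  unfold MltBase.level
  refine ⟨⟨fun h => ?_, fun h => Dvd.dvd.mul_right h _⟩, fun h => ?_⟩
  · exact hcop.dvd_of_dvd_mul_right h
  · have h1 : q ^ 2 ∣ B.N0 := (Nat.Coprime.pow_left 2 hcop).dvd_of_dvd_mul_right h
    rw [sq] at h1
    exact hq.one_lt.ne' (Nat.isUnit_iff.mp (hB.N0_sqfree q h1))

end Level

/-! ### Powers of the maximal ideal of a finite local algebra -/

section Pow

variable {𝒪 : Type} [CommRing 𝒪] [IsDomain 𝒪] [IsDiscreteValuationRing 𝒪]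
  [IsAdicComplete (maximalIdeal 𝒪) 𝒪]
  (A : Type) [CommRing A] [IsLocalRing A] [Algebra 𝒪 A] [Module.Finite 𝒪 A]

/-- every `(p^n)` contains a power of the maximal ideal of a finite local `𝒪`-algebra -/
theorem mltm_exists_pow_le {p : ℕ} (hp0 : ((p : ℕ) : 𝒪) ≠ 0) (n : ℕ) :
    ∃ m : ℕ, maximalIdeal A ^ m ≤ Ideal.span {((p ^ n : ℕ) : A)} := by
  haveI : IsArtinianRing (A ⧸ (maximalIdeal 𝒪).map (algebraMap 𝒪 A)) :=
    ihd_isArtinianRing_quotient 𝒪 A
  obtain ⟨c, hc⟩ := exists_maximalIdeal_pow_le_of_isArtinianRing_quotient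
    ((maximalIdeal 𝒪).map (algebraMap 𝒪 A))
  have hpn0 : ((p ^ n : ℕ) : 𝒪) ≠ 0 := by
    rw [Nat.cast_pow]
    exact pow_ne_zero n hp0
  obtain ⟨k, hk⟩ := Fermat.Agent.T1.te_exists_pow_le_span (𝒪 := 𝒪) hpn0
  refine ⟨c * k, ?_⟩
  rw [pow_mul]
  refine (Ideal.pow_right_mono hc k).trans ?_
  rw [← Ideal.map_pow]
  refine (Ideal.map_mono hk).trans ?_
  rw [Ideal.map_span, Set.image_singleton, map_natCast]

end Pow

/-! ### The Hecke representation is of type `D^X_Σ` -/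

section Cond

variable {𝒪 : Type} [CommRing 𝒪] [IsDomain 𝒪] [IsDiscreteValuationRing 𝒪] [CharZero 𝒪]
  [IsAdicComplete (maximalIdeal 𝒪) 𝒪] [Finite (ResidueField 𝒪)]
  (B : MltBase 𝒪) (hB : B.Valid) (hS0 : B.S0 = B.Smin ∪ B.cut)
  (Sig : Finset ℕ) (hSig : B.IsAux Sig) [NeZero (B.level Sig)]
  (θ : CuspForm.heckeAlgebra (B.level Sig) 2 (↑(B.bad Sig) : Set ℕ) →+* ResidueField 𝒪)

include hB in
/-- the Frobenius hypothesis of `ihd_exists_datum` -/
theorem mltm_hfrob (hθ : B.IsTheta Sig θ) :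
    ∀ (ℓ : ℕ) (hℓ : ℓ.Prime) (hℓN : ¬ ℓ ∣ B.level Sig) (hℓS : ℓ ∉ (↑(B.bad Sig) : Set ℕ)),
      ∀ P : ValuationSubring Qbar, P.LiesOverPrime ℓ → ∀ σ : GQ, P.IsFrobeniusAt σ ℓ →
        LinearMap.charpoly (B.ρbar.ρ σ) =
          X ^ 2 - C (θ (CuspForm.heckeAlgebra.T hℓ hℓN hℓS)) * X + C ((ℓ : ResidueField 𝒪)) := by
  intro ℓ hℓ hℓN hℓS P hP σ hσ
  rw [hθ ℓ hℓ hℓN hℓS]
  refine hB.frob ℓ hℓ (fun h => hℓS ?_) P hP σ hσ
  exact Finset.mem_coe.mpr (Finset.mem_union_left _ h)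

include hB hS0 hSig in
/-- **the Hecke representation over `T_Σ` is of type `D^X_Σ`** -/
theorem mltm_cond
    (Hk : CuspForm.HeckeGaloisRepDatum (B.level Sig) (↑(B.bad Sig) : Set ℕ) 𝒪 θ (IhdT 𝒪 θ))
    (hres : Hk.ρ.residual.IsEquiv
      (B.ρbar.baseChangeAlong (ResidueField.map (algebraMap 𝒪 (IhdT 𝒪 θ))))) :
    B.cond Sig Hk.ρ := by
  classical
  have hp := hB.prime
  have hp2 := hB.odd
  have hp𝒪 := hB.mem
  have hNS := mltm_hNS B hB Sig hSig
  have hpS := mltm_hpS B hB Sig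
  have hpS0 : B.p ∈ B.S0 := hB.Smin_sub hB.p_mem_Smin
  have hpT : (B.p : IhdT 𝒪 θ) ∈ maximalIdeal (IhdT 𝒪 θ) := by
    have h := map_nonunit (algebraMap 𝒪 (IhdT 𝒪 θ)) _ hp𝒪
    rwa [map_natCast] at h
  have hp0 : ((B.p : ℕ) : 𝒪) ≠ 0 := by
    exact_mod_cast hp.ne_zero
  haveI : IsReduced (IhdT 𝒪 θ) := ihdT_isReduced 𝒪 θ hNS
  have hlN : ∀ l : ℕ, l.Prime → l ∉ B.bad Sig → ¬ l ∣ B.level Sig :=
    fun l hl hlS h => hlS (hNS l hl h)
  -- the unipotent primes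
  have hunip : ∀ q : ℕ, q.Prime → q ≠ B.p → q ∈ B.S0 → q ∣ B.N0 →
      Hk.ρ.IsUnipotentOnInertiaAt q := by
    intro q hq hqp hqS hqN
    obtain ⟨h1, h2⟩ := mltm_dvd_level_iff B hB Sig hSig hq hqS
    exact Fermat.Agent.S34.result hp hp𝒪 hpS hNS Hk q hq hqp (h1.mpr hqN) h2
  refine ⟨⟨?_, ?_, ?_⟩, ?_⟩
  · -- cyclotomic determinant
    refine ihi_detIsCyclotomic hp Hk.ρ hpT (mltm_exists_pow_le (IhdT 𝒪 θ) hp0) (B.bad Sig) hpS ?_
    intro l hl hlS P hP φ hφ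
    have hlS' : l ∉ (↑(B.bad Sig) : Set ℕ) := hlS
    exact ihd_det_of_charpoly Hk.ρ.finrank_eq _ _ _
      (Hk.charpoly_frob l hl (hlN l hl hlS) hlS' P hP φ hφ)
  · -- the condition at `p`
    obtain ⟨h1, h2⟩ := mltm_dvd_level_iff B hB Sig hSig hp hpS0
    have hbar := hB.bar.1.2.1
    have hpN0 : B.p ∣ B.N0 ↔ B.flat = false := by
      rw [hB.N0_dvd_iff B.p hp, hB.p_mem_cut_iff]
      constructor
      · rintro (⟨-, h⟩ | ⟨-, h⟩ | h)
        · exact absurd rfl h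
        · exact h
        · exact h
      · intro h
        exact Or.inr (Or.inl ⟨rfl, h⟩)
    cases hfl : B.flat with
    | true =>
      show Hk.ρ.IsFlatAt B.p
      have hpN : ¬ B.p ∣ B.level Sig := by
        rw [h1, hpN0, hfl]
        exact Bool.noConfusion
      exact Fermat.Agent.S32.result hp hp2 hp𝒪 hpN hpS hNS Hk
    | false =>
      show Hk.ρ.IsOrdinaryAt B.p
      have hpN : B.p ∣ B.level Sig := by
        rw [h1, hpN0, hfl]
      rw [hfl] at hbar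
      have hbar' : (GaloisRepAdic.ofResidualGaloisRep B.ρbar).IsOrdinaryAt B.p := hbar
      refine Fermat.Agent.S33.result hp hp2 hp𝒪 ⟨hpN, h2⟩ hNS Hk ?_
      obtain ⟨eres⟩ := hres
      exact mltm_resOrd_of_isEquiv ⟨eres.symm⟩ (mltm_resOrd_baseChangeAlong _ B.ρbar hbar')
  · -- unramified outside `Smin ∪ Σ`
    intro q hq hqT
    by_cases hqS : q ∈ B.bad Sig
    · -- a cut prime
      have hq0 : q ∈ B.S0 := by
        rcases Finset.mem_union.mp hqS with h | h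
        · exact h
        · exact absurd (Finset.mem_union_right _ h) hqT
      have hqSmin : q ∉ B.Smin := fun h => hqT (Finset.mem_union_left _ h)
      have hqcut : q ∈ B.cut := by
        rw [hS0] at hq0
        rcases Finset.mem_union.mp hq0 with h | h
        · exact absurd h hqSmin
        · exact h
      have hqp : q ≠ B.p := fun h => hqSmin (h ▸ hB.p_mem_Smin)
      obtain ⟨-, b, -, hu1, hu2, hu3, hfr⟩ := hB.cut_aux q hqcut hqp
      have hunr : B.ρbar.IsUnramifiedAt q := by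
        by_contra h
        exact hqSmin ((hB.Smin_iff q hq hqp).mpr h)
      have hqN0 : q ∣ B.N0 := (hB.N0_dvd_iff q hq).mpr (Or.inr (Or.inr hqcut))
      exact mltm_unramified_of_unipotent hp hq (Ne.symm hqp) hpT B.ρbar hunr (B.lam q) b hu1 hu2 hu3
        hfr Hk.ρ hres (hunip q hq hqp hq0 hqN0)
    · exact Fermat.Agent.S31.result hp hp𝒪 hpS hNS Hk q hq hqS
  · -- unipotent inertia at `Smin`
    intro q hqSmin hq hqp
    have hqN0 : q ∣ B.N0 := (hB.N0_dvd_iff q hq).mpr (Or.inl ⟨hqSmin, hqp⟩)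
    exact hunip q hq hqp (hB.Smin_sub hqSmin) hqN0

include hB hS0 hSig in
/-- **existence of the comparison map `R_Σ → T_Σ`** -/
theorem mltm_compare (hθ : B.IsTheta Sig θ)
    (D : GaloisRep.DeformationRingData 𝒪 B.ρbar (B.cond Sig)) :
    ∃ (Hk : CuspForm.HeckeGaloisRepDatum (B.level Sig) (↑(B.bad Sig) : Set ℕ) 𝒪 θ (IhdT 𝒪 θ))
      (φ : D.R →ₐ[𝒪] IhdT 𝒪 θ) (hφ : IsLocalHom (φ : D.R →+* IhdT 𝒪 θ)),
      Hk.π = ihdPi 𝒪 θ ∧
      (D.ρ.baseChangeAlong (φ : D.R →+* IhdT 𝒪 θ) hφ).IsEquiv Hk.ρ ∧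
      Function.Surjective φ := by
  have hNS := mltm_hNS B hB Sig hSig
  obtain ⟨Hk, hπ, hres⟩ := ihd_exists_datum hB.prime hB.odd hB.mem (mltm_hpS B hB Sig) hNS θ
    B.ρbar hB.absIrr (mltm_hfrob B hB Sig θ hθ)
  have hcond := mltm_cond B hB hS0 Sig hSig θ Hk hres
  obtain ⟨φ, hsurj, hφ, hequiv⟩ := Fermat.Agent.S54.result D Hk
    (fun q hq hqN => Finset.mem_coe.mpr (hNS q hq hqN)) hcond hres
  exact ⟨Hk, φ, hφ, hπ, hequiv, hsurj⟩

end Cond

end Fermat.Agent.MLT
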