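/-
MLT (project S59) / Min (helper2): **the Hecke action of `T_Σ = IhdT 𝒪 θ` on `H_Σ = B.H Sig`, for EVERY
admissible `Σ`** (standalone, independent of `R = T`), as requested by lead (m55) for `Top/Step.lean`.

* `mltm_heckeHom`  : the ring homomorphism `a_Σ : 𝕋(N_Σ, S_Σ) →+* End_𝒪 H_Σ`, `T_ℓ ↦ ih4Op ℓ`;
* `mltm_part_top`  : `H_Σ` is its own `θ`-part (`ihdPart 𝒪 a_Σ θ = ⊤`) for every `θ` with `B.IsTheta Σ θ`;
* `mltm_exists_act`: `∃ act : IhdT 𝒪 θ →ₐ[𝒪] End_𝒪 H_Σ` with `act (ihdPi T_ℓ) = ih4Op ℓ` (the literal of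
  clause (3) of `MltRT`), and every `f ∈ End H_Σ` commuting with the `ih4Op ℓ` commutes with `act`;
* `mltm_H_finite`, `mltm_H_free` : `H_Σ` is finite free over `𝒪`; (`IhdT 𝒪 θ` is finite free over `𝒪`
  by helper7's instances `ihdLoc_finite`, `ihdLoc_free`).
-/
import Mathlib
import Fermat.Agent.Lib.MLT.Min.Compare
import Fermat.Agent.Lib.Ihara.H4.HeckeAct
import Fermat.Agent.Lib.Ihara.Glue.Hom
import Fermat.Agent.Lib.Ihara.Glue.Theta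
import Fermat.Agent.Lib.Ihara.Glue.Nil

set_option autoImplicit false
set_option linter.unusedSectionVars false
set_option linter.unusedVariables false
set_option linter.style.haveILetI false

open IsLocalRing Polynomial Fermat.Agent.TW Fermat.Agent.Ihara
open scoped TensorProduct

namespace Fermat.Agent.MLT

set_option maxSynthPendingDepth 3

variable {𝒪 : Type} [CommRing 𝒪] [IsDomain 𝒪] [IsDiscreteValuationRing 𝒪] [CharZero 𝒪]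
  [IsAdicComplete (maximalIdeal 𝒪) 𝒪] [Finite (ResidueField 𝒪)]
  (B : MltBase 𝒪) (hB : B.Valid) (Sig : Finset ℕ) (hSig : B.IsAux Sig) [NeZero (B.level Sig)]

include hB hSig in
/-- the primes of the level belong to the bad set (coerced form) -/
theorem mltm_hNS' : ∀ q : ℕ, q.Prime → q ∣ B.level Sig → q ∈ (↑(B.bad Sig) : Set ℕ) :=
  fun q hq hd => Finset.mem_coe.mpr (mltm_hNS B hB Sig hSig q hq hd)

include hB hSig in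
/-- `H_Σ` is stable under the Hecke algebra away from `S_Σ` -/
theorem mltm_H_stable (t : CuspForm.heckeAlgebra (B.level Sig) 2 (↑(B.bad Sig) : Set ℕ)) :
    ∀ x ∈ B.H Sig, ih4Hecke 𝒪 (B.level Sig) (↑(B.bad Sig) : Set ℕ) t x ∈ B.H Sig := by
  refine ihk_stable_of_gen _ (mltm_hNS' B hB Sig hSig) _ ?_ t
  intro ℓ hℓ hℓN hℓS x hx
  rw [ih4Hecke_T]
  exact ih4Op_mem_part 𝒪 ℓ hx

include hB hSig in
/-- **the Hecke action on `H_Σ`** as a ring homomorphism from the Prelude Hecke algebra -/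
theorem mltm_exists_heckeHom :
    ∃ a : CuspForm.heckeAlgebra (B.level Sig) 2 (↑(B.bad Sig) : Set ℕ) →+*
        Module.End 𝒪 ↥(B.H Sig),
      (∀ t (x : ↥(B.H Sig)), ((a t x : ↥(B.H Sig)) : Ih4H 𝒪 𝒪 (B.level Sig)) =
        ih4Hecke 𝒪 (B.level Sig) (↑(B.bad Sig) : Set ℕ) t (x : Ih4H 𝒪 𝒪 (B.level Sig))) ∧
      (∀ (ℓ : ℕ) (hℓ : ℓ.Prime) (hℓN : ¬ ℓ ∣ B.level Sig) (hℓS : ℓ ∉ (↑(B.bad Sig) : Set ℕ))
        (x : ↥(B.H Sig)),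
        ((a (CuspForm.heckeAlgebra.T hℓ hℓN hℓS) x : ↥(B.H Sig)) : Ih4H 𝒪 𝒪 (B.level Sig)) =
          ih4Op 𝒪 (B.level Sig) ℓ (x : Ih4H 𝒪 𝒪 (B.level Sig))) := by
  obtain ⟨a, ha⟩ := ihk_hom_restrict (ih4Hecke 𝒪 (B.level Sig) (↑(B.bad Sig) : Set ℕ)) (B.H Sig)
    (mltm_H_stable B hB Sig hSig)
  refine ⟨a, ha, fun ℓ hℓ hℓN hℓS x => ?_⟩
  rw [ha, ih4Hecke_T]

/-- the Betti module is free over `𝒪` -/
theorem mltm_ih4H_free (M : ℕ) [NeZero M] : Module.Free 𝒪 (Ih4H 𝒪 𝒪 M) :=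
  Module.Free.of_equiv (Fermat.Agent.T1.tdmBC M 𝒪)

/-- the Betti module is finite over `𝒪` -/
theorem mltm_ih4H_finite (M : ℕ) [NeZero M] : Module.Finite 𝒪 (Ih4H 𝒪 𝒪 M) :=
  Module.Finite.equiv (Fermat.Agent.T1.tdmBC M 𝒪)

/-- `H_Σ` is finite over `𝒪` -/
instance mltm_H_finite : Module.Finite 𝒪 ↥(B.H Sig) := by
  haveI := mltm_ih4H_finite (𝒪 := 𝒪) (B.level Sig)
  haveI : IsNoetherian 𝒪 (Ih4H 𝒪 𝒪 (B.level Sig)) := isNoetherian_of_isNoetherianRing_of_finite 𝒪 _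
  infer_instance

/-- `H_Σ` is free over `𝒪` -/
instance mltm_H_free : Module.Free 𝒪 ↥(B.H Sig) := by
  haveI := mltm_ih4H_finite (𝒪 := 𝒪) (B.level Sig)
  haveI := mltm_ih4H_free (𝒪 := 𝒪) (B.level Sig)
  haveI : Module.IsTorsionFree 𝒪 (Ih4H 𝒪 𝒪 (B.level Sig)) := inferInstance
  haveI : Module.IsTorsionFree 𝒪 ↥(B.H Sig) := inferInstance
  haveI : Module.Finite 𝒪 ↥(B.H Sig) := mltm_H_finite B Sig
  exact @Module.free_of_finite_type_torsion_free' 𝒪 _ ↥(B.H Sig) _ _ _ _ _ _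

include hB hSig in
/-- two ring homomorphisms on the Hecke algebra away from `S_Σ` agreeing on the `T_ℓ` are equal -/
theorem mltm_hecke_hom_ext {A : Type*} [Ring A]
    (f g : CuspForm.heckeAlgebra (B.level Sig) 2 (↑(B.bad Sig) : Set ℕ) →+* A)
    (h : ∀ (ℓ : ℕ) (hℓ : ℓ.Prime) (hℓN : ¬ ℓ ∣ B.level Sig) (hℓS : ℓ ∉ (↑(B.bad Sig) : Set ℕ)),
      f (CuspForm.heckeAlgebra.T hℓ hℓN hℓS) = g (CuspForm.heckeAlgebra.T hℓ hℓN hℓS)) :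
    f = g := by
  refine RingHom.ext fun t => ?_
  induction t using ihk_hecke_induction (mltm_hNS' B hB Sig hSig) with
  | T ℓ hℓ hℓN hℓS => exact h ℓ hℓ hℓN hℓS
  | int r => rw [map_intCast, map_intCast]
  | add x y hx hy => rw [map_add, map_add, hx, hy]
  | mul x y hx hy => rw [map_mul, map_mul, hx, hy]

include hB hSig in
/-- `T_ℓ - t ℓ` is residually nilpotent on `H_Σ` (`ℓ ∉ S_Σ`) -/
theorem mltm_nil_good
    (a : CuspForm.heckeAlgebra (B.level Sig) 2 (↑(B.bad Sig) : Set ℕ) →+*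
      Module.End 𝒪 ↥(B.H Sig))
    (haT : ∀ (ℓ : ℕ) (hℓ : ℓ.Prime) (hℓN : ¬ ℓ ∣ B.level Sig) (hℓS : ℓ ∉ (↑(B.bad Sig) : Set ℕ))
      (x : ↥(B.H Sig)),
      ((a (CuspForm.heckeAlgebra.T hℓ hℓN hℓS) x : ↥(B.H Sig)) : Ih4H 𝒪 𝒪 (B.level Sig)) =
        ih4Op 𝒪 (B.level Sig) ℓ (x : Ih4H 𝒪 𝒪 (B.level Sig)))
    (ℓ : ℕ) (hℓ : ℓ.Prime) (hℓN : ¬ ℓ ∣ B.level Sig) (hℓS : ℓ ∉ (↑(B.bad Sig) : Set ℕ)) :
    ∃ k : ℕ, ∀ x : ↥(B.H Sig),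
      ((a (CuspForm.heckeAlgebra.T hℓ hℓN hℓS) -
        algebraMap 𝒪 (Module.End 𝒪 ↥(B.H Sig)) (B.t ℓ)) ^ k) x
        ∈ maximalIdeal 𝒪 • (⊤ : Submodule 𝒪 ↥(B.H Sig)) := by
  haveI := mltm_ih4H_finite (𝒪 := 𝒪) (B.level Sig)
  have hℓS' : ℓ ∉ B.bad Sig := fun h => hℓS (Finset.mem_coe.mpr h)
  have hℓSig : ℓ ∉ Sig := fun h => hℓS' (Finset.mem_union_right _ h)
  have hℓcut : ℓ ∉ B.cut := fun h => hℓS' (Finset.mem_union_left _ (hB.cut_sub ℓ h).2)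
  have hℓPs : ℓ ∈ B.Ps Sig := Or.inl ⟨hℓ, hℓS'⟩
  have hth : B.theta Sig ℓ = B.t ℓ := B.theta_of_good Sig hℓSig hℓcut
  set f : Module.End 𝒪 (Ih4H 𝒪 𝒪 (B.level Sig)) :=
    ih4Op 𝒪 (B.level Sig) ℓ - algebraMap 𝒪 (Module.End 𝒪 (Ih4H 𝒪 𝒪 (B.level Sig))) (B.theta Sig ℓ)
    with hf
  have hfP : ∀ x ∈ B.H Sig, f x ∈ B.H Sig := by
    intro x hx
    rw [hf, LinearMap.sub_apply, Module.algebraMap_end_apply]
    exact Submodule.sub_mem _ (ih4Op_mem_part 𝒪 ℓ hx) (Submodule.smul_mem _ _ hx)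
  have h1 := ihk_nil_of_topnil (maximalIdeal 𝒪) (B.H Sig) _
    (ih4Part_isCompl 𝒪 (B.level Sig) (B.Ps Sig) (B.theta Sig)) f hfP (by
      intro x hx
      have h2 := (ih4_mem_part 𝒪).mp hx ℓ hℓPs 1
      rw [pow_one] at h2
      exact h2)
  have e : f.restrict hfP = a (CuspForm.heckeAlgebra.T hℓ hℓN hℓS) -
      algebraMap 𝒪 (Module.End 𝒪 ↥(B.H Sig)) (B.t ℓ) := by
    refine LinearMap.ext fun x => Subtype.ext ?_
    rw [LinearMap.coe_restrict_apply, hf, LinearMap.sub_apply, Module.algebraMap_end_apply,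
      LinearMap.sub_apply, Module.algebraMap_end_apply, hth]
    rw [Submodule.coe_sub, Submodule.coe_smul, haT]
  rw [← e]
  exact h1

include hB hSig in
/-- **`H_Σ` is its own `θ`-part** for the Hecke action `a` -/
theorem mltm_part_top
    (a : CuspForm.heckeAlgebra (B.level Sig) 2 (↑(B.bad Sig) : Set ℕ) →+*
      Module.End 𝒪 ↥(B.H Sig))
    (haT : ∀ (ℓ : ℕ) (hℓ : ℓ.Prime) (hℓN : ¬ ℓ ∣ B.level Sig) (hℓS : ℓ ∉ (↑(B.bad Sig) : Set ℕ))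
      (x : ↥(B.H Sig)),
      ((a (CuspForm.heckeAlgebra.T hℓ hℓN hℓS) x : ↥(B.H Sig)) : Ih4H 𝒪 𝒪 (B.level Sig)) =
        ih4Op 𝒪 (B.level Sig) ℓ (x : Ih4H 𝒪 𝒪 (B.level Sig)))
    (θ : CuspForm.heckeAlgebra (B.level Sig) 2 (↑(B.bad Sig) : Set ℕ) →+* ResidueField 𝒪)
    (hθ : B.IsTheta Sig θ) : ihdPart 𝒪 a θ = ⊤ := by
  by_cases hne : Nontrivial ↥(B.H Sig)
  · obtain ⟨θ', hθ', hpart⟩ := ihk_exists_theta 𝒪 a (mltm_hNS' B hB Sig hSig) B.t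
      (mltm_nil_good B hB Sig hSig a haT)
    have e : θ' = θ := mltm_hecke_hom_ext B hB Sig hSig θ' θ (fun ℓ hℓ hℓN hℓS => by
      rw [hθ' ℓ hℓ hℓN hℓS, hθ ℓ hℓ hℓN hℓS])
    rw [← e]
    exact hpart
  · rw [not_nontrivial_iff_subsingleton] at hne
    rw [eq_top_iff]
    intro x _
    rw [Subsingleton.elim x 0]
    exact Submodule.zero_mem _

include hB hSig in
/-- **the Hecke action of `T_Σ = IhdT 𝒪 θ` on `H_Σ`**, for every admissible `Σ` and every `θ` with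
`B.IsTheta Σ θ` -/
theorem mltm_exists_act
    (θ : CuspForm.heckeAlgebra (B.level Sig) 2 (↑(B.bad Sig) : Set ℕ) →+* ResidueField 𝒪)
    (hθ : B.IsTheta Sig θ) :
    ∃ act : IhdT 𝒪 θ →ₐ[𝒪] Module.End 𝒪 ↥(B.H Sig),
      ∀ (ℓ : ℕ) (hℓ : ℓ.Prime) (hℓN : ¬ ℓ ∣ B.level Sig) (hℓS : ℓ ∉ (↑(B.bad Sig) : Set ℕ))
        (x : ↥(B.H Sig)),
        ((act (ihdPi 𝒪 θ (CuspForm.heckeAlgebra.T hℓ hℓN hℓS)) x : ↥(B.H Sig)) :
            Ih4H 𝒪 𝒪 (B.level Sig))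
          = ih4Op 𝒪 (B.level Sig) ℓ (x : Ih4H 𝒪 𝒪 (B.level Sig)) := by
  obtain ⟨a, ha, haT⟩ := mltm_exists_heckeHom B hB Sig hSig
  have hpart := mltm_part_top B hB Sig hSig a haT θ hθ
  let e : ↥(ihdPart 𝒪 a θ) ≃ₗ[𝒪] ↥(B.H Sig) := LinearEquiv.ofTop (ihdPart 𝒪 a θ) hpart
  refine ⟨((e.conjAlgEquiv 𝒪 : Module.End 𝒪 ↥(ihdPart 𝒪 a θ) ≃ₐ[𝒪] Module.End 𝒪 ↥(B.H Sig)) :
    Module.End 𝒪 ↥(ihdPart 𝒪 a θ) →ₐ[𝒪] Module.End 𝒪 ↥(B.H Sig)).comp (ihdPartAct 𝒪 a θ), ?_⟩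
  intro ℓ hℓ hℓN hℓS x
  rw [← haT ℓ hℓ hℓN hℓS x]
  congr 1
  show e (ihdPartAct 𝒪 a θ (ihdPi 𝒪 θ (CuspForm.heckeAlgebra.T hℓ hℓN hℓS)) (e.symm x)) = _
  have h1 := ihdPartAct_pi 𝒪 a θ (CuspForm.heckeAlgebra.T hℓ hℓN hℓS) (e.symm x)
  have h2 : ((e.symm x : ↥(ihdPart 𝒪 a θ)) : ↥(B.H Sig)) = x := rfl
  rw [h2] at h1
  rw [← h1]
  rfl

end Fermat.Agent.MLT
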