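/-
MLT (project S59) / Min (helper2): **the congruence ideal of a reduced finite algebra is non-zero**.

`mltm_eta_ne_bot` : `𝒪` a domain, `T` a reduced Noetherian `𝒪`-algebra integral over `𝒪`,
`π : T →ₐ[𝒪] 𝒪` an augmentation.  Then `η = π (Ann_T (ker π)) ≠ 0` (literally helper6's
`mltc_eta π ≠ ⊥` of `Contracts/Crit.lean`, unfolded).

Proof: `ker π` is a minimal prime (incomparability over `𝒪`, as `ker π ∩ 𝒪 = 0`); the intersection `J`
of the other minimal primes satisfies `J · ker π ⊆ nilradical = 0`, and `J ⊄ ker π` by prime avoidance.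

`mltm_eta_ne_bot_ihdT` : the case `T = IhdT 𝒪 θ` (helper7's local Hecke ring, `ihdT_isReduced`).
-/
import Mathlib
import Fermat.Agent.Lib.Ihara.Dat.Reduced

set_option autoImplicit false
set_option linter.unusedSectionVars false
set_option linter.unusedVariables false
set_option linter.style.haveILetI false

open IsLocalRing

namespace Fermat.Agent.MLT

/-- the kernel of an augmentation of an integral algebra over a domain is a minimal prime -/
theorem mltm_ker_mem_minimalPrimes {O : Type*} [CommRing O] [IsDomain O] {T : Type*} [CommRing T]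
    [Algebra O T] [Algebra.IsIntegral O T] (π : T →ₐ[O] O) :
    RingHom.ker π ∈ minimalPrimes T := by
  haveI hP : (RingHom.ker π).IsPrime := RingHom.ker_isPrime π
  have hcomap : (RingHom.ker π).comap (algebraMap O T) = ⊥ := by
    rw [eq_bot_iff]
    intro x hx
    rw [Ideal.mem_comap, RingHom.mem_ker, AlgHom.commutes] at hx
    exact hx
  refine ⟨⟨hP, bot_le⟩, ?_⟩
  rintro q ⟨hq, -⟩ hqP
  by_contra hPq
  have hlt : q < RingHom.ker π := lt_of_le_of_ne hqP (fun h => hPq h.ge)
  haveI := hq
  have h1 := Ideal.IsIntegral.comap_lt_comap (R := O) hlt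
  rw [hcomap] at h1
  exact not_lt_bot h1

/-- **the congruence ideal `η = π (Ann_T (ker π))` of a reduced Noetherian integral `𝒪`-algebra is
non-zero** -/
theorem mltm_eta_ne_bot {O : Type*} [CommRing O] [IsDomain O] {T : Type*} [CommRing T]
    [Algebra O T] [IsReduced T] [IsNoetherianRing T] [Algebra.IsIntegral O T] (π : T →ₐ[O] O) :
    Ideal.map π (Submodule.annihilator (RingHom.ker π)) ≠ ⊥ := by
  classical
  have hmin := mltm_ker_mem_minimalPrimes π
  haveI hP : (RingHom.ker π).IsPrime := RingHom.ker_isPrime π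
  have hfin : ((minimalPrimes T) \ {RingHom.ker π}).Finite :=
    (minimalPrimes.finite_of_isNoetherianRing T).subset Set.sdiff_subset
  set F : Finset (Ideal T) := hfin.toFinset with hF
  set J : Ideal T := F.inf id with hJ
  -- `J ⊆ Ann (ker π)`
  have hJann : J ≤ Submodule.annihilator (RingHom.ker π) := by
    intro x hx
    rw [Submodule.mem_annihilator]
    intro y hy
    have h0 : x * y ∈ sInf (minimalPrimes T) := by
      rw [Ideal.mem_sInf]
      intro q hq
      by_cases hqP : q = RingHom.ker π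
      · rw [hqP]
        exact Ideal.mul_mem_left _ _ hy
      · have hqF : q ∈ F := by
          rw [hF, Set.Finite.mem_toFinset]
          exact ⟨hq, hqP⟩
        have hJq : J ≤ q := by
          rw [hJ]
          exact Finset.inf_le (f := id) hqF
        exact Ideal.mul_mem_right _ _ (hJq hx)
    have h1 : sInf (minimalPrimes T) = (⊥ : Ideal T) := by
      have h2 := Ideal.sInf_minimalPrimes (I := (⊥ : Ideal T))
      have h3 : (⊥ : Ideal T).radical = ⊥ := by
        rw [← Ideal.zero_eq_bot]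
        exact nilradical_eq_zero T
      rw [h3] at h2
      exact h2
    rw [h1, Ideal.mem_bot] at h0
    rw [smul_eq_mul]
    exact h0
  -- `J ⊄ ker π`
  have hJP : ¬ J ≤ RingHom.ker π := by
    intro h
    rw [hJ, Ideal.IsPrime.inf_le' hP] at h
    obtain ⟨q, hqF, hqP⟩ := h
    rw [hF, Set.Finite.mem_toFinset] at hqF
    obtain ⟨hqmin, hqne⟩ := hqF
    apply hqne
    have h2 : RingHom.ker π ≤ q := hmin.2 ⟨hqmin.1.1, bot_le⟩ hqP
    exact le_antisymm hqP h2
  obtain ⟨s, hsJ, hsP⟩ := SetLike.not_le_iff_exists.mp hJP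
  intro hbot
  have h3 : π s ∈ Ideal.map π (Submodule.annihilator (RingHom.ker π)) :=
    Ideal.mem_map_of_mem _ (hJann hsJ)
  rw [hbot, Ideal.mem_bot] at h3
  exact hsP ((RingHom.mem_ker).mpr h3)

open Fermat.Agent.Ihara in
/-- **`η ≠ 0` for every augmentation of the local Hecke ring `T = IhdT 𝒪 θ`** -/
theorem mltm_eta_ne_bot_ihdT {𝒪 : Type} [CommRing 𝒪] [IsDomain 𝒪] [IsDiscreteValuationRing 𝒪]
    [IsAdicComplete (maximalIdeal 𝒪) 𝒪] [CharZero 𝒪]
    {N : ℕ} [NeZero N] {S : Finset ℕ}
    (θ : CuspForm.heckeAlgebra N 2 (↑S : Set ℕ) →+* ResidueField 𝒪)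
    (hNS : ∀ q : ℕ, q.Prime → q ∣ N → q ∈ S) (π : IhdT 𝒪 θ →ₐ[𝒪] 𝒪) :
    Ideal.map π (Submodule.annihilator (RingHom.ker π)) ≠ ⊥ := by
  haveI : IsReduced (IhdT 𝒪 θ) := ihdT_isReduced 𝒪 θ hNS
  exact mltm_eta_ne_bot π

end Fermat.Agent.MLT
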