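/-
MLT (project S59) / Min (helper2): **algebraic lemmas for the Galois glue**.

* `mltm_exists_beta` : `A` acting on `M`, `E` acting FAITHFULLY on `H`, `pr : M ↠ H`; if `A` is generated
  by elements `a` whose action descends through `pr` to the action of an element of `E`, then there is
  a (unique) `𝒪`-algebra homomorphism `β : A → E` with `pr (a v) = β a (pr v)`.
* `mltm_sc_inv`, `mltm_wl_inv` : the conditions (SC) and (WL) on an inertia scalar are invariant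
  under `aq ↦ aq⁻¹`.
* `mltm_conj_idem` : transport of the spectral idempotent under conjugation.
-/
import Mathlib

set_option autoImplicit false
set_option linter.unusedSectionVars false
set_option linter.unusedVariables false

namespace Fermat.Agent.MLT

section Beta

variable {𝒪 : Type*} [CommRing 𝒪] {A E : Type*} [CommRing A] [CommRing E] [Algebra 𝒪 A]
  [Algebra 𝒪 E] {M H : Type*} [AddCommGroup M] [Module 𝒪 M] [AddCommGroup H] [Module 𝒪 H]
  (ρM : A →ₐ[𝒪] Module.End 𝒪 M) (actE : E →ₐ[𝒪] Module.End 𝒪 H) (pr : M →ₗ[𝒪] H)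

/-- the graph of the correspondence "`a` on `M` descends to `ē` on `H`" -/
def mltmGraph : Subalgebra 𝒪 (A × E) where
  carrier := {y | ∀ v, pr (ρM y.1 v) = actE y.2 (pr v)}
  mul_mem' := by
    intro y y' hy hy' v
    show pr (ρM (y.1 * y'.1) v) = actE (y.2 * y'.2) (pr v)
    rw [map_mul, map_mul, Module.End.mul_apply, Module.End.mul_apply, hy, hy']
  add_mem' := by
    intro y y' hy hy' v
    show pr (ρM (y.1 + y'.1) v) = actE (y.2 + y'.2) (pr v)
    rw [map_add, map_add, LinearMap.add_apply, LinearMap.add_apply, map_add, hy, hy']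
  algebraMap_mem' := by
    intro c v
    show pr (ρM (algebraMap 𝒪 A c) v) = actE (algebraMap 𝒪 E c) (pr v)
    rw [AlgHom.commutes, AlgHom.commutes, Module.algebraMap_end_apply, Module.algebraMap_end_apply,
      map_smul]

theorem mem_mltmGraph (y : A × E) :
    y ∈ mltmGraph ρM actE pr ↔ ∀ v, pr (ρM y.1 v) = actE y.2 (pr v) := Iff.rfl

/-- **the induced homomorphism `β : A → E`** -/
theorem mltm_exists_beta (hpr : Function.Surjective pr) (hinj : Function.Injective actE)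
    (gen : Set A) (hgen : Algebra.adjoin 𝒪 gen = ⊤)
    (hg : ∀ a ∈ gen, ∃ ē : E, ∀ v, pr (ρM a v) = actE ē (pr v)) :
    ∃ β : A →ₐ[𝒪] E, (∀ a v, pr (ρM a v) = actE (β a) (pr v)) ∧
      ∀ (a : A) (ē : E), (∀ v, pr (ρM a v) = actE ē (pr v)) → β a = ē := by
  set G := mltmGraph ρM actE pr with hG
  -- uniqueness of the second component
  have huniq : ∀ (a : A) (ē ē' : E), (∀ v, pr (ρM a v) = actE ē (pr v)) →
      (∀ v, pr (ρM a v) = actE ē' (pr v)) → ē = ē' := by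
    intro a ē ē' h h'
    apply hinj
    refine LinearMap.ext fun x => ?_
    obtain ⟨v, rfl⟩ := hpr x
    rw [← h, ← h']
  let f₁ : ↥G →ₐ[𝒪] A := (AlgHom.fst 𝒪 A E).comp G.val
  let f₂ : ↥G →ₐ[𝒪] E := (AlgHom.snd 𝒪 A E).comp G.val
  have hf₁ : ∀ y : ↥G, f₁ y = (y : A × E).1 := fun _ => rfl
  have hf₂ : ∀ y : ↥G, f₂ y = (y : A × E).2 := fun _ => rfl
  have hinj₁ : Function.Injective f₁ := by
    intro y y' h
    rw [hf₁, hf₁] at h
    apply Subtype.ext
    refine Prod.ext h ?_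
    refine huniq (y : A × E).1 _ _ y.2 ?_
    intro v
    rw [h]
    exact y'.2 v
  have hsurj₁ : Function.Surjective f₁ := by
    have hle : Algebra.adjoin 𝒪 gen ≤ f₁.range := by
      refine Algebra.adjoin_le ?_
      intro a ha
      obtain ⟨ē, hē⟩ := hg a ha
      exact ⟨⟨(a, ē), hē⟩, rfl⟩
    rw [hgen] at hle
    intro a
    obtain ⟨y, hy⟩ := hle (Algebra.mem_top : a ∈ (⊤ : Subalgebra 𝒪 A))
    exact ⟨y, hy⟩
  let eqv : ↥G ≃ₐ[𝒪] A := AlgEquiv.ofBijective f₁ ⟨hinj₁, hsurj₁⟩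
  have heqv : ∀ a, f₁ (eqv.symm a) = a := fun a => eqv.apply_symm_apply a
  have hβ : ∀ a v, pr (ρM a v) = actE (f₂ (eqv.symm a)) (pr v) := by
    intro a v
    have h := (eqv.symm a).2 v
    rw [← hf₁, heqv] at h
    exact h
  refine ⟨f₂.comp (eqv.symm : A →ₐ[𝒪] ↥G), hβ, ?_⟩
  intro a ē hē
  exact huniq a _ _ (hβ a) hē

end Beta

section Inv

variable {𝒪 : Type*} [CommRing 𝒪] {A : Type*} [CommRing A] [Algebra 𝒪 A]
  {M : Type*} [AddCommGroup M] [Module 𝒪 M] (ρM : A →ₐ[𝒪] Module.End 𝒪 M)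

/-- (SC) is invariant under `aq ↦ aq⁻¹` -/
theorem mltm_sc_inv (X : Module.End 𝒪 M) {a a' : A} (haa' : a * a' = 1)
    (h : ∀ v, ∃ u, ρM a v - v = X u - u) : ∀ v, ∃ u, ρM a' v - v = X u - u := by
  intro v
  obtain ⟨u, hu⟩ := h (ρM a' v)
  have h1 : ρM a (ρM a' v) = v := by
    rw [← Module.End.mul_apply, ← map_mul, haa', map_one, Module.End.one_apply]
  rw [h1] at hu
  refine ⟨-u, ?_⟩
  rw [map_neg, ← neg_sub, hu]
  abel

/-- (WL) is invariant under `aq ↦ aq⁻¹` -/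
theorem mltm_wl_inv (Y : Module.End 𝒪 M) {a a' : A} (haa' : a * a' = 1)
    (h : ∀ v, Y v = 0 → ρM a v = v → v = 0) : ∀ v, Y v = 0 → ρM a' v = v → v = 0 := by
  intro v hY hv
  refine h v hY ?_
  have h1 : ρM a (ρM a' v) = v := by
    rw [← Module.End.mul_apply, ← map_mul, haa', map_one, Module.End.one_apply]
  rw [hv] at h1
  exact h1

end Inv

section Conj

variable {A : Type*} [CommRing A]

/-- transport of an idempotent commuting with `Yφ` under the conjugation `R = T Y T⁻¹` -/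
theorem mltm_conj_idem (T : (Matrix (Fin 2) (Fin 2) A)ˣ) (X Yφ Yσ Rφ Rσ : Matrix (Fin 2) (Fin 2) A)
    (hTφ : (T : Matrix (Fin 2) (Fin 2) A) * Yφ = Rφ * T)
    (hTσ : (T : Matrix (Fin 2) (Fin 2) A) * Yσ = Rσ * T)
    (hXX : X * X = X) (htr : X.trace = 1) (hcomm : Yφ * X = X * Yφ) :
    ∃ e' : Matrix (Fin 2) (Fin 2) A, e' * e' = e' ∧ e'.trace = 1 ∧ Rφ * e' = e' * Rφ ∧
      (e' * Rσ).trace = (X * Yσ).trace := by
  set Ti : Matrix (Fin 2) (Fin 2) A := ((T⁻¹ : (Matrix (Fin 2) (Fin 2) A)ˣ) :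
    Matrix (Fin 2) (Fin 2) A) with hTi
  have h1 : Ti * (T : Matrix (Fin 2) (Fin 2) A) = 1 := T.inv_mul
  have h2 : (T : Matrix (Fin 2) (Fin 2) A) * Ti = 1 := T.mul_inv
  have hRφ : Rφ = (T : Matrix (Fin 2) (Fin 2) A) * Yφ * Ti := by
    rw [hTφ, Matrix.mul_assoc, h2, mul_one]
  have hRσ : Rσ = (T : Matrix (Fin 2) (Fin 2) A) * Yσ * Ti := by
    rw [hTσ, Matrix.mul_assoc, h2, mul_one]
  have key : ∀ P Q : Matrix (Fin 2) (Fin 2) A,
      ((T : Matrix (Fin 2) (Fin 2) A) * P * Ti) * ((T : Matrix (Fin 2) (Fin 2) A) * Q * Ti)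
        = (T : Matrix (Fin 2) (Fin 2) A) * (P * Q) * Ti := by
    intro P Q
    calc ((T : Matrix (Fin 2) (Fin 2) A) * P * Ti) * ((T : Matrix (Fin 2) (Fin 2) A) * Q * Ti)
        = (T : Matrix (Fin 2) (Fin 2) A) * P * (Ti * (T : Matrix (Fin 2) (Fin 2) A)) * Q * Ti := by
          simp only [Matrix.mul_assoc]
      _ = (T : Matrix (Fin 2) (Fin 2) A) * (P * Q) * Ti := by
          rw [h1, mul_one]
          simp only [Matrix.mul_assoc]
  have htrc : ∀ P : Matrix (Fin 2) (Fin 2) A,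
      ((T : Matrix (Fin 2) (Fin 2) A) * P * Ti).trace = P.trace := by
    intro P
    rw [Matrix.trace_mul_comm, ← Matrix.mul_assoc, h1, one_mul]
  refine ⟨(T : Matrix (Fin 2) (Fin 2) A) * X * Ti, ?_, ?_, ?_, ?_⟩
  · rw [key, hXX]
  · rw [htrc, htr]
  · rw [hRφ, key, key, hcomm]
  · rw [hRσ, key, htrc]

end Conj

end Fermat.Agent.MLT
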