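/-
MLT (project S59) / Min (helper2): **uniqueness of the spectral projectors of a `2 × 2` matrix with
residually distinct eigenvalues**, and the resulting uniqueness (up to inversion) of the inertia
scalar at a Taylor–Wiles prime.

* `mltm_idem_eq_or` : `A` local, `Ph` with characteristic roots `al, be`, `al - be` a unit; two
  idempotents `e₁, e₂` of trace `1` commuting with `Ph` satisfy `e₂ = e₁ ∨ e₂ = 1 - e₁`.
* `mltm_aq_eq_or` : consequently `tr (e₂ Sg) = tr (e₁ Sg) ∨ tr (e₂ Sg) = tr Sg - tr (e₁ Sg)`.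
-/
import Mathlib
import Fermat.Agent.Lib.Ihara.Ta.TWPrime

set_option autoImplicit false
set_option linter.unusedSectionVars false
set_option linter.unusedVariables false

open IsLocalRing Fermat.Agent.Ihara

namespace Fermat.Agent.MLT

section

variable {A : Type*} [CommRing A] [IsLocalRing A]

/-- an idempotent of a local ring is `0` or `1` -/
theorem mltm_idem_local {s : A} (hs : s * s = s) : s = 0 ∨ s = 1 := by
  have h : s * (1 - s) = 0 := by rw [mul_sub, mul_one, hs, sub_self]
  rcases IsLocalRing.isUnit_or_isUnit_one_sub_self s with hu | hu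
  · right
    have h1 := hu.mul_right_eq_zero.mp h
    rw [sub_eq_zero] at h1
    exact h1.symm
  · left
    rw [mul_comm] at h
    exact hu.mul_right_eq_zero.mp h

/-- an idempotent of trace `1` commuting with `Ph` is one of the two spectral projectors -/
theorem mltm_idem_eq_proj (Ph e E F : Matrix (Fin 2) (Fin 2) A) (al be : A)
    (hunit : IsUnit (al - be))
    (hEF1 : E + F = 1) (hEF : E * F = 0) (hFE : F * E = 0) (hEE : E * E = E) (hFF : F * F = F)
    (htrE : E.trace = 1) (htrF : F.trace = 1) (hdetE : E.det = 0) (hdetF : F.det = 0)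
    (hPh : Ph = al • E + be • F)
    (hee : e * e = e) (htr : e.trace = 1) (hcomm : Ph * e = e * Ph) : e = E ∨ e = F := by
  -- `E` is a polynomial in `Ph`
  have hE : (al - be) • E = Ph - be • 1 := by
    rw [hPh, ← hEF1, smul_add, sub_smul]
    abel
  have hcommE : e * E = E * e := by
    have h : (al - be) • (e * E) = (al - be) • (E * e) := by
      rw [← Matrix.mul_smul, ← Matrix.smul_mul, hE, mul_sub, sub_mul, hcomm, Matrix.mul_smul,
        Matrix.smul_mul, mul_one, one_mul]
    exact hunit.smul_left_cancel.mp h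
  have hcommF : e * F = F * e := by
    have hF : F = 1 - E := by rw [← hEF1]; abel
    rw [hF, mul_sub, sub_mul, mul_one, one_mul, hcommE]
  set s := (E * e).trace with hs
  set t := (F * e).trace with ht
  have hEe : E * e = s • E := by
    have h1 : E * e = E * e * E := by
      rw [Matrix.mul_assoc, hcommE, ← Matrix.mul_assoc, hEE]
    rw [h1, ihta_rank_one E e hdetE]
  have hFe : F * e = t • F := by
    have h1 : F * e = F * e * F := by
      rw [Matrix.mul_assoc, hcommF, ← Matrix.mul_assoc, hFF]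
    rw [h1, ihta_rank_one F e hdetF]
  have hdec : e = s • E + t • F := by
    rw [← hEe, ← hFe, ← add_mul, hEF1, one_mul]
  have hsq : (s * s) • E + (t * t) • F = s • E + t • F := by
    rw [← ihta_diag_mul hEE hFF hEF hFE, ← hdec, hee]
  have hss : s * s = s := by
    have h := congrArg (fun Z => (E * Z).trace) hsq
    simp only [mul_add, Matrix.mul_smul, hEE, hEF, smul_zero, add_zero,
      Matrix.trace_smul, htrE, smul_eq_mul, mul_one] at h
    exact h
  have htt : t * t = t := by
    have h := congrArg (fun Z => (F * Z).trace) hsq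
    simp only [mul_add, Matrix.mul_smul, hFF, hFE, smul_zero, zero_add,
      Matrix.trace_smul, htrF, smul_eq_mul, mul_one] at h
    exact h
  have hst : s + t = 1 := by
    have h := congrArg Matrix.trace hdec
    rw [htr, Matrix.trace_add, Matrix.trace_smul, Matrix.trace_smul, htrE, htrF, smul_eq_mul,
      smul_eq_mul, mul_one, mul_one] at h
    exact h.symm
  rcases mltm_idem_local hss with h0 | h1
  · right
    have ht1 : t = 1 := by rw [h0, zero_add] at hst; exact hst
    rw [hdec, h0, ht1, zero_smul, one_smul, zero_add]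
  · left
    have ht0 : t = 0 := by rw [h1] at hst; exact add_eq_left.mp hst
    rw [hdec, h1, ht0, zero_smul, one_smul, add_zero]

/-- **two idempotents of trace `1` commuting with a matrix with residually distinct eigenvalues are
equal or complementary** -/
theorem mltm_idem_eq_or (Ph e₁ e₂ : Matrix (Fin 2) (Fin 2) A) (al be : A)
    (hsum : al + be = Ph.trace) (hprod : al * be = Ph.det) (hunit : IsUnit (al - be))
    (h₁ : e₁ * e₁ = e₁) (t₁ : e₁.trace = 1) (c₁ : Ph * e₁ = e₁ * Ph)
    (h₂ : e₂ * e₂ = e₂) (t₂ : e₂.trace = 1) (c₂ : Ph * e₂ = e₂ * Ph) :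
    e₂ = e₁ ∨ e₂ = 1 - e₁ := by
  obtain ⟨di, hdi⟩ := hunit.exists_left_inv
  obtain ⟨E, F, hEF1, hEF, hFE, hEE, hFF, -, -, -, -, htrE, htrF, hdetE, hdetF, hPh⟩ :=
    ihta_proj Ph al be di hsum hprod hdi
  have hF : F = 1 - E := by rw [← hEF1]; abel
  have hE' : E = 1 - F := by rw [← hEF1]; abel
  rcases mltm_idem_eq_proj Ph e₁ E F al be hunit hEF1 hEF hFE hEE hFF htrE htrF hdetE hdetF hPh
    h₁ t₁ c₁ with a1 | a1 <;>
  rcases mltm_idem_eq_proj Ph e₂ E F al be hunit hEF1 hEF hFE hEE hFF htrE htrF hdetE hdetF hPh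
    h₂ t₂ c₂ with a2 | a2
  · left; rw [a1, a2]
  · right; rw [a1, a2, hF]
  · right; rw [a1, a2, hE']
  · left; rw [a1, a2]

/-- **the inertia scalar is unique up to passing to the other eigenline** -/
theorem mltm_aq_eq_or (Ph Sg e₁ e₂ : Matrix (Fin 2) (Fin 2) A) (al be : A)
    (hsum : al + be = Ph.trace) (hprod : al * be = Ph.det) (hunit : IsUnit (al - be))
    (h₁ : e₁ * e₁ = e₁) (t₁ : e₁.trace = 1) (c₁ : Ph * e₁ = e₁ * Ph)
    (h₂ : e₂ * e₂ = e₂) (t₂ : e₂.trace = 1) (c₂ : Ph * e₂ = e₂ * Ph) :
    (e₂ * Sg).trace = (e₁ * Sg).trace ∨ (e₂ * Sg).trace = Sg.trace - (e₁ * Sg).trace := by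
  rcases mltm_idem_eq_or Ph e₁ e₂ al be hsum hprod hunit h₁ t₁ c₁ h₂ t₂ c₂ with h | h
  · left; rw [h]
  · right; rw [h, sub_mul, one_mul, Matrix.trace_sub]

end

end Fermat.Agent.MLT
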