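/-
MLT (project S59) / Min (helper2): **abstract Taylor–Wiles–Diamond patching, matrix form**.

`P = 𝒪⟦x_1..x_r⟧` plays both roles `R_∞` (source of `ψ n`, `Θ n`) and `S_∞ = 𝒪⟦S_1..S_r⟧` (the ring of
diamond operators; `ihaIdeal 𝒪 r p n = ((1+S_i)^{p^n} - 1) + 𝔪^n`).  For every level `n` we are given

* `ψ n : P →ₐ[𝒪] R` surjective (`P → R_{Q_n} → R_∅`),
* `Θ n : P →ₐ[𝒪] Mat_d (P ⧸ ihaIdeal n)` (the action of `P → R_{Q_n} → T_{Q_n}` on the Hecke module
  `H_{Q_n} ⊗ P ⧸ ihaIdeal n`, free of rank `d` over `P ⧸ ihaIdeal n`, in a basis),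
* `y n i ∈ P` with `ψ n (y n i) = 0` and `Θ n (y n i) = S_i` (lifts of the inertia scalars),
* compatibility: `Θ n f` modulo the augmentation ideal is the matrix of `ψ n f` on `H` (free of rank
  `d` over `𝒪`, basis `e`) modulo `𝔪^n`.

Conclusion: an `Algebra.PatchingLevel 𝒪 r R H ⊥`, hence (S57) `H` is free over `R`, `R` acts faithfully
on `H`, and `R` is a complete intersection `P / (y_1, …, y_r)`.
-/
import Mathlib
import Fermat.Agent.S57
import Fermat.Agent.Lib.Ihara.P.Patch2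
import Fermat.Agent.Lib.Ihara.Asm.Ring
import Fermat.Agent.Lib.S53.PowerSeriesLocal

set_option autoImplicit false
set_option linter.unusedSectionVars false
set_option linter.unusedVariables false
set_option linter.style.haveILetI false

open IsLocalRing MvPowerSeries Fermat.Agent.Ihara Fermat.Agent.S53Lib

namespace Fermat.Agent.MLT

/-! ### Ultralimits of ring homomorphisms -/

section Ulim

variable {A R : Type*} [CommRing A] [CommRing R] (I : Ideal R) [IsAdicComplete I R]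
  (hfin : ∀ k, Finite (R ⧸ I ^ k))

include hfin in
/-- the ultralimit of a sequence of ring homs into an adically complete ring with finite quotients -/
theorem mltm_ulim_ringHom (ψ : ℕ → A →+* R) :
    ∃ Ψ : A →+* R, ∀ a k, ∀ᶠ n in (ihpU : Filter ℕ), ψ n a - Ψ a ∈ I ^ k := by
  have h1 : ∀ a : A, ∃ l : R, ∀ k, ∀ᶠ n in (ihpU : Filter ℕ), ψ n a - l ∈ I ^ k :=
    fun a => ihp_ulim I hfin fun n => ψ n a
  choose Ψ hΨ using h1
  haveI : IsHausdorff I R := IsAdicComplete.toIsHausdorff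
  have hone : Ψ 1 = 1 := by
    refine ihp_ulim_unique I (fun n => ψ n 1) (hΨ 1) fun k => ?_
    refine Filter.Eventually.of_forall fun n => ?_
    rw [map_one, sub_self]
    exact zero_mem _
  have hzero : Ψ 0 = 0 := by
    refine ihp_ulim_unique I (fun n => ψ n 0) (hΨ 0) fun k => ?_
    refine Filter.Eventually.of_forall fun n => ?_
    rw [map_zero, sub_self]
    exact zero_mem _
  have hadd : ∀ a b, Ψ (a + b) = Ψ a + Ψ b := by
    intro a b
    refine ihp_ulim_unique I (fun n => ψ n (a + b)) (hΨ (a + b)) fun k => ?_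
    filter_upwards [hΨ a k, hΨ b k] with n h1 h2
    have : ψ n (a + b) - (Ψ a + Ψ b) = (ψ n a - Ψ a) + (ψ n b - Ψ b) := by
      rw [map_add]; ring
    rw [this]
    exact Ideal.add_mem _ h1 h2
  have hmul : ∀ a b, Ψ (a * b) = Ψ a * Ψ b := by
    intro a b
    refine ihp_ulim_unique I (fun n => ψ n (a * b)) (hΨ (a * b)) fun k => ?_
    filter_upwards [hΨ a k, hΨ b k] with n h1 h2
    have : ψ n (a * b) - (Ψ a * Ψ b) = (ψ n a - Ψ a) * ψ n b + Ψ a * (ψ n b - Ψ b) := by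
      rw [map_mul]; ring
    rw [this]
    exact Ideal.add_mem _ (Ideal.mul_mem_right _ _ h1) (Ideal.mul_mem_left _ _ h2)
  exact ⟨{ toFun := Ψ, map_one' := hone, map_mul' := hmul, map_zero' := hzero, map_add' := hadd },
    hΨ⟩

end Ulim

noncomputable section

/-! ### The patched module -/

/-- the module `P^d`, `P = 𝒪⟦x_1..x_r⟧` (with `P` acting through a ring hom `θ : P → Mat_d P`) -/
def MltmN (𝒪 : Type) [CommRing 𝒪] (r d : ℕ) : Type := Fin d → MvPowerSeries (Fin r) 𝒪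

instance mltmN_addCommGroup (𝒪 : Type) [CommRing 𝒪] (r d : ℕ) : AddCommGroup (MltmN 𝒪 r d) :=
  inferInstanceAs (AddCommGroup (Fin d → MvPowerSeries (Fin r) 𝒪))

/-- the identification `MltmN = P^d` -/
def mltmNEquiv (𝒪 : Type) [CommRing 𝒪] (r d : ℕ) :
    MltmN 𝒪 r d ≃+ (Fin d → MvPowerSeries (Fin r) 𝒪) :=
  AddEquiv.refl (Fin d → MvPowerSeries (Fin r) 𝒪)

section Level

variable {𝒪 : Type} [CommRing 𝒪] {r d : ℕ}

/-- `P` acts on `P^d` through `θ` -/
@[reducible] def mltmNModule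
    (θ : MvPowerSeries (Fin r) 𝒪 →+* Matrix (Fin d) (Fin d) (MvPowerSeries (Fin r) 𝒪)) :
    Module (MvPowerSeries (Fin r) 𝒪) (MltmN 𝒪 r d) where
  smul f x := (mltmNEquiv 𝒪 r d).symm ((θ f).mulVec (mltmNEquiv 𝒪 r d x))
  one_smul x := by
    show (mltmNEquiv 𝒪 r d).symm ((θ 1).mulVec (mltmNEquiv 𝒪 r d x)) = x
    rw [map_one, Matrix.one_mulVec, AddEquiv.symm_apply_apply]
  mul_smul f g x := by
    show (mltmNEquiv 𝒪 r d).symm ((θ (f * g)).mulVec (mltmNEquiv 𝒪 r d x))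
      = (mltmNEquiv 𝒪 r d).symm ((θ f).mulVec (mltmNEquiv 𝒪 r d
          ((mltmNEquiv 𝒪 r d).symm ((θ g).mulVec (mltmNEquiv 𝒪 r d x)))))
    rw [map_mul, AddEquiv.apply_symm_apply, Matrix.mulVec_mulVec]
  smul_zero f := by
    show (mltmNEquiv 𝒪 r d).symm ((θ f).mulVec (mltmNEquiv 𝒪 r d 0)) = 0
    rw [map_zero, Matrix.mulVec_zero, map_zero]
  smul_add f x y := by
    show (mltmNEquiv 𝒪 r d).symm ((θ f).mulVec (mltmNEquiv 𝒪 r d (x + y)))
      = (mltmNEquiv 𝒪 r d).symm ((θ f).mulVec (mltmNEquiv 𝒪 r d x))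
        + (mltmNEquiv 𝒪 r d).symm ((θ f).mulVec (mltmNEquiv 𝒪 r d y))
    rw [map_add, Matrix.mulVec_add, map_add]
  add_smul f g x := by
    show (mltmNEquiv 𝒪 r d).symm ((θ (f + g)).mulVec (mltmNEquiv 𝒪 r d x))
      = (mltmNEquiv 𝒪 r d).symm ((θ f).mulVec (mltmNEquiv 𝒪 r d x))
        + (mltmNEquiv 𝒪 r d).symm ((θ g).mulVec (mltmNEquiv 𝒪 r d x))
    rw [map_add, Matrix.add_mulVec, map_add]
  zero_smul x := by
    show (mltmNEquiv 𝒪 r d).symm ((θ 0).mulVec (mltmNEquiv 𝒪 r d x)) = 0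
    rw [map_zero, Matrix.zero_mulVec, map_zero]

end Level

section Limit

variable {𝒪 : Type} [CommRing 𝒪] [IsDomain 𝒪] [IsDiscreteValuationRing 𝒪]
  [IsAdicComplete (maximalIdeal 𝒪) 𝒪] [Finite (ResidueField 𝒪)] {r d : ℕ}

/-- a ring hom `P → Mat_d P` is continuous -/
theorem mltm_theta_cont
    (θ : MvPowerSeries (Fin r) 𝒪 →+* Matrix (Fin d) (Fin d) (MvPowerSeries (Fin r) 𝒪)) (k : ℕ) :
    ∃ N : ℕ, ∀ x ∈ maximalIdeal (MvPowerSeries (Fin r) 𝒪) ^ N, ∀ i j,
      θ x i j ∈ maximalIdeal (MvPowerSeries (Fin r) 𝒪) ^ k := by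
  haveI : Finite (MvPowerSeries (Fin r) 𝒪 ⧸ maximalIdeal (MvPowerSeries (Fin r) 𝒪) ^ k) :=
    iha_finite_quot_pow k
  haveI : Finite (Matrix (Fin d) (Fin d)
      (MvPowerSeries (Fin r) 𝒪 ⧸ maximalIdeal (MvPowerSeries (Fin r) 𝒪) ^ k)) :=
    inferInstanceAs (Finite (Fin d → Fin d →
      (MvPowerSeries (Fin r) 𝒪 ⧸ maximalIdeal (MvPowerSeries (Fin r) 𝒪) ^ k)))
  set f : MvPowerSeries (Fin r) 𝒪 →+* Matrix (Fin d) (Fin d)
      (MvPowerSeries (Fin r) 𝒪 ⧸ maximalIdeal (MvPowerSeries (Fin r) 𝒪) ^ k) :=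
    (Ideal.Quotient.mk (maximalIdeal (MvPowerSeries (Fin r) 𝒪) ^ k)).mapMatrix.comp θ with hf
  refine ⟨Nat.card (Matrix (Fin d) (Fin d)
      (MvPowerSeries (Fin r) 𝒪 ⧸ maximalIdeal (MvPowerSeries (Fin r) 𝒪) ^ k)), fun x hx i j => ?_⟩
  have h1 : f x = 0 := ihp_map_pow_eq_zero f le_rfl hx
  have h2 := congrFun (congrFun h1 i) j
  rw [hf, RingHom.comp_apply, RingHom.mapMatrix_apply, Matrix.map_apply, Matrix.zero_apply,
    Ideal.Quotient.eq_zero_iff_mem] at h2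
  exact h2

/-- `θ ∘ φ` is the scalar embedding, when `φ x_i = y_i` and `θ y_i = x_i` -/
theorem mltm_theta_eval
    (θ : MvPowerSeries (Fin r) 𝒪 →+* Matrix (Fin d) (Fin d) (MvPowerSeries (Fin r) 𝒪))
    (y : Fin r → MvPowerSeries (Fin r) 𝒪)
    (hy : ∀ i, y i ∈ maximalIdeal (MvPowerSeries (Fin r) 𝒪))
    (hyθ : ∀ i, θ (y i) = Matrix.scalar (Fin d) (X i : MvPowerSeries (Fin r) 𝒪))
    (hC : ∀ c : 𝒪, θ (C c) = Matrix.scalar (Fin d) (C c : MvPowerSeries (Fin r) 𝒪))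
    (c : MvPowerSeries (Fin r) 𝒪) :
    θ (evalAdic (𝒪 := 𝒪) (maximalIdeal (MvPowerSeries (Fin r) 𝒪)) y hy c)
      = Matrix.scalar (Fin d) c := by
  classical
  set φ := evalAdic (𝒪 := 𝒪) (maximalIdeal (MvPowerSeries (Fin r) 𝒪)) y hy with hφ
  -- polynomials
  have hpoly : ∀ q : MvPolynomial (Fin r) 𝒪, θ (φ (q : MvPowerSeries (Fin r) 𝒪))
      = Matrix.scalar (Fin d) (q : MvPowerSeries (Fin r) 𝒪) := by
    intro q
    rw [hφ, evalAdic_coe]
    induction q using MvPolynomial.induction_on with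
    | C a =>
      rw [MvPolynomial.aeval_C, MvPolynomial.coe_C, ← MvPowerSeries.c_eq_algebraMap, hC]
    | add q₁ q₂ h₁ h₂ =>
      rw [map_add, map_add, h₁, h₂, MvPolynomial.coe_add, map_add]
    | mul_X q i hq =>
      rw [map_mul, map_mul, hq, MvPolynomial.aeval_X, hyθ, MvPolynomial.coe_mul,
        MvPolynomial.coe_X, map_mul]
  refine Matrix.ext fun i j => ?_
  rw [← sub_eq_zero]
  apply ihp_eq_zero_of_forall_mem (maximalIdeal (MvPowerSeries (Fin r) 𝒪))
  intro k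
  obtain ⟨N, hN⟩ := mltm_theta_cont θ k
  set m := max N k with hm
  have htail := sub_truncTotal_mem_span_X_pow m c
  set q : MvPolynomial (Fin r) 𝒪 := truncTotal m c with hq
  set tl : MvPowerSeries (Fin r) 𝒪 := c - (q : MvPowerSeries (Fin r) 𝒪) with htl
  have hXle : Ideal.span (Set.range (X : Fin r → MvPowerSeries (Fin r) 𝒪))
      ≤ maximalIdeal (MvPowerSeries (Fin r) 𝒪) := by
    rw [maximalIdeal_eq_idealMX]
    exact span_X_le_idealMX _
  have htlm : tl ∈ maximalIdeal (MvPowerSeries (Fin r) 𝒪) ^ m := Ideal.pow_right_mono hXle m htail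
  have hφtl : φ tl ∈ maximalIdeal (MvPowerSeries (Fin r) 𝒪) ^ m := by
    refine algHom_mem_pow_of_mem_span_X_pow (maximalIdeal (MvPowerSeries (Fin r) 𝒪)) φ ?_ htail
    intro i
    rw [hφ, evalAdic_X]
    exact hy i
  have h1 : θ (φ tl) i j ∈ maximalIdeal (MvPowerSeries (Fin r) 𝒪) ^ k :=
    hN _ (Ideal.pow_le_pow_right (le_max_left N k) hφtl) i j
  have h2 : Matrix.scalar (Fin d) tl i j ∈ maximalIdeal (MvPowerSeries (Fin r) 𝒪) ^ k := by
    rw [Matrix.scalar_apply, Matrix.diagonal_apply]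
    split_ifs
    · exact Ideal.pow_le_pow_right (le_max_right N k) htlm
    · exact zero_mem _
  have hc : c = (q : MvPowerSeries (Fin r) 𝒪) + tl := by rw [htl]; ring
  have h3 : θ (φ c) i j - Matrix.scalar (Fin d) c i j
      = θ (φ tl) i j - Matrix.scalar (Fin d) tl i j := by
    conv_lhs => rw [hc]
    rw [map_add, map_add, map_add, hpoly q, Matrix.add_apply, Matrix.add_apply]
    ring
  rw [h3]
  exact Ideal.sub_mem _ h1 h2

/-- the variables are not units -/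
theorem mltm_X_not_isUnit (i : Fin r) : ¬ IsUnit (X i : MvPowerSeries (Fin r) 𝒪) := by
  intro h
  have h1 : IsUnit (constantCoeff (X i : MvPowerSeries (Fin r) 𝒪)) := h.map _
  rw [MvPowerSeries.constantCoeff_X] at h1
  exact not_isUnit_zero h1

/-- **the patching level from the limit data** -/
theorem mltm_level_of_limit
    {R : Type} [CommRing R] [Algebra 𝒪 R]
    {H : Type} [AddCommGroup H] [Module 𝒪 H] [Module R H] [IsScalarTower 𝒪 R H]
    (e : Module.Basis (Fin d) 𝒪 H) (hd : 0 < d)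
    (θ : MvPowerSeries (Fin r) 𝒪 →+* Matrix (Fin d) (Fin d) (MvPowerSeries (Fin r) 𝒪))
    (ψ : MvPowerSeries (Fin r) 𝒪 →ₐ[𝒪] R) (y : Fin r → MvPowerSeries (Fin r) 𝒪)
    (hψ : Function.Surjective ψ) (hyψ : ∀ i, ψ (y i) = 0)
    (hyθ : ∀ i, θ (y i) = Matrix.scalar (Fin d) (X i : MvPowerSeries (Fin r) 𝒪))
    (hC : ∀ c : 𝒪, θ (C c) = Matrix.scalar (Fin d) (C c : MvPowerSeries (Fin r) 𝒪))
    (hcompat : ∀ f i j, constantCoeff (θ f i j) = e.repr (ψ f • e j) i) :
    Nonempty (Algebra.PatchingLevel 𝒪 r R H ⊥) := by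
  classical
  -- the `y i` lie in the maximal ideal
  have hy : ∀ i, y i ∈ maximalIdeal (MvPowerSeries (Fin r) 𝒪) := by
    intro i
    by_contra hcon
    have hu : IsUnit (y i) := by
      by_contra hnu
      exact hcon hnu
    obtain ⟨u, hu⟩ := hu
    have h1 : θ (y i) * θ ((u⁻¹ : (MvPowerSeries (Fin r) 𝒪)ˣ) : MvPowerSeries (Fin r) 𝒪) = 1 := by
      rw [← map_mul, ← hu, Units.mul_inv, map_one]
    rw [hyθ] at h1
    have h2 := congrFun (congrFun h1 ⟨0, hd⟩) ⟨0, hd⟩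
    rw [Matrix.scalar_apply, Matrix.diagonal_mul, Matrix.one_apply_eq] at h2
    exact mltm_X_not_isUnit (𝒪 := 𝒪) i (IsUnit.of_mul_eq_one _ h2)
  set φ := evalAdic (𝒪 := 𝒪) (maximalIdeal (MvPowerSeries (Fin r) 𝒪)) y hy with hφ
  have hφX : ∀ i, φ (X i) = y i := fun i => by rw [hφ, evalAdic_X]
  have hθφ : ∀ c, θ (φ c) = Matrix.scalar (Fin d) c := fun c => mltm_theta_eval θ y hy hyθ hC c
  letI : Module (MvPowerSeries (Fin r) 𝒪) (MltmN 𝒪 r d) := mltmNModule θ
  set E := mltmNEquiv 𝒪 r d with hE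
  have hsmul : ∀ (f : MvPowerSeries (Fin r) 𝒪) (x : MltmN 𝒪 r d),
      E (f • x) = (θ f).mulVec (E x) := fun f x => rfl
  have hφsmul : ∀ (c : MvPowerSeries (Fin r) 𝒪) (x : MltmN 𝒪 r d) (i : Fin d),
      E (φ c • x) i = c * E x i := by
    intro c x i
    rw [hsmul, hθφ, Matrix.scalar_apply, Matrix.mulVec_diagonal]
  -- sums of multiples of the standard basis
  have hsum : ∀ (c : Fin d → MvPowerSeries (Fin r) 𝒪) (i : Fin d),
      E (∑ l, φ (c l) • E.symm (Pi.single l 1)) i = c i := by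
    intro c i
    rw [map_sum, Finset.sum_apply]
    have h1 : ∀ l, E (φ (c l) • E.symm (Pi.single l 1)) i = if i = l then c l else 0 := by
      intro l
      rw [hφsmul, AddEquiv.apply_symm_apply, Pi.single_apply]
      split_ifs <;> simp
    rw [Finset.sum_congr rfl fun l _ => h1 l, Finset.sum_ite_eq Finset.univ i,
      if_pos (Finset.mem_univ i)]
  -- the projection
  set π : MltmN 𝒪 r d →+ H :=
    { toFun := fun x => ∑ i, constantCoeff (E x i) • e i
      map_zero' := by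
        refine Finset.sum_eq_zero fun i _ => ?_
        rw [map_zero, Pi.zero_apply, map_zero, zero_smul]
      map_add' := fun x x' => by
        rw [← Finset.sum_add_distrib]
        refine Finset.sum_congr rfl fun i _ => ?_
        rw [map_add, Pi.add_apply, map_add, add_smul] } with hπ
  have hπapp : ∀ x : MltmN 𝒪 r d, π x = ∑ i, constantCoeff (E x i) • e i := fun x => rfl
  have hπsmul : ∀ (f : MvPowerSeries (Fin r) 𝒪) (x : MltmN 𝒪 r d), π (f • x) = ψ f • π x := by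
    intro f x
    have h1 : ∀ j, ψ f • e j = ∑ i, constantCoeff (θ f i j) • e i := by
      intro j
      conv_lhs => rw [← e.sum_repr (ψ f • e j)]
      exact Finset.sum_congr rfl fun i _ => by rw [hcompat]
    calc π (f • x)
        = ∑ i, (∑ j, constantCoeff (θ f i j) * constantCoeff (E x j)) • e i := by
          rw [hπapp]
          refine Finset.sum_congr rfl fun i _ => ?_
          congr 1
          rw [hsmul]
          show constantCoeff (∑ j, θ f i j * E x j) = _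
          rw [map_sum]
          exact Finset.sum_congr rfl fun j _ => map_mul _ _ _
      _ = ∑ i, ∑ j, (constantCoeff (θ f i j) * constantCoeff (E x j)) • e i :=
          Finset.sum_congr rfl fun i _ => Finset.sum_smul
      _ = ∑ j, ∑ i, (constantCoeff (θ f i j) * constantCoeff (E x j)) • e i := Finset.sum_comm
      _ = ∑ j, constantCoeff (E x j) • (ψ f • e j) := by
          refine Finset.sum_congr rfl fun j _ => ?_
          rw [h1 j, Finset.smul_sum]
          refine Finset.sum_congr rfl fun i _ => ?_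
          rw [smul_smul, mul_comm]
      _ = ψ f • π x := by
          rw [hπapp, Finset.smul_sum]
          exact Finset.sum_congr rfl fun j _ => (smul_comm _ _ _)
  have hψI : ∀ a ∈ Ideal.span (Set.range fun i : Fin r => φ (X i)), ψ a = 0 := by
    intro a ha
    have : Ideal.span (Set.range fun i : Fin r => φ (X i)) ≤ RingHom.ker (ψ : _ →+* R) := by
      rw [Ideal.span_le]
      rintro _ ⟨i, rfl⟩
      rw [SetLike.mem_coe, RingHom.mem_ker]
      show ψ (φ (X i)) = 0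
      rw [hφX, hyψ]
    exact this ha
  refine ⟨{ N := MltmN 𝒪 r d
            φ := φ
            ψ := ψ
            ψ_surjective := hψ
            ψ_φ_X := fun i => by rw [hφX, hyψ]
            π := π
            π_smul := hπsmul
            π_surjective := ?_
            ker_π := ?_
            d := d
            b := fun i => E.symm (Pi.single i 1)
            b_span := ?_
            b_rel := ?_ }⟩
  · -- surjectivity of `π`
    intro h
    refine ⟨E.symm (fun i => C (e.repr h i)), ?_⟩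
    rw [hπapp]
    conv_rhs => rw [← e.sum_repr h]
    refine Finset.sum_congr rfl fun i _ => ?_
    rw [AddEquiv.apply_symm_apply, MvPowerSeries.constantCoeff_C]
  · -- the kernel of `π`
    intro x
    constructor
    · intro hx
      rw [hπapp] at hx
      have h1 : ∀ i, constantCoeff (E x i) = 0 :=
        Fintype.linearIndependent_iff.mp e.linearIndependent (fun i => constantCoeff (E x i)) hx
      have h2 : ∀ i, E x i ∈ Ideal.span (Set.range (X : Fin r → MvPowerSeries (Fin r) 𝒪)) := by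
        intro i
        have h3 : E x i ∈ Ideal.span (Set.range (X : Fin r → MvPowerSeries (Fin r) 𝒪)) ^ 1 := by
          refine mem_span_X_pow_of_coeff_eq_zero ?_
          intro m hm
          have hm0 : m = 0 := by
            have : m.degree = 0 := by omega
            exact (Finsupp.degree_eq_zero_iff m).mp this
          subst hm0
          rw [MvPowerSeries.coeff_zero_eq_constantCoeff_apply]
          exact h1 i
        rwa [pow_one] at h3
      have h4 : ∀ i, ∃ g : Fin r → MvPowerSeries (Fin r) 𝒪, E x i = ∑ l, g l * X l := by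
        intro i
        obtain ⟨g, hg⟩ := (Ideal.mem_span_range_iff_exists_fun).mp (h2 i)
        exact ⟨g, hg.symm⟩
      choose g hg using h4
      have h5 : x = ∑ l, φ (X l) • E.symm (fun i => g i l) := by
        apply E.injective
        funext i
        rw [hg i, map_sum, Finset.sum_apply]
        refine Finset.sum_congr rfl fun l _ => ?_
        rw [hφsmul, AddEquiv.apply_symm_apply, mul_comm]
      rw [h5]
      refine Submodule.sum_mem _ fun l _ => ?_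
      exact Submodule.smul_mem_smul (Ideal.subset_span ⟨l, rfl⟩) Submodule.mem_top
    · intro hx
      refine Submodule.smul_induction_on hx ?_ ?_
      · intro a ha n _
        rw [hπsmul, hψI a ha, zero_smul]
      · intro x₁ x₂ h₁ h₂
        rw [map_add, h₁, h₂, add_zero]
  · -- the basis spans
    intro x
    refine ⟨fun i => E x i, ?_⟩
    apply E.injective
    funext i
    rw [hsum]
  · -- the basis is free
    intro c
    constructor
    · intro h i
      rw [Ideal.mem_bot, ← hsum c i, h, map_zero, Pi.zero_apply]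
    · intro h
      apply E.injective
      funext i
      rw [hsum, map_zero, Pi.zero_apply]
      exact (Ideal.mem_bot).mp (h i)

/-- the constant coefficient maps `𝔪_P ^ k` into `𝔪 ^ k` -/
theorem mltm_constantCoeff_mem_pow (k : ℕ) {x : MvPowerSeries (Fin r) 𝒪}
    (hx : x ∈ maximalIdeal (MvPowerSeries (Fin r) 𝒪) ^ k) :
    constantCoeff x ∈ maximalIdeal 𝒪 ^ k := by
  have h1 : (maximalIdeal (MvPowerSeries (Fin r) 𝒪)).map
      (constantCoeff (σ := Fin r) (R := 𝒪)) ≤ maximalIdeal 𝒪 := by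
    rw [Ideal.map_le_iff_le_comap, maximalIdeal_eq_comap_constantCoeff]
  have h2 := Ideal.mem_map_of_mem (constantCoeff (σ := Fin r) (R := 𝒪)) hx
  rw [Ideal.map_pow] at h2
  exact Ideal.pow_right_mono h1 k h2

/-- **the limit data from the level data** -/
theorem mltm_patch_limit {p : ℕ} (hp𝒪 : (p : 𝒪) ∈ maximalIdeal 𝒪)
    {R : Type} [CommRing R] [IsLocalRing R] [IsNoetherianRing R]
    [IsAdicComplete (maximalIdeal R) R] [Algebra 𝒪 R] [IsLocalHom (algebraMap 𝒪 R)]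
    (hres : Function.Surjective (residue R ∘ algebraMap 𝒪 R))
    {H : Type} [AddCommGroup H] [Module 𝒪 H] [Module R H] [IsScalarTower 𝒪 R H]
    (e : Module.Basis (Fin d) 𝒪 H)
    (ψ : ℕ → MvPowerSeries (Fin r) 𝒪 →ₐ[𝒪] R) (hψ : ∀ n, Function.Surjective (ψ n))
    (Θ : ∀ n, MvPowerSeries (Fin r) 𝒪 →ₐ[𝒪]
      Matrix (Fin d) (Fin d) (IhaS₀ 𝒪 r ⧸ ihaIdeal 𝒪 r p n))
    (y : ℕ → Fin r → MvPowerSeries (Fin r) 𝒪)
    (hyψ : ∀ n i, ψ n (y n i) = 0)
    (hyΘ : ∀ n i, Θ n (y n i)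
      = Matrix.scalar (Fin d) (Ideal.Quotient.mk (ihaIdeal 𝒪 r p n) (X i : IhaS₀ 𝒪 r)))
    (hcompat : ∀ n (f : MvPowerSeries (Fin r) 𝒪) (i j : Fin d) (s : IhaS₀ 𝒪 r),
      Ideal.Quotient.mk (ihaIdeal 𝒪 r p n) s = Θ n f i j →
        constantCoeff s - e.repr (ψ n f • e j) i ∈ maximalIdeal 𝒪 ^ n) :
    ∃ (θ : MvPowerSeries (Fin r) 𝒪 →+* Matrix (Fin d) (Fin d) (MvPowerSeries (Fin r) 𝒪))
      (ψ' : MvPowerSeries (Fin r) 𝒪 →ₐ[𝒪] R) (y' : Fin r → MvPowerSeries (Fin r) 𝒪),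
      Function.Surjective ψ' ∧ (∀ i, ψ' (y' i) = 0) ∧
      (∀ i, θ (y' i) = Matrix.scalar (Fin d) (X i : MvPowerSeries (Fin r) 𝒪)) ∧
      (∀ c : 𝒪, θ (C c) = Matrix.scalar (Fin d) (C c : MvPowerSeries (Fin r) 𝒪)) ∧
      ∀ f i j, constantCoeff (θ f i j) = e.repr (ψ' f • e j) i := by
  classical
  -- finiteness
  have hSfin : ∀ k, Finite (IhaS₀ 𝒪 r ⧸ maximalIdeal (IhaS₀ 𝒪 r) ^ k) :=
    fun k => iha_finite_quot_pow k
  have h𝔟 : ∀ k, ∃ n₀, ∀ n, n₀ ≤ n → ihaIdeal 𝒪 r p n ≤ maximalIdeal (IhaS₀ 𝒪 r) ^ k :=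
    fun k => ⟨k, fun n hn => (ihaIdeal_le 𝒪 r n hp𝒪).trans (Ideal.pow_le_pow_right hn)⟩
  haveI : Finite (ResidueField R) := by
    refine Finite.of_surjective (ResidueField.map (algebraMap 𝒪 R)) ?_
    intro z
    obtain ⟨c, hc⟩ := hres z
    exact ⟨residue 𝒪 c, by rw [ResidueField.map_residue]; exact hc⟩
  have hRfin : ∀ k, Finite (R ⧸ maximalIdeal R ^ k) := by
    intro k
    haveI : Finite (R ⧸ maximalIdeal R) := inferInstanceAs (Finite (ResidueField R))
    exact Ideal.finite_quotient_pow (IsNoetherian.noetherian _) k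
  haveI : IsHausdorff (maximalIdeal R) R := IsAdicComplete.toIsHausdorff
  -- the ring homs underlying `Θ n`
  set Θr : ∀ n, IhaS₀ 𝒪 r →+* Matrix (Fin d) (Fin d) (IhaS₀ 𝒪 r ⧸ ihaIdeal 𝒪 r p n) :=
    fun n => (Θ n : MvPowerSeries (Fin r) 𝒪 →+* _) with hΘr
  have hΘrapp : ∀ n x, Θr n x = Θ n x := fun n x => rfl
  obtain ⟨θ, hθ⟩ := ihp_patch (maximalIdeal (IhaS₀ 𝒪 r)) hSfin (fun n => ihaIdeal 𝒪 r p n) h𝔟 Θr
  obtain ⟨Ψ, hΨ⟩ := mltm_ulim_ringHom (maximalIdeal R) hRfin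
    (fun n => (ψ n : MvPowerSeries (Fin r) 𝒪 →+* R))
  have hΨ' : ∀ a k, ∀ᶠ n in (ihpU : Filter ℕ), ψ n a - Ψ a ∈ maximalIdeal R ^ k := hΨ
  choose y' hy' using fun i => ihp_ulim (maximalIdeal (IhaS₀ 𝒪 r)) hSfin (fun n => y n i)
  -- `Ψ` is an algebra hom
  have hΨc : ∀ c : 𝒪, Ψ (algebraMap 𝒪 (MvPowerSeries (Fin r) 𝒪) c) = algebraMap 𝒪 R c := by
    intro c
    symm
    refine ihp_ulim_unique (maximalIdeal R)
      (fun n => ψ n (algebraMap 𝒪 (MvPowerSeries (Fin r) 𝒪) c)) (fun k => ?_) (hΨ' _)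
    refine Filter.Eventually.of_forall fun n => ?_
    rw [AlgHom.commutes, sub_self]
    exact zero_mem _
  set ψ' : MvPowerSeries (Fin r) 𝒪 →ₐ[𝒪] R := { Ψ with commutes' := hΨc } with hψ'
  have hψ'app : ∀ a, ψ' a = Ψ a := fun a => rfl
  -- the `ψ n` are local
  have hψpow : ∀ n k, ∀ x ∈ maximalIdeal (MvPowerSeries (Fin r) 𝒪) ^ k,
      ψ n x ∈ maximalIdeal R ^ k := by
    intro n k x hx
    haveI : IsLocalHom (ψ n : MvPowerSeries (Fin r) 𝒪 →+* R) :=
      IsLocalHom.of_surjective _ (hψ n)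
    have h1 := IsLocalRing.map_maximalIdeal_le (ψ n : MvPowerSeries (Fin r) 𝒪 →+* R)
    have h2 := Ideal.mem_map_of_mem (ψ n : MvPowerSeries (Fin r) 𝒪 →+* R) hx
    rw [Ideal.map_pow] at h2
    exact Ideal.pow_right_mono h1 k h2
  have hXmem : ∀ i, (X i : MvPowerSeries (Fin r) 𝒪) ∈ maximalIdeal (MvPowerSeries (Fin r) 𝒪) := by
    intro i
    rw [maximalIdeal_eq_idealMX]
    exact span_X_le_idealMX _ (Ideal.subset_span ⟨i, rfl⟩)
  refine ⟨θ, ψ', y', ?_, ?_, ?_, ?_, ?_⟩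
  · -- surjectivity
    have hev : ∀ᶠ n in (ihpU : Filter ℕ), ∀ i : Fin r,
        ψ n (X i) - Ψ (X i) ∈ maximalIdeal R ^ 2 := by
      rw [Filter.eventually_all]
      intro i
      exact hΨ' (X i) 2
    obtain ⟨n, hn⟩ := hev.exists
    have hXn : ∀ i, ψ n (X i) ∈ maximalIdeal R := fun i => by
      have := hψpow n 1 (X i) (by rw [pow_one]; exact hXmem i)
      rwa [pow_one] at this
    have hsq : maximalIdeal R ^ 2 ≤ maximalIdeal R := Ideal.pow_le_self two_ne_zero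
    have hX' : ∀ i, ψ' (X i) ∈ maximalIdeal R := by
      intro i
      have h1 : ψ' (X i) = ψ n (X i) - (ψ n (X i) - Ψ (X i)) := by rw [hψ'app]; ring
      rw [h1]
      exact Ideal.sub_mem _ (hXn i) (hsq (hn i))
    refine algHom_surjective_of_generators ψ' hX' (IsNoetherian.noetherian _) hres ?_
    intro x hx
    have h1 : (maximalIdeal (MvPowerSeries (Fin r) 𝒪)).map (ψ n) = maximalIdeal R :=
      map_maximalIdeal_of_surjective (ψ n : MvPowerSeries (Fin r) 𝒪 →+* R) (hψ n)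
    rw [← h1, map_maximalIdeal_eq] at hx
    refine (sup_le (le_sup_of_le_left le_sup_left) ?_ :
      (maximalIdeal 𝒪).map (algebraMap 𝒪 R) ⊔ Ideal.span (Set.range fun i => ψ n (X i)) ≤ _) hx
    rw [Ideal.span_le]
    rintro _ ⟨i, rfl⟩
    have h2 : ψ n (X i) = ψ' (X i) + (ψ n (X i) - Ψ (X i)) := by rw [hψ'app]; ring
    show ψ n (X i) ∈ _
    rw [h2]
    refine Ideal.add_mem _ (Ideal.mem_sup_left (Ideal.mem_sup_right ?_)) (Ideal.mem_sup_right (hn i))
    exact Ideal.subset_span ⟨i, rfl⟩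
  · -- `ψ' (y' i) = 0`
    intro i
    rw [hψ'app]
    apply ihp_eq_zero_of_forall_mem (maximalIdeal R)
    intro k
    obtain ⟨n, h1, h2⟩ := ((hΨ' (y' i) k).and (hy' i k)).exists
    have h3 := hψpow n k _ h2
    rw [map_sub, hyψ, zero_sub, neg_mem_iff] at h3
    have h4 : Ψ (y' i) = ψ n (y' i) - (ψ n (y' i) - Ψ (y' i)) := by ring
    rw [h4]
    exact Ideal.sub_mem _ h3 h1
  · -- `θ (y' i) = X i`
    intro i
    apply ihp_matrix_ext (maximalIdeal (IhaS₀ 𝒪 r)) (fun n => ihaIdeal 𝒪 r p n) h𝔟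
    intro k
    haveI := hSfin k
    set N := Nat.card (Matrix (Fin d) (Fin d) (IhaS₀ 𝒪 r ⧸ maximalIdeal (IhaS₀ 𝒪 r) ^ k)) with hN
    filter_upwards [hθ (y' i) k, hy' i N] with n hn hn'
    rw [hn, ihpΦ_scalar, ← ihpΨ_scalar, ← hyΘ n i, ← hΘrapp]
    obtain ⟨hfin, hcard⟩ := ihp_card_matrix_le (d := d) (ihaIdeal 𝒪 r p n)
      (maximalIdeal (IhaS₀ 𝒪 r) ^ k)
    haveI := hfin
    have h1 := ihp_map_pow_eq_zero
      ((ihpΨ (ihaIdeal 𝒪 r p n) (maximalIdeal (IhaS₀ 𝒪 r) ^ k)).comp (Θr n)) hcard hn'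
    rw [RingHom.comp_apply, map_sub, map_sub, sub_eq_zero] at h1
    exact h1.symm
  · -- constants
    intro c
    refine ihp_patch_scalar (fun n => ihaIdeal 𝒪 r p n) h𝔟 Θr θ hθ (fun n => ?_)
    rw [hΘrapp, MvPowerSeries.c_eq_algebraMap, AlgHom.commutes]
    ext i j
    rw [Matrix.algebraMap_matrix_apply, Matrix.scalar_apply, Matrix.diagonal_apply]
    rfl
  · -- compatibility
    intro f i j
    rw [← sub_eq_zero]
    apply ihp_eq_zero_of_forall_mem (maximalIdeal 𝒪)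
    intro k
    haveI : Finite (𝒪 ⧸ maximalIdeal 𝒪) := inferInstanceAs (Finite (ResidueField 𝒪))
    haveI : Finite (𝒪 ⧸ maximalIdeal 𝒪 ^ k) :=
      Ideal.finite_quotient_pow (IsNoetherian.noetherian _) k
    haveI : Finite (Matrix (Fin d) (Fin d) (𝒪 ⧸ maximalIdeal 𝒪 ^ k)) :=
      inferInstanceAs (Finite (Fin d → Fin d → (𝒪 ⧸ maximalIdeal 𝒪 ^ k)))
    set ρk : R →+* Matrix (Fin d) (Fin d) (𝒪 ⧸ maximalIdeal 𝒪 ^ k) :=
      ((Ideal.Quotient.mk (maximalIdeal 𝒪 ^ k)).mapMatrix).comp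
        (((LinearMap.toMatrixAlgEquiv e : Module.End 𝒪 H ≃ₐ[𝒪] Matrix (Fin d) (Fin d) 𝒪) :
          Module.End 𝒪 H →+* Matrix (Fin d) (Fin d) 𝒪).comp
          (Algebra.lsmul 𝒪 𝒪 H : R →ₐ[𝒪] Module.End 𝒪 H)) with hρk
    set K := Nat.card (Matrix (Fin d) (Fin d) (𝒪 ⧸ maximalIdeal 𝒪 ^ k)) with hK
    have hρ0 : ∀ t ∈ maximalIdeal R ^ K, ∀ i j, e.repr (t • e j) i ∈ maximalIdeal 𝒪 ^ k := by
      intro t ht i j
      have h1 : ρk t = 0 := ihp_map_pow_eq_zero ρk le_rfl ht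
      have h2 := congrFun (congrFun h1 i) j
      rw [hρk, RingHom.comp_apply, RingHom.mapMatrix_apply, Matrix.map_apply, Matrix.zero_apply,
        Ideal.Quotient.eq_zero_iff_mem] at h2
      have h3 : (((LinearMap.toMatrixAlgEquiv e : Module.End 𝒪 H ≃ₐ[𝒪] Matrix (Fin d) (Fin d) 𝒪) :
          Module.End 𝒪 H →+* Matrix (Fin d) (Fin d) 𝒪).comp
          (Algebra.lsmul 𝒪 𝒪 H : R →ₐ[𝒪] Module.End 𝒪 H)) t i j = e.repr (t • e j) i := by
        show LinearMap.toMatrixAlgEquiv e (Algebra.lsmul 𝒪 𝒪 H t) i j = _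
        rw [LinearMap.toMatrixAlgEquiv_apply, Algebra.lsmul_apply]
      rw [h3] at h2
      exact h2
    obtain ⟨n, ⟨hA, hB⟩, hC⟩ := (((hθ f k).and (hΨ' f K)).and (ihp_eventually_ge k)).exists
    obtain ⟨s, hs⟩ := Ideal.Quotient.mk_surjective (Θ n f i j)
    have h1 : θ f i j - s ∈ maximalIdeal (IhaS₀ 𝒪 r) ^ k := by
      have h2 := congrFun (congrFun hA i) j
      rw [ihpΦ_apply, ihpΨ_apply, hΘrapp, ← hs, Ideal.Quotient.factor_mk, Ideal.Quotient.eq] at h2
      refine (sup_le ?_ le_rfl : ihaIdeal 𝒪 r p n ⊔ maximalIdeal (IhaS₀ 𝒪 r) ^ k ≤ _) h2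
      exact (ihaIdeal_le 𝒪 r n hp𝒪).trans (Ideal.pow_le_pow_right hC)
    have h3 := mltm_constantCoeff_mem_pow k h1
    have h4 : constantCoeff s - e.repr (ψ n f • e j) i ∈ maximalIdeal 𝒪 ^ k :=
      Ideal.pow_le_pow_right hC (hcompat n f i j s hs)
    have h5 := hρ0 _ hB i j
    have h6 : constantCoeff (θ f i j) - e.repr (ψ' f • e j) i
        = constantCoeff (θ f i j - s) + (constantCoeff s - e.repr (ψ n f • e j) i)
          + e.repr ((ψ n f - Ψ f) • e j) i := by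
      rw [map_sub, sub_smul, map_sub, Finsupp.sub_apply, hψ'app]
      ring
    rw [h6]
    exact Ideal.add_mem _ (Ideal.add_mem _ h3 h4) h5

/-- **abstract Taylor–Wiles–Diamond patching, matrix form**: `H` is free over `R`, `R` acts faithfully
on `H`, and `R` is a complete intersection. -/
theorem mltm_patch {p : ℕ} (hp𝒪 : (p : 𝒪) ∈ maximalIdeal 𝒪)
    {R : Type} [CommRing R] [IsLocalRing R] [IsNoetherianRing R]
    [IsAdicComplete (maximalIdeal R) R] [Algebra 𝒪 R] [IsLocalHom (algebraMap 𝒪 R)]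
    (hres : Function.Surjective (residue R ∘ algebraMap 𝒪 R))
    {H : Type} [AddCommGroup H] [Module 𝒪 H] [Module R H] [IsScalarTower 𝒪 R H] [Nontrivial H]
    (e : Module.Basis (Fin d) 𝒪 H)
    (ψ : ℕ → MvPowerSeries (Fin r) 𝒪 →ₐ[𝒪] R) (hψ : ∀ n, Function.Surjective (ψ n))
    (Θ : ∀ n, MvPowerSeries (Fin r) 𝒪 →ₐ[𝒪]
      Matrix (Fin d) (Fin d) (IhaS₀ 𝒪 r ⧸ ihaIdeal 𝒪 r p n))
    (y : ℕ → Fin r → MvPowerSeries (Fin r) 𝒪)
    (hyψ : ∀ n i, ψ n (y n i) = 0)
    (hyΘ : ∀ n i, Θ n (y n i)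
      = Matrix.scalar (Fin d) (Ideal.Quotient.mk (ihaIdeal 𝒪 r p n) (X i : IhaS₀ 𝒪 r)))
    (hcompat : ∀ n (f : MvPowerSeries (Fin r) 𝒪) (i j : Fin d) (s : IhaS₀ 𝒪 r),
      Ideal.Quotient.mk (ihaIdeal 𝒪 r p n) s = Θ n f i j →
        constantCoeff s - e.repr (ψ n f • e j) i ∈ maximalIdeal 𝒪 ^ n) :
    Module.Free R H ∧ Module.annihilator R H = ⊥ ∧
      ∃ (ψ' : MvPowerSeries (Fin r) 𝒪 →ₐ[𝒪] R) (f : Fin r → MvPowerSeries (Fin r) 𝒪),
        Function.Surjective ψ' ∧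
        RingHom.ker (ψ' : MvPowerSeries (Fin r) 𝒪 →+* R) = Ideal.span (Set.range f) := by
  have hd : 0 < d := Fin.pos_iff_nonempty.mpr e.index_nonempty
  obtain ⟨θ, ψ', y', h1, h2, h3, h4, h5⟩ :=
    mltm_patch_limit hp𝒪 hres e ψ hψ Θ y hyψ hyΘ hcompat
  obtain ⟨L⟩ := mltm_level_of_limit e hd θ ψ' y' h1 h2 h3 h4 h5
  obtain ⟨hfree, hann, hker⟩ := Fermat.Agent.S57.result L
  exact ⟨hfree, hann, L.ψ, fun i => L.φ (X i), L.ψ_surjective, hker⟩

end Limit

end

end Fermat.Agent.MLT
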