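/-
MLT (project S59) / Min (helper2): **the abstract Taylor–Wiles level datum** `MltmLevel` and the algebra
step `MltmLevel n ⟹ (ψ n, Θ n, y n)` of `Min/Patch.lean`; `mltm_patch_of_levels`: level data for all `n`
give `H` free over `R`, `R` acting faithfully, `R` a complete intersection.

`MltmLevel p r R e n` (`R = R_∅` acting on `H = H_∅`, `e` an `𝒪`-basis of `H`):
* `Rn` (think `R_{Q_n}`) with surjections `γ : 𝒪⟦x_1..x_r⟧ → Rn` and `κ : Rn → R`;
* the Hecke module `M = H_{Q_n}` with the action `ρM : Rn → End_𝒪 M` (through `T_{Q_n}`), free over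
  `𝒪[G]` (`G = Δ_{Q_n}`, diamond action `x`) on `w : Fin d → M`;
* generators `g i` of `G` of order `p ^ c i`, `n ≤ c i`, `G` free on them;
* the inertia scalars `aq i : Rn` (`aq i ^ (p ^ c i) = 1`, `κ (aq i) = 1`) with (SC), (WL);
* control: `pr : M → H` surjective with kernel the augmentation submodule, `Rn`-equivariant through `κ`.
-/
import Mathlib
import Fermat.Agent.Lib.MLT.Min.Patch
import Fermat.Agent.Lib.Ihara.P.InertiaFree
import Fermat.Agent.Lib.Ihara.P.Mat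

set_option autoImplicit false
set_option linter.unusedSectionVars false
set_option linter.unusedVariables false
set_option linter.style.haveILetI false

open IsLocalRing MvPowerSeries Fermat.Agent.Ihara Fermat.Agent.S53Lib

namespace Fermat.Agent.MLT

noncomputable section

/-! ### matrices from a free `𝒪[G]`-module, with the formula -/

section Mat

variable {𝒪 : Type*} [CommRing 𝒪] {M : Type*} [AddCommGroup M] [Module 𝒪 M]
  {G : Type*} [CommGroup G] {ι : Type*} [Fintype ι] [DecidableEq ι]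
  {B : Type*} [CommRing B] [Algebra 𝒪 B]

/-- `ihp_mat_of_basis` with the formula for `τ` -/
theorem mltm_mat_algHom (a : G →* Module.End 𝒪 M) (w : ι → M)
    (b' : Module.Basis (ι × G) 𝒪 M) (hb' : ∀ j g, b' (j, g) = a g (w j)) (u : G →* B)
    {A : Type*} [CommRing A] [Algebra 𝒪 A] (ρ : A →ₐ[𝒪] Module.End 𝒪 M)
    (hρ : ∀ t g, Commute (ρ t) (a g)) :
    ∃ τ : A →ₐ[𝒪] Matrix ι ι B, ∀ t, τ t = ihpMat w b' u (ρ t) := by
  have hw : ∀ j, ihpEv b' u (w j) = Pi.single j (1 : B) := by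
    intro j
    have : w j = b' (j, 1) := by rw [hb', map_one]; rfl
    rw [this, ihpEv_basis, map_one]
  have hone : ihpMat w b' u (1 : Module.End 𝒪 M) = 1 := by
    ext i j
    rw [ihpMat_apply, Module.End.one_apply, hw, Matrix.one_apply, Pi.single_apply]
  have hmul : ∀ T₁ T₂ : Module.End 𝒪 M, (∀ g, Commute T₁ (a g)) →
      ihpMat w b' u (T₁ * T₂) = ihpMat w b' u T₁ * ihpMat w b' u T₂ := by
    intro T₁ T₂ hT₁
    ext i j
    rw [ihpMat_apply, Module.End.mul_apply, ihpEv_comm a w b' hb' u T₁ hT₁, Matrix.mul_apply]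
    rfl
  have hadd : ∀ T₁ T₂ : Module.End 𝒪 M,
      ihpMat w b' u (T₁ + T₂) = ihpMat w b' u T₁ + ihpMat w b' u T₂ := by
    intro T₁ T₂
    ext i j
    rw [Matrix.add_apply, ihpMat_apply, ihpMat_apply, ihpMat_apply, LinearMap.add_apply, map_add,
      Pi.add_apply]
  have hsmul : ∀ (c : 𝒪) (T : Module.End 𝒪 M),
      ihpMat w b' u (c • T) = algebraMap 𝒪 B c • ihpMat w b' u T := by
    intro c T
    ext i j
    rw [Matrix.smul_apply, ihpMat_apply, ihpMat_apply, LinearMap.smul_apply, map_smul,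
      Pi.smul_apply, smul_eq_mul, Algebra.smul_def]
  exact ⟨{ toFun := fun t => ihpMat w b' u (ρ t)
           map_one' := by rw [map_one]; exact hone
           map_mul' := fun t t' => by rw [map_mul]; exact hmul _ _ (hρ t)
           map_zero' := by
             rw [map_zero]
             ext i j
             rw [ihpMat_apply, LinearMap.zero_apply, map_zero]; rfl
           map_add' := fun t t' => by rw [map_add]; exact hadd _ _
           commutes' := fun c => by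
             rw [AlgHom.commutes, Algebra.algebraMap_eq_smul_one, hsmul, hone]
             ext i j
             rw [Matrix.smul_apply, Matrix.algebraMap_matrix_apply, Matrix.one_apply]
             by_cases hij : i = j
             · rw [if_pos hij, if_pos hij, smul_eq_mul, mul_one]
             · rw [if_neg hij, if_neg hij, smul_zero] }, fun t => rfl⟩

end Mat

section Aug

variable {𝒪 : Type} [CommRing 𝒪] [IsDomain 𝒪] [IsDiscreteValuationRing 𝒪]
  [IsAdicComplete (maximalIdeal 𝒪) 𝒪] [Finite (ResidueField 𝒪)] (r p n : ℕ)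

/-- the constant coefficient of an element of `ihaIdeal n` lies in `𝔪 ^ n` -/
theorem mltm_cc_mem {a : IhaS₀ 𝒪 r} (ha : a ∈ ihaIdeal 𝒪 r p n) :
    constantCoeff a ∈ maximalIdeal 𝒪 ^ n := by
  obtain ⟨b, hb, c, hc, rfl⟩ := Submodule.mem_sup.mp ha
  have h1 : Ideal.span (Set.range fun i : Fin r => (1 + X i : IhaS₀ 𝒪 r) ^ (p ^ n) - 1)
      ≤ RingHom.ker (constantCoeff (σ := Fin r) (R := 𝒪)) := by
    rw [Ideal.span_le]
    rintro _ ⟨i, rfl⟩
    rw [SetLike.mem_coe, RingHom.mem_ker, map_sub, map_pow, map_add, map_one,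
      MvPowerSeries.constantCoeff_X, add_zero, one_pow, sub_self]
  rw [map_add, RingHom.mem_ker.mp (h1 hb), zero_add]
  exact mltm_constantCoeff_mem_pow n hc

/-- the constant coefficient as an `𝒪`-algebra hom -/
def mltmCC (𝒪 : Type) [CommRing 𝒪] (r : ℕ) : IhaS₀ 𝒪 r →ₐ[𝒪] 𝒪 :=
  { (constantCoeff (σ := Fin r) (R := 𝒪)) with
    commutes' := fun c => by
      show constantCoeff (algebraMap 𝒪 (MvPowerSeries (Fin r) 𝒪) c) = algebraMap 𝒪 𝒪 c
      rw [← MvPowerSeries.c_eq_algebraMap, MvPowerSeries.constantCoeff_C]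
      rfl }

theorem mltmCC_apply (a : IhaS₀ 𝒪 r) : mltmCC 𝒪 r a = constantCoeff a := rfl

/-- the augmentation `𝒪⟦S⟧ ⧸ ihaIdeal n → 𝒪 ⧸ 𝔪 ^ n` -/
def mltmAug : (IhaS₀ 𝒪 r ⧸ ihaIdeal 𝒪 r p n) →ₐ[𝒪] (𝒪 ⧸ maximalIdeal 𝒪 ^ n) :=
  Ideal.Quotient.liftₐ (ihaIdeal 𝒪 r p n)
    ((Ideal.Quotient.mkₐ 𝒪 (maximalIdeal 𝒪 ^ n)).comp (mltmCC 𝒪 r))
    (fun a ha => by
      rw [AlgHom.comp_apply, Ideal.Quotient.mkₐ_eq_mk, Ideal.Quotient.eq_zero_iff_mem, mltmCC_apply]
      exact mltm_cc_mem r p n ha)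

theorem mltmAug_mk (a : IhaS₀ 𝒪 r) :
    mltmAug r p n (Ideal.Quotient.mk (ihaIdeal 𝒪 r p n) a)
      = Ideal.Quotient.mk (maximalIdeal 𝒪 ^ n) (constantCoeff a) := rfl

/-- `mk (1 + X i)` has order dividing `p ^ c` in `IhaS₀ ⧸ ihaIdeal n` when `n ≤ c` -/
theorem mltm_one_add_X_pow (c : ℕ) (hnc : n ≤ c) (i : Fin r) :
    (Ideal.Quotient.mk (ihaIdeal 𝒪 r p n) (1 + MvPowerSeries.X i : IhaS₀ 𝒪 r)) ^ (p ^ c) = 1 := by
  obtain ⟨k, rfl⟩ := Nat.exists_eq_add_of_le hnc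
  rw [pow_add, pow_mul]
  have h1 : (Ideal.Quotient.mk (ihaIdeal 𝒪 r p n) (1 + MvPowerSeries.X i : IhaS₀ 𝒪 r)) ^ (p ^ n)
      = 1 := by
    rw [← map_pow, ← map_one (Ideal.Quotient.mk (ihaIdeal 𝒪 r p n)), Ideal.Quotient.eq]
    exact Ideal.mem_sup_left (Ideal.subset_span ⟨i, rfl⟩)
  rw [h1, one_pow]

end Aug

section LevelDef

variable {𝒪 : Type} [CommRing 𝒪] [IsDomain 𝒪] [IsDiscreteValuationRing 𝒪]
  [IsAdicComplete (maximalIdeal 𝒪) 𝒪] [Finite (ResidueField 𝒪)]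

/-- **the abstract Taylor–Wiles level datum** at level `n` -/
def MltmLevel (p r : ℕ) {d : ℕ} (R : Type) [CommRing R] [Algebra 𝒪 R]
    {H : Type} [AddCommGroup H] [Module 𝒪 H] [Module R H] (e : Module.Basis (Fin d) 𝒪 H) (n : ℕ) :
    Prop :=
  ∃ (Rn : Type) (_ : CommRing Rn) (_ : Algebra 𝒪 Rn)
    (γ : MvPowerSeries (Fin r) 𝒪 →ₐ[𝒪] Rn) (κ : Rn →ₐ[𝒪] R)
    (M : Type) (_ : AddCommGroup M) (_ : Module 𝒪 M) (_ : Module.Finite 𝒪 M)
    (ρM : Rn →ₐ[𝒪] Module.End 𝒪 M)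
    (G : Type) (_ : CommGroup G) (_ : Finite G) (x : G →* Module.End 𝒪 M)
    (w : Fin d → M) (bM : Module.Basis (Fin d × G) 𝒪 M)
    (g : Fin r → G) (c : Fin r → ℕ) (aq : Fin r → Rn) (pr : M →ₗ[𝒪] H),
    Function.Surjective γ ∧ Function.Surjective κ ∧
    -- the module: free over `𝒪[G]` for the diamond action
    (∀ t g', Commute (ρM t) (x g')) ∧
    (∀ j g', bM (j, g') = x g' (w j)) ∧
    -- the group `G = Δ_Q`
    (∀ i, n ≤ c i ∧ 0 < c i ∧ orderOf (g i) = p ^ c i) ∧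
    Subgroup.closure (Set.range g) = ⊤ ∧
    (∀ (Y : Type) [CommMonoid Y] (y : Fin r → Y), (∀ i, y i ^ (p ^ c i) = 1) →
      ∃ f : G →* Y, ∀ i, f (g i) = y i) ∧
    -- the inertia scalars
    (∀ i, aq i ^ (p ^ c i) = 1) ∧ (∀ i, κ (aq i) = 1) ∧
    (∀ i v, ∃ u, ρM (aq i) v - v = x (g i) u - u) ∧
    (∀ i v, (∑ k ∈ Finset.range p, x (g i) ^ k : Module.End 𝒪 M) v = 0 → ρM (aq i) v = v →
      v = 0) ∧
    -- control
    Function.Surjective pr ∧
    (∀ v, pr v = 0 → v ∈ Submodule.span 𝒪 {z : M | ∃ g' u, z = x g' u - u}) ∧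
    (∀ g' u, pr (x g' u) = pr u) ∧
    (∀ t v, pr (ρM t v) = κ t • pr v)

/-- **the algebra step**: a level datum gives the matrix data of `Min/Patch.lean` -/
theorem mltm_level_matrix {p : ℕ} (hp : p.Prime) (hp2 : 2 < p) (hp𝒪 : (p : 𝒪) ∈ maximalIdeal 𝒪)
    (hp0 : (p : 𝒪) ≠ 0) {r d : ℕ}
    {R : Type} [CommRing R] [Algebra 𝒪 R]
    {H : Type} [AddCommGroup H] [Module 𝒪 H] [Module R H] [IsScalarTower 𝒪 R H]
    (e : Module.Basis (Fin d) 𝒪 H) (n : ℕ) (h : MltmLevel p r R e n) :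
    ∃ (ψ : MvPowerSeries (Fin r) 𝒪 →ₐ[𝒪] R)
      (Θ : MvPowerSeries (Fin r) 𝒪 →ₐ[𝒪]
        Matrix (Fin d) (Fin d) (IhaS₀ 𝒪 r ⧸ ihaIdeal 𝒪 r p n))
      (y : Fin r → MvPowerSeries (Fin r) 𝒪),
      Function.Surjective ψ ∧ (∀ i, ψ (y i) = 0) ∧
      (∀ i, Θ (y i)
        = Matrix.scalar (Fin d) (Ideal.Quotient.mk (ihaIdeal 𝒪 r p n) (X i : IhaS₀ 𝒪 r))) ∧
      ∀ (f : MvPowerSeries (Fin r) 𝒪) (i j : Fin d) (s : IhaS₀ 𝒪 r),
        Ideal.Quotient.mk (ihaIdeal 𝒪 r p n) s = Θ f i j →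
          constantCoeff s - e.repr (ψ f • e j) i ∈ maximalIdeal 𝒪 ^ n := by
  classical
  obtain ⟨Rn, iR1, iR2, γ, κ, M, iM1, iM2, iM3, ρM, G, iG1, iG2, x, w, bM, g, c, aq, pr,
    hγ, hκ, hρx, hbM, hg, hgen, huniv, haq, hκaq, hsc, hwl, hprs, hprk, hprx, hprρ⟩ := h
  -- the inertia action of `G`
  obtain ⟨fa, hfa⟩ := huniv Rn aq haq
  set a : G →* Module.End 𝒪 M := ((ρM : Rn →+* Module.End 𝒪 M) : Rn →* Module.End 𝒪 M).comp fa
    with ha
  have haapp : ∀ g', a g' = ρM (fa g') := fun _ => rfl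
  have haγ : ∀ i, a (g i) = ρM (aq i) := fun i => by rw [haapp, hfa]
  have htf : ∀ v : M, (p : 𝒪) • v = 0 → v = 0 := by
    intro v hv
    have h1 : bM.repr ((p : 𝒪) • v) = 0 := by rw [hv, map_zero]
    rw [map_smul] at h1
    have h2 : bM.repr v = 0 := by
      ext jg
      have h3 := congrArg (fun f : Fin d × G →₀ 𝒪 => f jg) h1
      simp only [Finsupp.smul_apply, smul_eq_mul, Finsupp.zero_apply] at h3
      rcases mul_eq_zero.mp h3 with h4 | h4
      · exact absurd h4 hp0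
      · exact h4
    exact (LinearEquiv.map_eq_zero_iff bM.repr).mp h2
  obtain ⟨hxa, b', hb'⟩ := ihp_inertia_free hp hp2 hp𝒪 htf x a
    (fun g₁ g₂ => (hρx (fa g₂) g₁).symm) w bM hbM g c (fun i => (hg i).2.1) (fun i => (hg i).2.2)
    hgen (fun i v => by rw [haγ]; exact hsc i v)
    (fun i v h1 h2 => hwl i v h1 (by rw [← haγ]; exact h2))
  -- the augmentation submodule for the action `a` contains the one for `x`
  set Ka : Submodule 𝒪 M := Submodule.span 𝒪 {z : M | ∃ g' u, z = a g' u - u} with hKa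
  have hxa_comm : ∀ (g₁ g₂ : G) (u : M), x g₁ (a g₂ u) = a g₂ (x g₁ u) := by
    intro g₁ g₂ u
    exact congrArg (fun f : Module.End 𝒪 M => f u) (hρx (fa g₂) g₁).symm.eq
  have hKa_x : ∀ g' : G, ∀ z ∈ Ka, x g' z ∈ Ka := by
    intro g' z hz
    have h1 : Ka.map (x g') ≤ Ka := by
      rw [hKa, Submodule.map_span, Submodule.span_le]
      rintro _ ⟨_, ⟨g₂, u, rfl⟩, rfl⟩
      refine Submodule.subset_span ⟨g₂, x g' u, ?_⟩
      rw [map_sub, hxa_comm]
    exact h1 ⟨z, hz, rfl⟩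
  have hxKa : ∀ g' : G, ∀ u, x g' u - u ∈ Ka := by
    intro g'
    have hmem : g' ∈ Subgroup.closure (Set.range g) := by rw [hgen]; trivial
    refine Subgroup.closure_induction (p := fun g' _ => ∀ u, x g' u - u ∈ Ka) ?_ ?_ ?_ ?_ hmem
    · rintro _ ⟨i, rfl⟩ u
      obtain ⟨u', hu'⟩ := hxa i u
      rw [hu']
      exact Submodule.subset_span ⟨g i, u', rfl⟩
    · intro u
      rw [map_one, Module.End.one_apply, sub_self]
      exact zero_mem _
    · intro y z _ _ hy hz u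
      have h1 : x (y * z) u - u = x y (x z u - u) + (x y u - u) := by
        rw [map_mul, Module.End.mul_apply, map_sub]
        abel
      rw [h1]
      exact Ka.add_mem (hKa_x y _ (hz u)) (hy u)
    · intro y _ hy u
      have h1 : x y (x y⁻¹ u) = u := by
        rw [← Module.End.mul_apply, ← map_mul, mul_inv_cancel, map_one, Module.End.one_apply]
      have h2 : x y⁻¹ u - u = -(x y (x y⁻¹ u) - x y⁻¹ u) := by
        rw [h1]
        abel
      rw [h2]
      exact Ka.neg_mem (hy _)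
  -- the evaluation at the trivial character
  set ev₁ : M →ₗ[𝒪] (Fin d → 𝒪) := ihpEv b' (1 : G →* 𝒪) with hev₁
  have hev1a : ∀ g' m, ev₁ (a g' m) = ev₁ m := by
    intro g' m
    rw [hev₁, ihpEv_act a w b' hb', MonoidHom.one_apply, one_smul]
  have hev1K : ∀ z ∈ Ka, ev₁ z = 0 := by
    intro z hz
    have h1 : Ka ≤ LinearMap.ker ev₁ := by
      rw [hKa, Submodule.span_le]
      rintro _ ⟨g', u, rfl⟩
      rw [SetLike.mem_coe, LinearMap.mem_ker, map_sub, hev1a, sub_self]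
    exact LinearMap.mem_ker.mp (h1 hz)
  have hev1w : ∀ j, ev₁ (w j) = Pi.single j (1 : 𝒪) := by
    intro j
    have h1 : w j = b' (j, 1) := by rw [hb', map_one]; rfl
    rw [h1, hev₁, ihpEv_basis, map_one]
  have hev1x : ∀ g' m, ev₁ (x g' m) = ev₁ m := by
    intro g' m
    have h1 := hev1K _ (hxKa g' m)
    rwa [map_sub, sub_eq_zero] at h1
  have hev1pr : ∀ v, pr v = 0 → ev₁ v = 0 := by
    intro v hv
    apply hev1K
    have h1 : Submodule.span 𝒪 {z : M | ∃ g' u, z = x g' u - u} ≤ Ka := by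
      rw [Submodule.span_le]
      rintro _ ⟨g', u, rfl⟩
      exact hxKa g' u
    exact h1 (hprk v hv)
  -- the basis `e' j = pr (w j)` of `H`
  set e' : Fin d → H := fun j => pr (w j) with he'
  have hkey : ∀ m, pr m = ∑ j, ev₁ m j • e' j := by
    set L₂ : M →ₗ[𝒪] H := ∑ j, ((LinearMap.proj j : (Fin d → 𝒪) →ₗ[𝒪] 𝒪) ∘ₗ ev₁).smulRight (e' j)
      with hL₂
    have hL₂app : ∀ m, L₂ m = ∑ j, ev₁ m j • e' j := by
      intro m
      rw [hL₂, LinearMap.sum_apply]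
      rfl
    have h1 : pr = L₂ := by
      refine bM.ext fun jg => ?_
      obtain ⟨j, g'⟩ := jg
      rw [hbM, hprx, hL₂app]
      have h2 : ∀ i, ev₁ (x g' (w j)) i • e' i = if i = j then e' j else 0 := by
        intro i
        rw [hev1x, hev1w, Pi.single_apply]
        split_ifs with hij
        · rw [one_smul, hij]
        · rw [zero_smul]
      rw [Finset.sum_congr rfl fun i _ => h2 i, Finset.sum_ite_eq' Finset.univ j,
        if_pos (Finset.mem_univ j)]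
    intro m
    rw [h1, hL₂app]
  have hli : LinearIndependent 𝒪 e' := by
    rw [Fintype.linearIndependent_iff]
    intro cf hcf j
    have h1 : pr (∑ i, cf i • w i) = 0 := by
      rw [map_sum, ← hcf]
      exact Finset.sum_congr rfl fun i _ => by rw [map_smul]
    have h2 := hev1pr _ h1
    rw [map_sum] at h2
    have h3 := congrFun h2 j
    rw [Finset.sum_apply, Pi.zero_apply] at h3
    have h4 : ∀ i, (ev₁ (cf i • w i)) j = if j = i then cf i else 0 := by
      intro i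
      rw [map_smul, hev1w, Pi.smul_apply, Pi.single_apply, smul_eq_mul]
      split_ifs <;> simp
    rw [Finset.sum_congr rfl fun i _ => h4 i, Finset.sum_ite_eq Finset.univ j,
      if_pos (Finset.mem_univ j)] at h3
    exact h3
  have hsp : ⊤ ≤ Submodule.span 𝒪 (Set.range e') := by
    rintro h -
    obtain ⟨m, rfl⟩ := hprs h
    rw [hkey]
    exact Submodule.sum_mem _ fun j _ =>
      Submodule.smul_mem _ _ (Submodule.subset_span ⟨j, rfl⟩)
  set be' : Module.Basis (Fin d) 𝒪 H := Module.Basis.mk hli hsp with hbe'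
  have hbe'app : ∀ j, be' j = pr (w j) := fun j => by rw [hbe', Module.Basis.mk_apply]
  have hrepr : ∀ m j, be'.repr (pr m) j = ev₁ m j := by
    intro m j
    have h1 : pr m = ∑ i, ev₁ m i • be' i := by
      rw [hkey]
      exact Finset.sum_congr rfl fun i _ => by rw [hbe'app]
    rw [h1, Module.Basis.repr_sum_self]
  -- the character `u`
  obtain ⟨u, hu⟩ := huniv (IhaS₀ 𝒪 r ⧸ ihaIdeal 𝒪 r p n)
    (fun i => Ideal.Quotient.mk (ihaIdeal 𝒪 r p n) (1 + MvPowerSeries.X i : IhaS₀ 𝒪 r))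
    (fun i => mltm_one_add_X_pow r p n (c i) (hg i).1 i)
  have haugu : ∀ g' : G, mltmAug r p n (u g') = 1 := by
    intro g'
    have hmem : g' ∈ Subgroup.closure (Set.range g) := by rw [hgen]; trivial
    refine Subgroup.closure_induction (p := fun g' _ => mltmAug r p n (u g') = 1) ?_ ?_ ?_ ?_ hmem
    · rintro _ ⟨i, rfl⟩
      rw [hu, mltmAug_mk, map_add, map_one, MvPowerSeries.constantCoeff_X, add_zero, map_one]
    · rw [map_one, map_one]
    · intro y z _ _ hy hz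
      rw [map_mul, map_mul, hy, hz, mul_one]
    · intro y _ hy
      have h1 : mltmAug r p n (u y⁻¹) * mltmAug r p n (u y) = 1 := by
        rw [← map_mul, ← map_mul, inv_mul_cancel, map_one, map_one]
      rwa [hy, mul_one] at h1
  -- the matrices
  obtain ⟨τ, hτ⟩ := mltm_mat_algHom a w b' hb' u ρM (fun t g' => by
    show Commute (ρM t) (ρM (fa g'))
    exact (Commute.all t (fa g')).map ρM)
  have hτentry : ∀ t i j, τ t i j = ihpEv b' u (ρM t (w j)) i := fun t i j => by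
    rw [hτ, ihpMat_apply]
  -- the augmentation of `ihpEv b' u` is `ev₁`
  have hA : ∀ m i, mltmAug r p n (ihpEv b' u m i)
      = Ideal.Quotient.mk (maximalIdeal 𝒪 ^ n) (ev₁ m i) := by
    intro m i
    set L₁ : M →ₗ[𝒪] (𝒪 ⧸ maximalIdeal 𝒪 ^ n) :=
      (mltmAug r p n).toLinearMap ∘ₗ
        (LinearMap.proj i : (Fin d → (IhaS₀ 𝒪 r ⧸ ihaIdeal 𝒪 r p n)) →ₗ[𝒪] _) ∘ₗ ihpEv b' u
      with hL₁
    set L₂ : M →ₗ[𝒪] (𝒪 ⧸ maximalIdeal 𝒪 ^ n) :=
      (Ideal.Quotient.mkₐ 𝒪 (maximalIdeal 𝒪 ^ n)).toLinearMap ∘ₗ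
        (LinearMap.proj i : (Fin d → 𝒪) →ₗ[𝒪] 𝒪) ∘ₗ ev₁ with hL₂
    have h1 : L₁ = L₂ := by
      refine b'.ext fun jg => ?_
      obtain ⟨j, g'⟩ := jg
      show mltmAug r p n (ihpEv b' u (b' (j, g')) i)
        = Ideal.Quotient.mk (maximalIdeal 𝒪 ^ n) (ev₁ (b' (j, g')) i)
      rw [hev₁, ihpEv_basis, ihpEv_basis, Pi.single_apply, Pi.single_apply, MonoidHom.one_apply]
      split_ifs
      · rw [haugu, map_one]
      · rw [map_zero, map_zero]
    exact congrArg (fun L : M →ₗ[𝒪] (𝒪 ⧸ maximalIdeal 𝒪 ^ n) => L m) h1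
  have hAτ : ∀ t i j, mltmAug r p n (τ t i j)
      = Ideal.Quotient.mk (maximalIdeal 𝒪 ^ n) (be'.repr (κ t • be' j) i) := by
    intro t i j
    rw [hτentry, hA, ← hrepr, hprρ, hbe'app]
  -- the change of basis
  set Pm : Matrix (Fin d) (Fin d) 𝒪 := e.toMatrix be' with hPm
  set Pm' : Matrix (Fin d) (Fin d) 𝒪 := be'.toMatrix e with hPm'
  have hPP' : Pm * Pm' = 1 := Module.Basis.toMatrix_mul_toMatrix_flip e be'
  have hP'P : Pm' * Pm = 1 := Module.Basis.toMatrix_mul_toMatrix_flip be' e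
  set PB : Matrix (Fin d) (Fin d) (IhaS₀ 𝒪 r ⧸ ihaIdeal 𝒪 r p n) :=
    Pm.map (algebraMap 𝒪 (IhaS₀ 𝒪 r ⧸ ihaIdeal 𝒪 r p n)) with hPB
  set PB' : Matrix (Fin d) (Fin d) (IhaS₀ 𝒪 r ⧸ ihaIdeal 𝒪 r p n) :=
    Pm'.map (algebraMap 𝒪 (IhaS₀ 𝒪 r ⧸ ihaIdeal 𝒪 r p n)) with hPB'
  have hPBPB' : PB * PB' = 1 := by
    rw [hPB, hPB', ← Matrix.map_mul, hPP', Matrix.map_one _ (map_zero _) (map_one _)]
  have hPB'PB : PB' * PB = 1 := by
    rw [hPB, hPB', ← Matrix.map_mul, hP'P, Matrix.map_one _ (map_zero _) (map_one _)]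
  set τ' : Rn →ₐ[𝒪] Matrix (Fin d) (Fin d) (IhaS₀ 𝒪 r ⧸ ihaIdeal 𝒪 r p n) :=
    { toFun := fun t => PB * τ t * PB'
      map_one' := by rw [map_one, mul_one, hPBPB']
      map_mul' := fun t t' => by
        rw [map_mul]
        calc PB * (τ t * τ t') * PB' = PB * τ t * (1 : Matrix _ _ _) * τ t' * PB' := by
              rw [mul_one]; simp only [mul_assoc]
          _ = PB * τ t * PB' * (PB * τ t' * PB') := by
              rw [← hPB'PB]; simp only [mul_assoc]
      map_zero' := by rw [map_zero, mul_zero, zero_mul]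
      map_add' := fun t t' => by rw [map_add, mul_add, add_mul]
      commutes' := fun c' => by
        rw [AlgHom.commutes, ← Algebra.commutes, mul_assoc, hPBPB', mul_one] } with hτ'
  have hτ'app : ∀ t, τ' t = PB * τ t * PB' := fun t => rfl
  have hτa : ∀ g', τ (fa g') = Matrix.scalar (Fin d) (u g') := by
    intro g'
    ext i j
    rw [hτentry, ← haapp, ihpEv_act a w b' hb']
    have h1 : w j = b' (j, 1) := by rw [hb', map_one]; rfl
    rw [h1, ihpEv_basis, map_one, Pi.smul_apply, smul_eq_mul, Pi.single_apply,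
      Matrix.scalar_apply, Matrix.diagonal_apply]
    split_ifs <;> simp
  -- the lifts of the inertia scalars
  choose y hy using fun i => hγ (aq i - 1)
  refine ⟨κ.comp γ, τ'.comp γ, y, hκ.comp hγ, ?_, ?_, ?_⟩
  · intro i
    rw [AlgHom.comp_apply, hy, map_sub, hκaq, map_one, sub_self]
  · intro i
    rw [AlgHom.comp_apply, hy, hτ'app, map_sub, map_one, ← hfa, hτa, hu, map_add, map_one,
      map_add, map_one, add_sub_cancel_left]
    have h1 : ∀ s : IhaS₀ 𝒪 r ⧸ ihaIdeal 𝒪 r p n, PB * Matrix.scalar (Fin d) s * PB'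
        = Matrix.scalar (Fin d) s := by
      intro s
      rw [← (Matrix.scalar_commute s (fun _ => Commute.all _ _) PB).eq, mul_assoc, hPBPB', mul_one]
    exact h1 _
  · intro f i j s hs
    set t := γ f with ht
    set augR : (IhaS₀ 𝒪 r ⧸ ihaIdeal 𝒪 r p n) →+* (𝒪 ⧸ maximalIdeal 𝒪 ^ n) :=
      (mltmAug r p n).toRingHom with haugR
    have h1 : mltmAug r p n (Ideal.Quotient.mk (ihaIdeal 𝒪 r p n) s)
        = Ideal.Quotient.mk (maximalIdeal 𝒪 ^ n) (e.repr (κ t • e j) i) := by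
      rw [hs, AlgHom.comp_apply, hτ'app]
      -- apply the augmentation entrywise
      have h2 : ∀ X' : Matrix (Fin d) (Fin d) (IhaS₀ 𝒪 r ⧸ ihaIdeal 𝒪 r p n),
          mltmAug r p n (X' i j) = (augR.mapMatrix X') i j :=
        fun X' => rfl
      rw [h2, map_mul, map_mul]
      have h3 : augR.mapMatrix PB
          = Pm.map (Ideal.Quotient.mk (maximalIdeal 𝒪 ^ n)) := by
        ext i' j'
        show mltmAug (𝒪 := 𝒪) r p n (algebraMap 𝒪 (IhaS₀ 𝒪 r ⧸ ihaIdeal 𝒪 r p n) (Pm i' j')) = _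
        rw [AlgHom.commutes]
        rfl
      have h4 : augR.mapMatrix PB'
          = Pm'.map (Ideal.Quotient.mk (maximalIdeal 𝒪 ^ n)) := by
        ext i' j'
        show mltmAug (𝒪 := 𝒪) r p n (algebraMap 𝒪 (IhaS₀ 𝒪 r ⧸ ihaIdeal 𝒪 r p n) (Pm' i' j')) = _
        rw [AlgHom.commutes]
        rfl
      have h5 : augR.mapMatrix (τ t)
          = (LinearMap.toMatrix be' be' (Algebra.lsmul 𝒪 𝒪 H (κ t))).map
              (Ideal.Quotient.mk (maximalIdeal 𝒪 ^ n)) := by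
        ext i' j'
        show mltmAug r p n (τ t i' j') = _
        rw [hAτ, Matrix.map_apply, LinearMap.toMatrix_apply, Algebra.lsmul_apply]
      rw [h3, h4, h5, ← Matrix.map_mul, ← Matrix.map_mul, hPm, hPm',
        basis_toMatrix_mul_linearMap_toMatrix_mul_basis_toMatrix, Matrix.map_apply,
        LinearMap.toMatrix_apply, Algebra.lsmul_apply]
    rw [mltmAug_mk, Ideal.Quotient.eq] at h1
    exact h1

/-- **patching from abstract level data**: level data for all `n` give `H` free over `R`, `R` acting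
faithfully on `H`, and `R` a complete intersection `𝒪⟦x_1..x_r⟧ / (f_1, …, f_r)`. -/
theorem mltm_patch_of_levels {p : ℕ} (hp : p.Prime) (hp2 : 2 < p)
    (hp𝒪 : (p : 𝒪) ∈ maximalIdeal 𝒪) (hp0 : (p : 𝒪) ≠ 0) {r d : ℕ}
    {R : Type} [CommRing R] [IsLocalRing R] [IsNoetherianRing R]
    [IsAdicComplete (maximalIdeal R) R] [Algebra 𝒪 R] [IsLocalHom (algebraMap 𝒪 R)]
    (hres : Function.Surjective (residue R ∘ algebraMap 𝒪 R))
    {H : Type} [AddCommGroup H] [Module 𝒪 H] [Module R H] [IsScalarTower 𝒪 R H] [Nontrivial H]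
    (e : Module.Basis (Fin d) 𝒪 H) (h : ∀ n, MltmLevel p r R e n) :
    Module.Free R H ∧ Module.annihilator R H = ⊥ ∧
      ∃ (ψ' : MvPowerSeries (Fin r) 𝒪 →ₐ[𝒪] R) (f : Fin r → MvPowerSeries (Fin r) 𝒪),
        Function.Surjective ψ' ∧
        RingHom.ker (ψ' : MvPowerSeries (Fin r) 𝒪 →+* R) = Ideal.span (Set.range f) := by
  choose ψ Θ y h1 h2 h3 h4 using fun n => mltm_level_matrix hp hp2 hp𝒪 hp0 e n (h n)
  exact mltm_patch hp𝒪 hres e ψ h1 Θ y h2 h3 h4

end LevelDef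

end

end Fermat.Agent.MLT
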