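/-
MLT (project S59) / Min (helper2): **the map `R_Q → R_∅` of universal deformation rings and its
surjectivity**, for a condition `U` ("unramified at all primes of `Q`") such that
`𝒟 ⇔ 𝒟' ∧ U`: generalisation of helper7's `mlto_pi_surjective` (`Lib/MLT/TWO/Univ.lean`, one prime) to an
arbitrary predicate `U` which is invariant under equivalence and descends along injective base
changes.

* `mltm_exists_kappa` : the canonical map `κ : R' → R` (`𝒟 ⇒ 𝒟'`);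
* `mltm_kappa_surjective` : `κ` is surjective;
* `mltmUnrAt Q` : "unramified at every `q ∈ Q`", with the two stability properties.
-/
import Mathlib
import Fermat.Agent.Lib.MLT.TWO.Univ

set_option autoImplicit false
set_option linter.unusedSectionVars false
set_option linter.unusedVariables false
set_option linter.style.haveILetI false

open Fermat.Agent.S53Lib IsLocalRing GaloisRep
open Fermat.Agent.TW

namespace Fermat.Agent.MLT

/-- unramified at every prime of `Q` -/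
def mltmUnrAt (Q : Finset ℕ) : ∀ ⦃A : Type⦄ [CommRing A] [IsLocalRing A], GaloisRepAdic A → Prop :=
  fun _A _ _ ρ => ∀ q ∈ Q, ρ.IsUnramifiedAt q

theorem mltmUnrAt_of_isEquiv (Q : Finset ℕ) {A : Type} [CommRing A] [IsLocalRing A]
    {ρ₁ ρ₂ : GaloisRepAdic A} (h : ρ₁.IsEquiv ρ₂) (h1 : mltmUnrAt Q ρ₁) : mltmUnrAt Q ρ₂ :=
  fun q hq => isUnramifiedAt_of_isEquiv h (h1 q hq)

theorem mltmUnrAt_of_bc_injective (Q : Finset ℕ) {A B : Type} [CommRing A] [IsLocalRing A]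
    [CommRing B] [IsLocalRing B] (φ : A →+* B) (hφ : IsLocalHom φ) (hinj : Function.Injective φ)
    (ρ : GaloisRepAdic A) (h : mltmUnrAt Q (ρ.baseChangeAlong φ hφ)) : mltmUnrAt Q ρ :=
  fun q hq => mlto_isUnramifiedAt_of_bc_injective φ hφ hinj ρ (h q hq)

section Univ

variable {𝒪 : Type} [CommRing 𝒪] [IsDomain 𝒪] [IsDiscreteValuationRing 𝒪]
  [IsAdicComplete (maximalIdeal 𝒪) 𝒪]
  {ρbar : ResidualGaloisRep (ResidueField 𝒪)}
  {𝒟 𝒟' : ∀ ⦃A : Type⦄ [CommRing A] [IsLocalRing A] [Algebra 𝒪 A], GaloisRepAdic A → Prop}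

/-- **the canonical map `κ : R' → R`** when `𝒟 ⇒ 𝒟'` -/
theorem mltm_exists_kappa
    (h𝒟to : ∀ ⦃A : Type⦄ [CommRing A] [IsLocalRing A] [Algebra 𝒪 A] (ρ : GaloisRepAdic A),
      𝒟 ρ → 𝒟' ρ)
    (D : DeformationRingData 𝒪 ρbar 𝒟) (D' : DeformationRingData 𝒪 ρbar 𝒟') :
    ∃ (κ : D'.R →ₐ[𝒪] D.R) (hκ : IsLocalHom (κ : D'.R →+* D.R)),
      (D'.ρ.baseChangeAlong (κ : D'.R →+* D.R) hκ).IsEquiv D.ρ := by
  obtain ⟨κ, ⟨hκ, hκρ⟩, -⟩ := D'.universal D.R D.residue_surjective D.ρ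
    (h𝒟to D.ρ D.isOfType) D.residual_isEquiv
  exact ⟨κ, hκ, hκρ⟩

variable
  (U : ∀ ⦃A : Type⦄ [CommRing A] [IsLocalRing A], GaloisRepAdic A → Prop)
  (hUeq : ∀ ⦃A : Type⦄ [CommRing A] [IsLocalRing A] (ρ₁ ρ₂ : GaloisRepAdic A),
    ρ₁.IsEquiv ρ₂ → U ρ₁ → U ρ₂)
  (hUinj : ∀ ⦃A B : Type⦄ [CommRing A] [IsLocalRing A] [CommRing B] [IsLocalRing B]
    (φ : A →+* B) (hφ : IsLocalHom φ), Function.Injective φ →
    ∀ ρ : GaloisRepAdic A, U (ρ.baseChangeAlong φ hφ) → U ρ)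
  (h𝒟of : ∀ ⦃A : Type⦄ [CommRing A] [IsLocalRing A] [Algebra 𝒪 A] (ρ : GaloisRepAdic A),
    𝒟' ρ → U ρ → 𝒟 ρ)
  (h𝒟unr : ∀ ⦃A : Type⦄ [CommRing A] [IsLocalRing A] [Algebra 𝒪 A] (ρ : GaloisRepAdic A),
    𝒟 ρ → U ρ)
  (hbc : ∀ ⦃A B : Type⦄ [CommRing A] [IsLocalRing A] [Algebra 𝒪 A] [CommRing B] [IsLocalRing B]
    [Algebra 𝒪 B] (φ : A →ₐ[𝒪] B) (hφ : IsLocalHom (φ : A →+* B)), Function.Surjective φ →
    ∀ ρ : GaloisRepAdic A, 𝒟' ρ → 𝒟' (ρ.baseChangeAlong (φ : A →+* B) hφ))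
  (D : DeformationRingData 𝒪 ρbar 𝒟) (D' : DeformationRingData 𝒪 ρbar 𝒟')
  (π : D'.R →ₐ[𝒪] D.R) (hπ : IsLocalHom (π : D'.R →+* D.R))
  (hπρ : (D'.ρ.baseChangeAlong (π : D'.R →+* D.R) hπ).IsEquiv D.ρ)

include hUeq hUinj h𝒟of h𝒟unr hbc hπρ in
/-- **`κ : R' → R` is surjective** -/
theorem mltm_kappa_surjective : Function.Surjective π := by
  set J : Ideal D'.R := RingHom.ker (π : D'.R →+* D.R) with hJdef
  have hJ : J ≠ ⊤ := RingHom.ker_ne_top _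
  haveI : Nontrivial (D'.R ⧸ J) := Ideal.Quotient.nontrivial_iff.2 hJ
  haveI : IsLocalRing (D'.R ⧸ J) :=
    IsLocalRing.of_surjective' (Ideal.Quotient.mk J) Ideal.Quotient.mk_surjective
  haveI : IsAdicComplete (maximalIdeal (D'.R ⧸ J)) (D'.R ⧸ J) :=
    isAdicComplete_of_surjective (Ideal.Quotient.mk J) Ideal.Quotient.mk_surjective
  let pr : D'.R →ₐ[𝒪] D'.R ⧸ J := Ideal.Quotient.mkₐ 𝒪 J
  have hprsurj : Function.Surjective pr := Ideal.Quotient.mkₐ_surjective 𝒪 J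
  have hres : Function.Surjective (residue (D'.R ⧸ J) ∘ algebraMap 𝒪 (D'.R ⧸ J)) :=
    residue_comp_algebraMap_surjective_of_surjective pr hprsurj D'.residue_surjective
  have hprloc0 : IsLocalHom (Ideal.Quotient.mk J) :=
    IsLocalHom.of_surjective (Ideal.Quotient.mk J) Ideal.Quotient.mk_surjective
  haveI hlocB : IsLocalHom (algebraMap 𝒪 (D'.R ⧸ J)) := by
    have h1 : algebraMap 𝒪 (D'.R ⧸ J) = (Ideal.Quotient.mk J).comp (algebraMap 𝒪 D'.R) := rfl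
    rw [h1]
    haveI := D'.instIsLocalHom
    haveI := hprloc0
    exact RingHom.isLocalHom_comp _ _
  have hpr : IsLocalHom (pr : D'.R →+* D'.R ⧸ J) := hprloc0
  -- the injection `D'.R ⧸ J → D.R`
  let πbar : (D'.R ⧸ J) →ₐ[𝒪] D.R := Ideal.Quotient.liftₐ J π (fun a ha => ha)
  have hπbar_mk : ∀ a, πbar (Ideal.Quotient.mk J a) = π a := fun a => rfl
  have hπbar_inj : Function.Injective πbar := by
    rw [injective_iff_map_eq_zero]
    intro z hz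
    obtain ⟨a, rfl⟩ := Ideal.Quotient.mk_surjective z
    rw [hπbar_mk] at hz
    exact Ideal.Quotient.eq_zero_iff_mem.2 hz
  have hπbar : IsLocalHom (πbar : (D'.R ⧸ J) →+* D.R) :=
    isLocalHom_of_algHom hlocB hres D.instIsLocalHom D.residue_surjective πbar
  have hcomp : (πbar : (D'.R ⧸ J) →+* D.R).comp (pr : D'.R →+* D'.R ⧸ J) =
      (π : D'.R →+* D.R) := by
    ext a
    rfl
  -- the deformation over the quotient
  have h𝒟'0 : 𝒟' (D'.ρ.baseChangeAlong (pr : D'.R →+* D'.R ⧸ J) hpr) :=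
    hbc pr hpr hprsurj D'.ρ D'.isOfType
  have hlocc : IsLocalHom ((πbar : (D'.R ⧸ J) →+* D.R).comp (pr : D'.R →+* D'.R ⧸ J)) := by
    rw [hcomp]; exact hπ
  have he0 : ((D'.ρ.baseChangeAlong (pr : D'.R →+* D'.R ⧸ J) hpr).baseChangeAlong
      (πbar : (D'.R ⧸ J) →+* D.R) hπbar).IsEquiv D.ρ :=
    mlto_isEquiv_trans (mlto_bc_comp _ hpr _ hπbar hlocc D'.ρ)
      (mlto_isEquiv_trans (mlto_bc_congr hcomp hlocc hπ D'.ρ) hπρ)
  have hunr0 : U (D'.ρ.baseChangeAlong (pr : D'.R →+* D'.R ⧸ J) hpr) := by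
    refine hUinj _ hπbar hπbar_inj _ ?_
    exact hUeq _ _ (mlto_isEquiv_symm he0) (h𝒟unr D.ρ D.isOfType)
  have h𝒟0 : 𝒟 (D'.ρ.baseChangeAlong (pr : D'.R →+* D'.R ⧸ J) hpr) := h𝒟of _ h𝒟'0 hunr0
  obtain ⟨θ, ⟨hθ, heθ⟩, -⟩ := D.universal (D'.R ⧸ J) hres _ h𝒟0 (mlto_residual_bc D' pr hpr)
  -- uniqueness for `D` with target `D.R`
  obtain ⟨φ₁, -, huniq⟩ := D.universal D.R D.residue_surjective D.ρ D.isOfType D.residual_isEquiv
  have hidloc : IsLocalHom ((AlgHom.id 𝒪 D.R : D.R →ₐ[𝒪] D.R) : D.R →+* D.R) :=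
    ⟨fun a ha => ha⟩
  have h1 : AlgHom.id 𝒪 D.R = φ₁ := huniq _ ⟨hidloc, mlto_bc_id hidloc D.ρ⟩
  have hloc2 : IsLocalHom ((πbar.comp θ : D.R →ₐ[𝒪] D.R) : D.R →+* D.R) :=
    isLocalHom_of_algHom D.instIsLocalHom D.residue_surjective D.instIsLocalHom
      D.residue_surjective (πbar.comp θ)
  have h2 : πbar.comp θ = φ₁ := by
    refine huniq _ ⟨hloc2, ?_⟩
    have e1 : ((D.ρ.baseChangeAlong (θ : D.R →+* D'.R ⧸ J) hθ).baseChangeAlong
        (πbar : (D'.R ⧸ J) →+* D.R) hπbar).IsEquiv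
        (D.ρ.baseChangeAlong ((πbar : (D'.R ⧸ J) →+* D.R).comp (θ : D.R →+* D'.R ⧸ J)) hloc2) :=
      mlto_bc_comp _ hθ _ hπbar hloc2 D.ρ
    exact mlto_isEquiv_trans (mlto_isEquiv_symm e1)
      (mlto_isEquiv_trans (mlto_isEquiv_bc heθ _ hπbar) he0)
  intro z
  have h3 : (πbar.comp θ) z = z := by rw [h2, ← h1]; rfl
  obtain ⟨a, ha⟩ := Ideal.Quotient.mk_surjective (θ z)
  refine ⟨a, ?_⟩
  rw [← hπbar_mk, ha]
  exact h3

end Univ

end Fermat.Agent.MLT
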