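/-
MLT (project S59) / Min (helper2): **the Galois glue**: Hecke data at a Taylor–Wiles level + universal
deformation rings `R_Q` (`D'`), `R_∅` (`D`) ⟹ the abstract level datum `MltmLevel` of `Min/LevelAlg.lean`.

Given
* conditions `𝒟` (type `∅`), `𝒟'` (type `Q`) with `𝒟 ⇔ 𝒟' ∧ unramified at Q`, `𝒟'` stable under surjective
  base change and implying `DetIsCyclotomic p`;
* the base level: a complete local Noetherian `𝒪`-algebra `E` acting faithfully on `H` (`actE`) with a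
  strict lift `rE` of `ρbar` of type `𝒟`, Frobenius traces `aE ℓ` (`ℓ ∉ S`), the map `ψE : R_∅ → E` and
  `t • x = actE (ψE t) x` on `H`;
* the level `Q = {qv i}`: a complete local Noetherian `𝒪`-algebra `A` acting on `M` (`ρM`) with a strict
  lift `rA` of type `𝒟'`, Frobenius traces `aA ℓ` generating `A`, the diamond group `G` acting on `M`
  (free over `𝒪[G]`), inertia data `(aqA i, aqA' i, eA i)` at `(φv i, σv i)` with (SC), (WL), and the
  control map `pr : M ↠ H` with `pr (aA ℓ v) = aE ℓ (pr v)`;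
* a surjection `γ : 𝒪⟦x_1..x_r⟧ ↠ R_Q`;

we get `MltmLevel p r D.R e n` with `Rn = R_Q`, `κ : R_Q ↠ R_∅` the canonical map, `ρM ∘ φn` the action of
`R_Q` on `M` (`φn : R_Q → A` universal), and `aq i` the canonical inertia scalars of the universal
deformation (`ihta_AQ`).  The equivariance `pr (t v) = κ t • pr v` is proved by constructing
`β : A → E` (`mltm_exists_beta`), and showing `β ∘ φn = ψE ∘ κ` by rigidity (`alpy_rigid`) and the
uniqueness clause of the universal property.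
-/
import Mathlib
import Fermat.Agent.Lib.MLT.Min.LevelAlg
import Fermat.Agent.Lib.MLT.Min.UnivQ
import Fermat.Agent.Lib.MLT.Min.Idem
import Fermat.Agent.Lib.MLT.Min.GlueAlg
import Fermat.Agent.Lib.Ihara.Sc.Gal
import Fermat.Agent.Lib.Ihara.Ta.Main
import Fermat.Agent.Lib.Ihara.Img.DetCyc

set_option autoImplicit false
set_option linter.unusedSectionVars false
set_option linter.unusedVariables false
set_option linter.style.haveILetI false

open IsLocalRing Polynomial Fermat.Agent.S53Lib Fermat.Agent.TW Fermat.Agent.Ihara GaloisRep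

namespace Fermat.Agent.MLT

local notation "Qbar" => AlgebraicClosure ℚ
local notation "GQ" => (AlgebraicClosure ℚ ≃ₐ[ℚ] AlgebraicClosure ℚ)

open Fermat.Agent.Alpha (AlpyFrob alpy_rigid)

section Glue

variable {𝒪 : Type} [CommRing 𝒪] [IsDomain 𝒪] [IsDiscreteValuationRing 𝒪]
  [IsAdicComplete (maximalIdeal 𝒪) 𝒪] [Finite (ResidueField 𝒪)]

/-- the determinant of an inertia element in matrix form -/
theorem mltm_det_inertia {A : Type} [CommRing A] [IsLocalRing A] [IsNoetherianRing A]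
    {p : ℕ} (hp : p.Prime) (r : GQ →* Matrix (Fin 2) (Fin 2) A) (hcts : MatCts A r)
    (hdet : (ofMat r hcts).DetIsCyclotomic p) {l : ℕ} (hl : l.Prime) (hlp : l ≠ p)
    {P : ValuationSubring Qbar} (hP : P.LiesOverPrime l) {σ : GQ}
    (hσ : σ ∈ P.inertiaSubgroupIn ℚ) : (r σ).det = 1 := by
  have hmat : LinearMap.toMatrix (ofMatBasis r hcts) (ofMatBasis r hcts)
      ((ofMat r hcts).ρ σ) = r σ := DFunLike.congr_fun (toMatrixRep_ofMat r hcts) σ
  rw [← hmat, LinearMap.det_toMatrix]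
  exact ihi_det_inertia hp (ofMat r hcts) hdet hl hlp hP hσ

/-- conjugacy of two matrix representations with equivalent associated representations -/
theorem mltm_exists_conj {A : Type} [CommRing A] [IsLocalRing A]
    {r₁ r₂ : GQ →* Matrix (Fin 2) (Fin 2) A} (h₁ : MatCts A r₁) (h₂ : MatCts A r₂)
    (h : (ofMat r₁ h₁).IsEquiv (ofMat r₂ h₂)) :
    ∃ T : (Matrix (Fin 2) (Fin 2) A)ˣ, ∀ σ, (T : Matrix (Fin 2) (Fin 2) A) * r₁ σ = r₂ σ * T := by
  obtain ⟨e⟩ := h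
  obtain ⟨T, hT⟩ := exists_conj_of_equiv e (ofMatBasis r₁ h₁) (ofMatBasis r₂ h₂)
  refine ⟨T, fun σ => ?_⟩
  have h := hT σ
  rw [toMatrixRep_ofMat, toMatrixRep_ofMat] at h
  exact h

/-- in a module with an action `x` of a group generated by ONE element `g₀`, the span of the
`x g' u - u` is the range of `x g₀ - 1` -/
theorem mltm_span_le_range_cyclic {M : Type*} [AddCommGroup M] [Module 𝒪 M]
    {G : Type*} [Group G] [Finite G] (x : G →* Module.End 𝒪 M) (g₀ : G)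
    (hgen : Subgroup.closure ({g₀} : Set G) = ⊤) (v : M)
    (hv : v ∈ Submodule.span 𝒪 {z : M | ∃ g' u, z = x g' u - u}) :
    ∃ u, v = x g₀ u - u := by
  have hpow : ∀ g' : G, ∃ k : ℕ, g' = g₀ ^ k := by
    intro g'
    have h1 : g' ∈ Subgroup.closure ({g₀} : Set G) := by rw [hgen]; trivial
    rw [← Subgroup.zpowers_eq_closure] at h1
    obtain ⟨k, hk⟩ := (mem_powers_iff_mem_zpowers (x := g₀)).mpr h1
    exact ⟨k, hk.symm⟩
  have hle : Submodule.span 𝒪 {z : M | ∃ g' u, z = x g' u - u} ≤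
      LinearMap.range (x g₀ - 1 : Module.End 𝒪 M) := by
    refine Submodule.span_le.mpr ?_
    rintro z ⟨g', u, rfl⟩
    obtain ⟨k, rfl⟩ := hpow g'
    refine ⟨(∑ j ∈ Finset.range k, x g₀ ^ j : Module.End 𝒪 M) u, ?_⟩
    rw [← Module.End.mul_apply, mul_geom_sum, map_pow, LinearMap.sub_apply, Module.End.one_apply]
  obtain ⟨u, hu⟩ := hle hv
  refine ⟨u, ?_⟩
  rw [← hu, LinearMap.sub_apply, Module.End.one_apply]

/-- **the Galois glue** -/
theorem mltm_level_of_glue {p : ℕ} (hp : p.Prime)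
    (ρbar : ResidualGaloisRep (ResidueField 𝒪)) (habs : ρbar.IsAbsolutelyIrreducible)
    (b : Module.Basis (Fin 2) (ResidueField 𝒪) ρbar.V)
    {𝒟 𝒟' : ∀ ⦃A : Type⦄ [CommRing A] [IsLocalRing A] [Algebra 𝒪 A], GaloisRepAdic A → Prop}
    (Q : Finset ℕ)
    (h𝒟to : ∀ ⦃A : Type⦄ [CommRing A] [IsLocalRing A] [Algebra 𝒪 A] (ρ : GaloisRepAdic A),
      𝒟 ρ → 𝒟' ρ)
    (h𝒟of : ∀ ⦃A : Type⦄ [CommRing A] [IsLocalRing A] [Algebra 𝒪 A] (ρ : GaloisRepAdic A),
      𝒟' ρ → mltmUnrAt Q ρ → 𝒟 ρ)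
    (h𝒟unr : ∀ ⦃A : Type⦄ [CommRing A] [IsLocalRing A] [Algebra 𝒪 A] (ρ : GaloisRepAdic A),
      𝒟 ρ → mltmUnrAt Q ρ)
    (hbc : ∀ ⦃A B : Type⦄ [CommRing A] [IsLocalRing A] [Algebra 𝒪 A] [CommRing B] [IsLocalRing B]
      [Algebra 𝒪 B] (φ : A →ₐ[𝒪] B) (hφ : IsLocalHom (φ : A →+* B)), Function.Surjective φ →
      ∀ ρ : GaloisRepAdic A, 𝒟' ρ → 𝒟' (ρ.baseChangeAlong (φ : A →+* B) hφ))
    (h𝒟det : ∀ ⦃A : Type⦄ [CommRing A] [IsLocalRing A] [Algebra 𝒪 A] (ρ : GaloisRepAdic A),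
      𝒟' ρ → ρ.DetIsCyclotomic p)
    (D : DeformationRingData 𝒪 ρbar 𝒟) (D' : DeformationRingData 𝒪 ρbar 𝒟')
    -- the base level
    {E : Type} [CommRing E] [IsLocalRing E] [IsNoetherianRing E]
    [IsAdicComplete (maximalIdeal E) E] [Algebra 𝒪 E] [IsLocalHom (algebraMap 𝒪 E)]
    (hresE : Function.Surjective (residue E ∘ algebraMap 𝒪 E))
    (rE : GQ →* Matrix (Fin 2) (Fin 2) E) (hctsE : MatCts E rE)
    (hstrictE : IsStrictLift (𝒪 := 𝒪) (resMat ρbar b) rE) (htypeE : 𝒟 (ofMat rE hctsE))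
    (ψE : D.R →ₐ[𝒪] E) (hψE : IsLocalHom (ψE : D.R →+* E))
    (hψEρ : (D.ρ.baseChangeAlong (ψE : D.R →+* E) hψE).IsEquiv (ofMat rE hctsE))
    {H : Type} [AddCommGroup H] [Module 𝒪 H] [Module D.R H] {d : ℕ}
    (e : Module.Basis (Fin d) 𝒪 H)
    (actE : E →ₐ[𝒪] Module.End 𝒪 H) (hinjE : Function.Injective actE)
    (hmod : ∀ (t : D.R) (x : H), t • x = actE (ψE t) x)
    (S : Finset ℕ) (aE : ℕ → E)
    (hfrE : ∀ ℓ : ℕ, ℓ.Prime → ℓ ∉ S → ∀ P : ValuationSubring Qbar, P.LiesOverPrime ℓ →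
      ∀ σ : GQ, P.IsFrobeniusAt σ ℓ → (rE σ).trace = aE ℓ ∧ (rE σ).det = (ℓ : E))
    -- the Taylor–Wiles set
    {r : ℕ} (qv : Fin r → ℕ) (hQ : ∀ i, qv i ∈ Q) (n : ℕ)
    (hqv : ∀ i, (qv i).Prime ∧ qv i ≠ p) (hunr : ∀ i, ρbar.IsUnramifiedAt (qv i))
    (hTW : ∀ i, IsTWPrime ρbar (qv i))
    (γ : MvPowerSeries (Fin r) 𝒪 →ₐ[𝒪] D'.R) (hγ : Function.Surjective γ)
    (Pv : Fin r → ValuationSubring Qbar) (hPv : ∀ i, (Pv i).LiesOverPrime (qv i))
    (φv σv : Fin r → GQ) (hφv : ∀ i, (Pv i).IsFrobeniusAt (φv i) (qv i))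
    (hσv : ∀ i, σv i ∈ (Pv i).inertiaSubgroupIn ℚ)
    -- the Hecke datum at the level `Q`
    {A : Type} [CommRing A] [IsLocalRing A] [IsNoetherianRing A]
    [IsAdicComplete (maximalIdeal A) A] [Algebra 𝒪 A] [IsLocalHom (algebraMap 𝒪 A)]
    (hresA : Function.Surjective (residue A ∘ algebraMap 𝒪 A))
    (rA : GQ →* Matrix (Fin 2) (Fin 2) A) (hctsA : MatCts A rA)
    (hstrictA : IsStrictLift (𝒪 := 𝒪) (resMat ρbar b) rA) (htypeA : 𝒟' (ofMat rA hctsA))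
    (aA : ℕ → A)
    (hfrA : ∀ ℓ : ℕ, ℓ.Prime → ℓ ∉ S → ∀ P : ValuationSubring Qbar, P.LiesOverPrime ℓ →
      ∀ σ : GQ, P.IsFrobeniusAt σ ℓ → (rA σ).trace = aA ℓ ∧ (rA σ).det = (ℓ : A))
    (hgenA : Algebra.adjoin 𝒪 {t : A | ∃ ℓ : ℕ, ℓ.Prime ∧ ℓ ∉ S ∧ t = aA ℓ} = ⊤)
    {M : Type} [AddCommGroup M] [Module 𝒪 M] [Module.Finite 𝒪 M]
    (ρM : A →ₐ[𝒪] Module.End 𝒪 M)
    {G : Type} [CommGroup G] [Finite G] (x : G →* Module.End 𝒪 M)
    (w : Fin d → M) (bM : Module.Basis (Fin d × G) 𝒪 M) (g : Fin r → G) (c : Fin r → ℕ)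
    (hρx : ∀ t g', Commute (ρM t) (x g')) (hbM : ∀ j g', bM (j, g') = x g' (w j))
    (hg : ∀ i, n ≤ c i ∧ 0 < c i ∧ orderOf (g i) = p ^ c i)
    (hclos : Subgroup.closure (Set.range g) = ⊤)
    (huniv : ∀ (Y : Type) [CommMonoid Y] (y : Fin r → Y), (∀ i, y i ^ (p ^ c i) = 1) →
      ∃ f : G →* Y, ∀ i, f (g i) = y i)
    (hc : ∀ i, ∃ u : ℕ, qv i = 1 + p ^ c i * u ∧ ¬ p ∣ u)
    (aqA aqA' : Fin r → A) (eA : Fin r → Matrix (Fin 2) (Fin 2) A)
    (haq : ∀ i, aqA i * aqA' i = 1 ∧ eA i * eA i = eA i ∧ (eA i).trace = 1 ∧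
      rA (φv i) * eA i = eA i * rA (φv i) ∧ aqA i = (eA i * rA (σv i)).trace ∧
      (rA (σv i)).trace = aqA i + aqA' i)
    (hsc : 2 ≤ r → ∀ i v, ∃ u, ρM (aqA i) v - v = x (g i) u - u)
    (hwl : ∀ i v, (∑ k ∈ Finset.range p, x (g i) ^ k : Module.End 𝒪 M) v = 0 →
      ρM (aqA i) v = v → v = 0)
    (pr : M →ₗ[𝒪] H) (hprs : Function.Surjective pr)
    (hprk : ∀ v, pr v = 0 → v ∈ Submodule.span 𝒪 {z : M | ∃ g' u, z = x g' u - u})
    (hprx : ∀ g' u, pr (x g' u) = pr u)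
    (hprT : ∀ ℓ : ℕ, ℓ.Prime → ℓ ∉ S → ∀ v, pr (ρM (aA ℓ) v) = actE (aE ℓ) (pr v)) :
    MltmLevel p r D.R e n := by
  classical
  -- the canonical map `κ : R_Q → R_∅`
  obtain ⟨κ, hκ, hκρ⟩ := mltm_exists_kappa h𝒟to D D'
  have hκs : Function.Surjective κ :=
    mltm_kappa_surjective (mltmUnrAt Q) (fun _ _ _ ρ₁ ρ₂ h h1 => mltmUnrAt_of_isEquiv Q h h1)
      (fun _ _ _ _ _ _ φ hφ hinj ρ h => mltmUnrAt_of_bc_injective Q φ hφ hinj ρ h)
      h𝒟of h𝒟unr hbc D D' κ hκ hκρ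
  -- the map `φn : R_Q → A`
  obtain ⟨φn, ⟨hφn, hφnρ⟩, -⟩ := D'.universal A hresA (ofMat rA hctsA) htypeA
    (residual_ofMat_isEquiv ρbar b rA hctsA hstrictA)
  -- the map `β : A → E`
  obtain ⟨β, hβ, hβuniq⟩ := mltm_exists_beta ρM actE pr hprs hinjE
    {t : A | ∃ ℓ : ℕ, ℓ.Prime ∧ ℓ ∉ S ∧ t = aA ℓ} hgenA (by
      rintro a ⟨ℓ, hℓ, hℓS, rfl⟩
      exact ⟨aE ℓ, hprT ℓ hℓ hℓS⟩)
  have hβa : ∀ ℓ : ℕ, ℓ.Prime → ℓ ∉ S → β (aA ℓ) = aE ℓ := fun ℓ hℓ hℓS =>
    hβuniq _ _ (hprT ℓ hℓ hℓS)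
  have hβloc : IsLocalHom (β : A →+* E) :=
    isLocalHom_of_algHom inferInstance hresA inferInstance hresE β
  -- `β ∘ φn = ψE ∘ κ`
  have hc₁loc : IsLocalHom ((β.comp φn : D'.R →ₐ[𝒪] E) : D'.R →+* E) :=
    isLocalHom_of_algHom D'.instIsLocalHom D'.residue_surjective inferInstance hresE _
  have hc₂loc : IsLocalHom ((ψE.comp κ : D'.R →ₐ[𝒪] E) : D'.R →+* E) :=
    isLocalHom_of_algHom D'.instIsLocalHom D'.residue_surjective inferInstance hresE _
  obtain ⟨φ₀, -, huniq⟩ := D'.universal E hresE (ofMat rE hctsE) (h𝒟to _ htypeE)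
    (residual_ofMat_isEquiv ρbar b rE hctsE hstrictE)
  have hcomp : β.comp φn = ψE.comp κ := by
    have h1 : β.comp φn = φ₀ := by
      refine huniq _ ⟨hc₁loc, ?_⟩
      have e1 : ((D'.ρ.baseChangeAlong (φn : D'.R →+* A) hφn).baseChangeAlong
          (β : A →+* E) hβloc).IsEquiv
          (D'.ρ.baseChangeAlong ((β : A →+* E).comp (φn : D'.R →+* A)) hc₁loc) :=
        mlto_bc_comp _ hφn _ hβloc hc₁loc D'.ρ
      have e2 := mlto_isEquiv_bc hφnρ (β : A →+* E) hβloc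
      have habsA : (ofMat rA hctsA).residual.IsAbsolutelyIrreducible :=
        ihsc_residual_absIrr ρbar habs b rA hctsA hstrictA
      have hFrA : AlpyFrob S (ofMat rA hctsA) aA := ihsc_alpyFrob_ofMat rA hctsA S aA hfrA
      have hFrE : AlpyFrob S (ofMat rE hctsE) (fun ℓ => (β : A →+* E) (aA ℓ)) := by
        refine ihsc_alpyFrob_ofMat rE hctsE S _ ?_
        intro ℓ hℓ hℓS P hP σ hσ
        obtain ⟨h3, h4⟩ := hfrE ℓ hℓ hℓS P hP σ hσ
        refine ⟨?_, h4⟩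
        rw [h3]
        exact (hβa ℓ hℓ hℓS).symm
      obtain ⟨e3⟩ := alpy_rigid S (ofMat rA hctsA) habsA aA hFrA (β : A →+* E) hβloc
        (ofMat rE hctsE) hFrE
      exact mlto_isEquiv_trans (mlto_isEquiv_symm e1) (mlto_isEquiv_trans e2 ⟨e3⟩)
    have h2 : ψE.comp κ = φ₀ := by
      refine huniq _ ⟨hc₂loc, ?_⟩
      have e1 : ((D'.ρ.baseChangeAlong (κ : D'.R →+* D.R) hκ).baseChangeAlong
          (ψE : D.R →+* E) hψE).IsEquiv
          (D'.ρ.baseChangeAlong ((ψE : D.R →+* E).comp (κ : D'.R →+* D.R)) hc₂loc) :=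
        mlto_bc_comp _ hκ _ hψE hc₂loc D'.ρ
      have e2 := mlto_isEquiv_bc hκρ (ψE : D.R →+* E) hψE
      exact mlto_isEquiv_trans (mlto_isEquiv_symm e1) (mlto_isEquiv_trans e2 hψEρ)
    rw [h1, h2]
  -- the universal matrix representation and its inertia scalars
  set u : GQ →* Matrix (Fin 2) (Fin 2) D'.R := univMat D' b with hu
  have hucts : MatCts D'.R u := univMat_cts D' b
  have hustrict : IsStrictLift (𝒪 := 𝒪) (resMat ρbar b) u := univMat_strict D' b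
  have huequiv : D'.ρ.IsEquiv (ofMat u hucts) := univMat_equiv D' b
  have hudet : (ofMat u hucts).DetIsCyclotomic p :=
    detIsCyclotomic_of_isEquiv huequiv (h𝒟det D'.ρ D'.isOfType)
  have hpR : (p : D'.R) ∈ maximalIdeal D'.R := hudet.1
  have hAQ : ∀ i, ∃ (aq aq' : D'.R) (eu : Matrix (Fin 2) (Fin 2) D'.R),
      aq * aq' = 1 ∧ aq ^ (p ^ c i) = 1 ∧ aq - 1 ∈ maximalIdeal D'.R ∧
      eu * eu = eu ∧ eu.trace = 1 ∧ u (φv i) * eu = eu * u (φv i) ∧
      aq = (eu * u (σv i)).trace ∧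
      u (σv i) = aq • eu + aq' • (1 - eu) ∧ (u (σv i)).trace = aq + aq' ∧
      u (φv i) * u (σv i) = u (σv i) * u (φv i) := by
    intro i
    obtain ⟨u', hqcu, hu'⟩ := hc i
    exact ihta_AQ hp (hqv i).1 (Ne.symm (hqv i).2) hpR ρbar b (hunr i) (hTW i) (Pv i) (hPv i) u hucts
      hustrict (hφv i) (hσv i)
      (mltm_det_inertia hp u hucts hudet (hqv i).1 (hqv i).2 (hPv i) (hσv i))
      (c i) u' hqcu hu' (hg i).2.1
  choose aq aq' eu haq1 haq2 haq3 haq4 haq5 haq6 haq7 haq8 haq9 haq10 using hAQ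
  -- `κ (aq i) = 1`
  have hκaq : ∀ i, κ (aq i) = 1 := by
    intro i
    have h1 : (ofMat (mapMat (κ : D'.R →+* D.R) u) (hucts.map _ hκ)).IsEquiv D.ρ :=
      mlto_isEquiv_trans
        (mlto_isEquiv_symm (mlto_bc_isEquiv_ofMat (κ : D'.R →+* D.R) hκ D'.ρ u hucts huequiv)) hκρ
    have h2 : (ofMat (mapMat (κ : D'.R →+* D.R) u) (hucts.map _ hκ)).IsUnramifiedAt (qv i) :=
      isUnramifiedAt_of_isEquiv (mlto_isEquiv_symm h1) (h𝒟unr D.ρ D.isOfType (qv i) (hQ i))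
    have h3 := h2 (Pv i) (hPv i) (σv i) (hσv i)
    rw [ofMat_ρ_eq_one_iff, mapMat_apply] at h3
    exact ihsc_aq_eq_one u (κ : D'.R →+* D.R) (σv i) h3 (eu i) (haq5 i) (aq i) (haq7 i)
  -- `φn (aq i)` is `aqA i` or its inverse
  have hφaq : ∀ i, φn (aq i) = aqA i ∨ φn (aq i) = aqA' i := by
    intro i
    obtain ⟨k1, k2, k3, k4, k5, k6⟩ := haq i
    have h1 : (ofMat (mapMat (φn : D'.R →+* A) u) (hucts.map _ hφn)).IsEquiv (ofMat rA hctsA) :=
      mlto_isEquiv_trans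
        (mlto_isEquiv_symm (mlto_bc_isEquiv_ofMat (φn : D'.R →+* A) hφn D'.ρ u hucts huequiv))
        hφnρ
    obtain ⟨T, hT⟩ := mltm_exists_conj _ _ h1
    have hXX : (eu i).map φn * (eu i).map φn = (eu i).map φn := by
      rw [← Matrix.map_mul, haq4 i]
    have htrX : ((eu i).map φn).trace = 1 := by
      have h : ((eu i).map φn).trace = φn (eu i).trace := by
        rw [Matrix.trace, Matrix.trace, map_sum]
        rfl
      rw [h, haq5 i, map_one]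
    have hcommX : (u (φv i)).map φn * (eu i).map φn = (eu i).map φn * (u (φv i)).map φn := by
      rw [← Matrix.map_mul, ← Matrix.map_mul, haq6 i]
    obtain ⟨e', he'1, he'2, he'3, he'4⟩ := mltm_conj_idem T ((eu i).map φn) ((u (φv i)).map φn)
      ((u (σv i)).map φn) (rA (φv i)) (rA (σv i)) (hT (φv i)) (hT (σv i)) hXX htrX hcommX
    have hφaq' : φn (aq i) = (e' * rA (σv i)).trace := by
      rw [he'4, ← Matrix.map_mul, haq7 i]
      rw [Matrix.trace, Matrix.trace, map_sum]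
      rfl
    obtain ⟨a₀, b₀, r1, r2, r3⟩ := ihta_TW_roots ρbar b (hTW i) (Pv i) (hPv i) rA hstrictA (hφv i)
    obtain ⟨al, be, s1, s2, s3, -, -⟩ := ihta_TW_hensel (rA (φv i)) a₀ b₀ r1 r2 r3
    rcases mltm_aq_eq_or (rA (φv i)) (rA (σv i)) (eA i) e' al be s1 s2 s3 k2 k3 k4 he'1 he'2 he'3
      with h | h
    · left
      rw [hφaq', h, ← k5]
    · right
      rw [hφaq', h, ← k5, k6]
      ring
  -- the equivariance of `pr`
  have hprκ : ∀ (t : D'.R) (v : M), pr (ρM (φn t) v) = κ t • pr v := by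
    intro t v
    rw [hβ, hmod]
    have h := congrArg (fun f : D'.R →ₐ[𝒪] E => f t) hcomp
    simp only [AlgHom.comp_apply] at h
    rw [h]
  -- (SC) for the universal inertia scalars
  have hSC : ∀ i v, ∃ u, ρM (φn (aq i)) v - v = x (g i) u - u := by
    intro i v
    by_cases h2 : 2 ≤ r
    · rcases hφaq i with h | h
      · rw [h]
        exact hsc h2 i v
      · rw [h]
        exact mltm_sc_inv ρM (x (g i)) (haq i).1 (hsc h2 i) v
    · -- `r = 1`: the group is cyclic and `ker pr` is the range of `x (g i) - 1`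
      have hr1 : r = 1 := by
        have := i.2
        omega
      subst hr1
      have hrange : Set.range g = {g i} := by
        ext y
        constructor
        · rintro ⟨j, rfl⟩
          rw [Subsingleton.elim j i]
          exact Set.mem_singleton _
        · intro hy
          exact ⟨i, (Set.mem_singleton_iff.mp hy).symm⟩
      have hgen : Subgroup.closure ({g i} : Set G) = ⊤ := by rw [← hrange]; exact hclos
      have hker : pr (ρM (φn (aq i)) v - v) = 0 := by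
        rw [map_sub, hprκ, hκaq, one_smul, sub_self]
      exact mltm_span_le_range_cyclic x (g i) hgen _ (hprk _ hker)
  -- assemble
  refine ⟨D'.R, inferInstance, inferInstance, γ, κ, M, inferInstance, inferInstance, inferInstance,
    ρM.comp φn, G, inferInstance, inferInstance, x, w, bM, g, c, aq, pr, hγ, hκs, ?_, hbM, hg, hclos,
    huniv, haq2, hκaq, hSC, ?_, hprs, hprk, hprx, hprκ⟩
  · intro t g'
    exact hρx (φn t) g'
  · intro i v hv1 hv2
    have hv2' : ρM (φn (aq i)) v = v := hv2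
    rcases hφaq i with h | h
    · rw [h] at hv2'
      exact hwl i v hv1 hv2'
    · rw [h] at hv2'
      exact mltm_wl_inv ρM _ (haq i).1 (hwl i) v hv1 hv2'

end Glue

end Fermat.Agent.MLT
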