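/-
MLT (project S59) / Min (helper2): **[AQ] + [SC] + [WL] at the Taylor–Wiles primes (`p = 3` allowed: helper9's `Jh5`), with the full inertia
data** `(aq, aq', e)` — helper8's `ihsc_hAQ` (`Lib/Ihara/Sc/AQ.lean`) restated so that
* the idempotent `e` and the inverse `aq'` are kept (they are consumed by `mltm_level_of_glue`);
* (SC) is asserted only when the chain `Rl.erase (qv i)` is non-empty (for `Tc = ∅` this means `2 ≤ r`; the
  case `r = 1` is handled inside `mltm_level_of_glue`), so no `C`-prime `q₀ : ↥Tc` is needed.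
-/
import Mathlib
import Fermat.Agent.Lib.Ihara.Sc.AQ
import Fermat.Agent.Lib.MLT.Fr3.Sc.AQ

set_option autoImplicit false
set_option linter.unusedSectionVars false
set_option linter.unusedVariables false
set_option linter.style.haveILetI false

open Matrix MatrixGroups CongruenceSubgroup ModularCurve ModularCurve.Period Module IsLocalRing
open Fermat.Agent.DS Fermat.Agent.T1 Fermat.Agent.T1G Fermat.Agent.T2 Fermat.Agent.S53Lib
  Fermat.Agent.TW Fermat.Agent.Ihara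

namespace Fermat.Agent.MLT

local notation "Qbar" => AlgebraicClosure ℚ
local notation "GQ" => (AlgebraicClosure ℚ ≃ₐ[ℚ] AlgebraicClosure ℚ)

section AQ

variable (O : Type) [CommRing O] [IsDomain O] [IsDiscreteValuationRing O] [CharZero O]
  [IsAdicComplete (maximalIdeal O) O] [Finite (ResidueField O)]
  (p : ℕ) [hp : Fact p.Prime] (M : ℕ) [NeZero M] (hM : 6 ≤ M)
  {r : ℕ} {Tc : Finset Nat.Primes} {qv : Fin r → ℕ}
  (h : IhqData M (ihqPrimes Tc qv) (ihqOrders Tc qv p))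
  (Ps : Set ℕ) (θ : ℕ → O) (χ : ↥(ihqD1 h) →* O)

/-- **[AQ] + [SC] + [WL] with the full inertia data** -/
theorem mltm_hAQ3 (hp5 : Jh5 p M) (hpO : (p : O) ∈ maximalIdeal O) (hMsq : Squarefree M)
    {N' : ℕ} [NeZero N'] (hN' : N' = M * (ihqRl Tc qv).prod)
    {S : Finset ℕ} (hpS : p ∈ S) (hS : ∀ l : ℕ, l.Prime → l ∣ N' → l ∈ S)
    (ρbar : ResidualGaloisRep (ResidueField O)) (habs : ρbar.IsAbsolutelyIrreducible)
    (b : Module.Basis (Fin 2) (ResidueField O) ρbar.V) (Smin : Finset ℕ)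
    (hfree : ∀ (Δ₁' : Subgroup ((ZMod M)ˣ ⧸ (ihqKappa h).ker)) (χ' : Δ₁' →* O),
      Module.Free O (IhmChiPart O M hM (ihqKappa h).ker Ps θ Δ₁' χ'))
    (Q : List ℕ) (hqQ : ∀ i, qv i ∈ Q) (hPsQ : ∀ q ∈ Q, q ∈ Ps) (bq : ℕ → O)
    (hθQ : ∀ q ∈ Q, θ q * bq q = ((q : ℕ) : O) ∧ IsUnit (θ q) ∧ IsUnit (θ q - bq q) ∧
      IsUnit (1 - θ q ^ 2))
    (n : ℕ) (hqn : ∀ i, p ^ (n + 1) ∣ qv i - 1)
    (Pl : Fin r → ValuationSubring Qbar) (φ σ : Fin r → GQ)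
    (hloc : ∀ i, (Pl i).LiesOverPrime (qv i) ∧ (Pl i).IsFrobeniusAt (φ i) (qv i) ∧
      IhgGen p (Pl i) (σ i) ∧ ρbar.IsUnramifiedAt (qv i))
    (hTW : ∀ i, IsTWPrime ρbar (qv i))
    (a : CuspForm.heckeAlgebra N' 2 (↑S : Set ℕ) →+*
      Module.End O (IhmChiPart O M hM (ihqKappa h).ker Ps θ (ihqD1 h) χ))
    (θ' : CuspForm.heckeAlgebra N' 2 (↑S : Set ℕ) →+* ResidueField O)
    (hpart : ihdPart O a θ' = ⊤) [Nontrivial ↥(ihdPart O a θ')]
    (rA : GQ →* Matrix (Fin 2) (Fin 2) (IhdImg O a θ')) (hcts : MatCts (IhdImg O a θ') rA)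
    (out : IhkOut O M hM (ihqKappa h).ker Ps θ (ihqD1 h) χ
      (ihtcZ M (ihqRl Tc qv) (ihqK Tc qv p)) p ρbar b Smin a θ' hpart rA hcts) :
    ∀ i : Fin r, ∃ (aq aq' : IhdImg O a θ') (e : Matrix (Fin 2) (Fin 2) (IhdImg O a θ')),
      (aq * aq' = 1 ∧ e * e = e ∧ e.trace = 1 ∧ rA (φ i) * e = e * rA (φ i) ∧
        aq = (e * rA (σ i)).trace ∧ (rA (σ i)).trace = aq + aq') ∧
      ((ihqRl Tc qv).erase (qv i) ≠ [] → ∀ v, ∃ u, ihiAct O a θ' hpart aq v - v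
        = ihmChiDia O M hM (ihqKappa h).ker Ps θ (ihqD1 h) χ
            (((ihqD2Equiv h).symm (ihqGen _ i) : ↥(ihqD2 h)) :
              (ZMod M)ˣ ⧸ (ihqKappa h).ker) u - u) ∧
      (∀ v, (∑ j ∈ Finset.range p,
          ihmChiDia O M hM (ihqKappa h).ker Ps θ (ihqD1 h) χ
            (((ihqD2Equiv h).symm (ihqGen _ i) : ↥(ihqD2 h)) :
              (ZMod M)ˣ ⧸ (ihqKappa h).ker) ^ j :
            Module.End O (IhmChiPart O M hM (ihqKappa h).ker Ps θ (ihqD1 h) χ)) v = 0 →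
        ihiAct O a θ' hpart aq v = v → v = 0) := by
  classical
  have hpp : p.Prime := hp.out
  have hp2 : p ≠ 2 := hp5.1
  have hL : JhfLevel p M (ihqKappa h).ker := jhq_level hpp hp5 hMsq h (ihqOrders_pow Tc qv)
  have hyp : IhtcHyp M (ihqKappa h).ker (ihqRl Tc qv) (ihqK Tc qv p) :=
    ihq_tcHyp_sum Tc qv hMsq hpp hp2 h
  haveI : Module.IsTorsionFree O (IhmChiPart O M hM (ihqKappa h).ker Ps θ (ihqD1 h) χ) := by
    haveI := hfree (ihqD1 h) χ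
    infer_instance
  have hD : IheDatum O M hM (ihqKappa h).ker Ps θ p (ihqD1 h) χ S
      (ihtcZ M (ihqRl Tc qv) (ihqK Tc qv p)) ρbar b Smin a θ' hpart rA hcts :=
    (iheDatum_iff_out O M hM (ihqKappa h).ker Ps θ p (ihqD1 h) χ S
      (ihtcZ M (ihqRl Tc qv) (ihqK Tc qv p)) ρbar b Smin a θ' hpart rA hcts).mpr out
  have hc : ∀ δ : (ZMod M)ˣ ⧸ (ihqKappa h).ker, ∃ δ₁ : ↥(ihqD1 h),
      ∃ g : IhqDelta (fun i : Fin r => p ^ padicValNat p (qv i - 1)),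
        δ = (δ₁ : (ZMod M)ˣ ⧸ (ihqKappa h).ker) * ihscIota h g := ihsc_iota_compl h
  have hG : ∀ g : IhqDelta (fun i : Fin r => p ^ padicValNat p (qv i - 1)),
      ∃ c : ℕ, g ^ (p ^ c) = 1 := fun g => ihsc_delta_pow g
  intro i
  obtain ⟨hPl, hφ, hσ, hunr⟩ := hloc i
  have hqprime : (qv i).Prime := h.prime (Sum.inr i)
  have hdvd : p ∣ qv i - 1 := dvd_trans (dvd_pow_self p (Nat.succ_ne_zero n)) (hqn i)
  have hqp : qv i ≠ p := by
    intro heq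
    have h1 : p ≤ p - 1 := Nat.le_of_dvd (by have := hpp.two_le; omega) (heq ▸ hdvd)
    have := hpp.two_le
    omega
  have hc0 : 0 < padicValNat p (qv i - 1) := by
    have := ihq_le_padicValNat hpp hqprime (hqn i)
    omega
  obtain ⟨u, hqcu, hu⟩ := ihsc_exists_unit_part hpp hqprime.two_le
  obtain ⟨y, hy⟩ := ihq_exists_Y_gen_sum Tc qv hMsq hpp hp2 h (Sum.inr i)
  have hγ : ∃ u : (ZMod (qv i))ˣ,
      QuotientGroup.mk' (ihqKappa h).ker (ihtcY M (ihqK Tc qv p) (qv i) u)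
        = ihscIota h (ihqGen _ i) :=
    ⟨y, (ihqD2Equiv_symm_gen h i _ hy).symm⟩
  have hqRl : qv i ∈ ihqRl Tc qv := ihq_mem_Rl_inr Tc qv i
  obtain ⟨aq, aq', e, ⟨k1, k2, k3, k4, k5, k6, k7, k8, k9, k10⟩, WL⟩ :=
    ihn_chi_AQ_WL O M hM (ihqKappa h).ker Ps θ p (ihqD1 h) χ S ρbar b Smin a θ' hpart rA hcts hD
      hpS hS hpO hyp hN' (ihscIota h) hc hG hqprime hqRl hqp hunr (hTW i) (Pl i) hPl hφ hσ
      (padicValNat p (qv i - 1)) u hqcu hu hc0 (ihqGen _ i) hγ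
  refine ⟨aq, aq', e, ⟨k1, k4, k5, k6, k7, k9⟩, fun hne v => ?_, WL⟩
  haveI : Module.IsTorsionFree O
      (IhmChiPart O M hM (ihqKappa h).ker Ps θ (ihqD1' h i) (ihqChi' h i χ)) := by
    haveI := hfree (ihqD1' h i) (ihqChi' h i χ)
    infer_instance
  exact jhsc_field_sum O p M hM h Ps θ χ hL hpO hMsq i hyp hqRl hqp hne hN'
    hpS hS ρbar habs b Smin a θ' hpart rA hcts out (hPsQ _ (hqQ i)) (hθQ _ (hqQ i)).2.1
    (hθQ _ (hqQ i)).2.2.2 (ihsc_natCast_sub_one_mem hpO hqprime.one_le hdvd) (Pl i) hPl (σ i)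
    hσ.mem e k5 aq k7 (padicValNat p (qv i - 1)) k2 v

end AQ

end Fermat.Agent.MLT
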