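/-
MLT (project S59) / Min (helper2): **the control map, `p = 3` allowed (helper9's `JhfLevel`)** `pr : M^χ(Γ_H(M)) → H(Γ₀(M))_θ` (for the trivial
character `χ = 1` of `Δ₁`), from helper1's control theorem (`Hm/Ctrl.lean`): surjective, kernel = the
augmentation submodule of the diamond action, Hecke-equivariant.
-/
import Mathlib
import Fermat.Agent.Lib.Ihara.Hm.Rank
import Fermat.Agent.Lib.Ihara.Hm.ChiPart
import Fermat.Agent.Lib.MLT.Fr3.Hm.Ctrl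
import Fermat.Agent.Lib.MLT.Fr3.Hm.Rank

set_option autoImplicit false
set_option linter.unusedSectionVars false
set_option linter.unusedVariables false
set_option linter.style.haveILetI false

open Matrix MatrixGroups CongruenceSubgroup ModularCurve ModularCurve.Period Module IsLocalRing
open Fermat.Agent.DS Fermat.Agent.T1 Fermat.Agent.T1G Fermat.Agent.T2 Fermat.Agent.Ihara

namespace Fermat.Agent.MLT

section Pr

set_option maxSynthPendingDepth 3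

variable (O : Type) [CommRing O] [IsDomain O] [IsDiscreteValuationRing O] [CharZero O]
  [IsAdicComplete (maximalIdeal O) O] (M : ℕ) [NeZero M] (hM : 6 ≤ M)
  (H : Subgroup (ZMod M)ˣ) (Ps : Set ℕ) (θ : ℕ → O)
  {p : ℕ} (hL : JhfLevel p M H) (hpO : (p : O) ∈ maximalIdeal O)
  {ℓ₀ : ℕ} (hℓ₀ : ℓ₀.Prime) (hℓ₀M : ¬ ℓ₀ ∣ M) (hℓ₀Ps : ℓ₀ ∈ Ps)
  (hθ : IsUnit (θ ℓ₀ - ((ℓ₀ : O) + 1)))
  (Δ₁ : Subgroup ((ZMod M)ˣ ⧸ H))

include hL hpO hℓ₀ hℓ₀M hℓ₀Ps hθ in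
/-- **the transfer to level `Γ₀(M)` on the `θ`-part** -/
theorem mltm_exists_cor3 :
    ∃ f : IhmPartT O M H Ps θ →ₗ[O] ↥(ih4Part O M Ps θ),
      Function.Surjective f ∧
      (∀ x, f x = 0 → x ∈ Submodule.span O {y | ∃ (δ : (ZMod M)ˣ ⧸ H) (m : IhmPartT O M H Ps θ),
        y = ihmPartTDia O M hM H Ps θ δ m - m}) ∧
      (∀ (δ : (ZMod M)ˣ ⧸ H) (x : IhmPartT O M H Ps θ),
        f (ihmPartTDia O M hM H Ps θ δ x) = f x) ∧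
      (∀ (ℓ : ℕ) (x : IhmPartT O M H Ps θ),
        ((f (ihmPartTOp O M hM H Ps θ ℓ x) : ↥(ih4Part O M Ps θ)) : Ih4H O O M)
          = ih4Op O M ℓ ((f x : ↥(ih4Part O M Ps θ)) : Ih4H O O M)) := by
  classical
  haveI : Fintype ((ZMod M)ˣ ⧸ H) := Fintype.ofFinite _
  refine ⟨(ihmTopPart O M Ps θ).toLinearMap ∘ₗ
    ihmCorT O M hM (le_top : H ≤ ⊤) (ihfTransTop H) Ps θ, ?_, ?_, ?_, ?_⟩
  · exact (ihmTopPart O M Ps θ).surjective.comp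
      (jhmCorT_surjective O M hM (le_top : H ≤ ⊤) (ihfTransTop H) Ps θ hL hpO hℓ₀ hℓ₀M hℓ₀Ps hθ)
  · intro x hx
    rw [LinearMap.comp_apply] at hx
    have h0 : ihmCorT O M hM (le_top : H ≤ ⊤) (ihfTransTop H) Ps θ x = 0 := by
      apply (ihmTopPart O M Ps θ).injective
      rw [map_zero]
      exact hx
    have h1 : x ∈ LinearMap.ker (ihmCorT O M hM (le_top : H ≤ ⊤) (ihfTransTop H) Ps θ) :=
      LinearMap.mem_ker.mpr h0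
    rw [jhmCorT_ker O M hM (le_top : H ≤ ⊤) (ihfTransTop H) Ps θ hL hpO hℓ₀ hℓ₀M hℓ₀Ps hθ] at h1
    refine Submodule.span_mono ?_ h1
    rintro y ⟨g, m, rfl⟩
    refine ⟨(g : (ZMod M)ˣ ⧸ H), m, ?_⟩
    rw [MonoidHom.one_apply, one_smul]
  · intro δ x
    obtain ⟨d, rfl⟩ := QuotientGroup.mk_surjective δ
    rw [LinearMap.comp_apply, LinearMap.comp_apply]
    congr 1
    have h1 := ihmCorT_dia O M hM (le_top : H ≤ ⊤) (ihfTransTop H) Ps θ d x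
    have h2 : ((d : (ZMod M)ˣ) : (ZMod M)ˣ ⧸ (⊤ : Subgroup (ZMod M)ˣ)) = 1 :=
      (QuotientGroup.eq_one_iff _).mpr (Subgroup.mem_top d)
    rw [h2, map_one] at h1
    exact h1
  · intro ℓ x
    rw [LinearMap.comp_apply, LinearMap.comp_apply]
    show ((ihmTopPart O M Ps θ _ : ↥(ih4Part O M Ps θ)) : Ih4H O O M) = _
    rw [ihmTopPart_coe, ihmCorT_op, ihmPartTIncl_op, ihmTop_op]
    rfl

include hL hpO hℓ₀ hℓ₀M hℓ₀Ps hθ in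
/-- **the control map** from the `χ = 1` quotient of the `θ`-part at level `Γ_H(M)`, `M = N ∏ Q`, to
the `θ₀`-part at level `Γ₀(N)` -/
theorem mltm_exists_pr3 (N : ℕ) [NeZero N] (Q : List ℕ) (hMQ : M = Q.foldl (· * ·) N)
    (hnd : Q.Nodup) (hQ : ∀ q ∈ Q, q.Prime ∧ ¬ q ∣ N) (hPsQ : ∀ q ∈ Q, q ∈ Ps) (bq : ℕ → O)
    (hθQ : ∀ q ∈ Q, θ q * bq q = ((q : ℕ) : O) ∧ IsUnit (θ q) ∧ IsUnit (θ q - bq q) ∧
      IsUnit (1 - θ q ^ 2))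
    (θ₀ : ℕ → O) (hshift : ih4Shift O θ bq Q = θ₀) :
    ∃ pr : IhmChiPart O M hM H Ps θ Δ₁ (1 : Δ₁ →* O) →ₗ[O] ↥(ih4Part O N Ps θ₀),
      Function.Surjective pr ∧
      (∀ v, pr v = 0 → v ∈ Submodule.span O
        {z | ∃ (δ : (ZMod M)ˣ ⧸ H) (u : IhmChiPart O M hM H Ps θ Δ₁ (1 : Δ₁ →* O)),
          z = ihmChiDia O M hM H Ps θ Δ₁ (1 : Δ₁ →* O) δ u - u}) ∧
      (∀ (δ : (ZMod M)ˣ ⧸ H) (u : IhmChiPart O M hM H Ps θ Δ₁ (1 : Δ₁ →* O)),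
        pr (ihmChiDia O M hM H Ps θ Δ₁ (1 : Δ₁ →* O) δ u) = pr u) ∧
      (∀ ℓ : ℕ, ℓ ∉ Q → ∀ v : IhmChiPart O M hM H Ps θ Δ₁ (1 : Δ₁ →* O),
        ((pr (ihmChiOp O M hM H Ps θ Δ₁ (1 : Δ₁ →* O) ℓ v) : ↥(ih4Part O N Ps θ₀)) : Ih4H O O N)
          = ih4Op O N ℓ ((pr v : ↥(ih4Part O N Ps θ₀)) : Ih4H O O N)) := by
  classical
  obtain ⟨f, hfs, hfk, hfd, hfo⟩ :=
    mltm_exists_cor3 O M hM H Ps θ hL hpO hℓ₀ hℓ₀M hℓ₀Ps hθ
  have key := ih4_tw_list O Q N M hMQ hnd hQ Ps hPsQ θ bq hθQ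
  rw [hshift] at key
  obtain ⟨Φ, hΦ⟩ := key
  set g : IhmPartT O M H Ps θ →ₗ[O] ↥(ih4Part O N Ps θ₀) := Φ.toLinearMap ∘ₗ f with hg
  have hgapp : ∀ m, g m = Φ (f m) := fun m => rfl
  have hle : ihmChiSub (ihmPartTDia O M hM H Ps θ) Δ₁ (1 : Δ₁ →* O) ≤ LinearMap.ker g := by
    refine Submodule.span_le.mpr ?_
    rintro _ ⟨δ, m, rfl⟩
    rw [SetLike.mem_coe, LinearMap.mem_ker, MonoidHom.one_apply, one_smul, map_sub, hgapp, hgapp,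
      hfd, sub_self]
  refine ⟨(ihmChiSub (ihmPartTDia O M hM H Ps θ) Δ₁ (1 : Δ₁ →* O)).liftQ g hle, ?_, ?_, ?_, ?_⟩
  · intro y
    obtain ⟨x', hx'⟩ := Φ.surjective y
    obtain ⟨m, hm⟩ := hfs x'
    refine ⟨ihmChiPartMk O M hM H Ps θ Δ₁ (1 : Δ₁ →* O) m, ?_⟩
    show (ihmChiSub (ihmPartTDia O M hM H Ps θ) Δ₁ (1 : Δ₁ →* O)).liftQ g hle
      (Submodule.Quotient.mk m) = y
    rw [Submodule.liftQ_apply, hgapp, hm, hx']
  · intro v hv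
    obtain ⟨m, rfl⟩ := ihmChiPartMk_surjective O M hM H Ps θ Δ₁ (1 : Δ₁ →* O) v
    have hv' : g m = 0 := hv
    rw [hgapp] at hv'
    have hfm : f m = 0 := Φ.injective (by rw [hv', map_zero])
    have h1 := hfk m hfm
    have h2 : Submodule.span O {y | ∃ (δ : (ZMod M)ˣ ⧸ H) (m : IhmPartT O M H Ps θ),
        y = ihmPartTDia O M hM H Ps θ δ m - m}
        ≤ Submodule.comap (ihmChiPartMk O M hM H Ps θ Δ₁ (1 : Δ₁ →* O))
          (Submodule.span O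
            {z | ∃ (δ : (ZMod M)ˣ ⧸ H) (u : IhmChiPart O M hM H Ps θ Δ₁ (1 : Δ₁ →* O)),
              z = ihmChiDia O M hM H Ps θ Δ₁ (1 : Δ₁ →* O) δ u - u}) := by
      refine Submodule.span_le.mpr ?_
      rintro _ ⟨δ, m', rfl⟩
      rw [SetLike.mem_coe, Submodule.mem_comap, map_sub]
      refine Submodule.subset_span ⟨δ, ihmChiPartMk O M hM H Ps θ Δ₁ (1 : Δ₁ →* O) m', ?_⟩
      rw [ihmChiDia_mk]
    exact h2 h1
  · intro δ u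
    obtain ⟨m, rfl⟩ := ihmChiPartMk_surjective O M hM H Ps θ Δ₁ (1 : Δ₁ →* O) u
    rw [ihmChiDia_mk]
    show g _ = g _
    rw [hgapp, hgapp, hfd]
  · intro ℓ hℓ v
    obtain ⟨m, rfl⟩ := ihmChiPartMk_surjective O M hM H Ps θ Δ₁ (1 : Δ₁ →* O) v
    rw [ihmChiOp_mk]
    show ((g _ : ↥(ih4Part O N Ps θ₀)) : Ih4H O O N) = ih4Op O N ℓ ((g _ : ↥(ih4Part O N Ps θ₀)) : _)
    rw [hgapp, hgapp]
    exact hΦ ℓ hℓ (f m) (f (ihmPartTOp O M hM H Ps θ ℓ m)) (hfo ℓ m)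

end Pr

end Fermat.Agent.MLT
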