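/-
MLT (project S59) / Min (helper2): **the Hecke datum at a Taylor–Wiles level, ORDINARY problem (`p ∥ N`, Hida
cut at `p`; `p = 3` and auxiliary cut primes allowed)** = `Min/HeckeTW3.lean` with helper9's ordinary forks
(`Lib/MLT/CO`, prefix `kh`: S33 instead of S32) of `Min/HeckeTW.lean` with helper9's `Jh5`/`JhfLevel` forks
and with the type hypothesis `h𝒟tw` only required over REDUCED complete local rings (so that
unramifiedness at the auxiliary primes can be deduced from unipotence, `Min/CutUnr.lean`).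

The Ihara library (`Lib/Ihara`: helper1's freeness `jhm_lvl_free_TW`, helper7's `khk_main_chi'`, helper4's
`ihn_chi_AQ_WL`, helper8's `ihsc_field_sum`, helper9's level structure `ihq_level`) instantiated with
`Tc = ∅` at an arbitrary squarefree base level `N` and an arbitrary residual representation.
-/
import Mathlib
import Fermat.Agent.Lib.MLT.Min.Glue
import Fermat.Agent.Lib.MLT.Min.HeckeTW
import Fermat.Agent.Lib.MLT.Min.HeckeAQO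
import Fermat.Agent.Lib.MLT.Min.HeckePr3
import Fermat.Agent.Lib.MLT.CO.J.Glue.Out
import Fermat.Agent.Lib.MLT.Fr3.Hm.LvlTW
import Fermat.Agent.Lib.MLT.Fr3.Grp.Level
import Fermat.Agent.Lib.Ihara.Glue.Hecke
import Fermat.Agent.Lib.Ihara.Sc.AQ
import Fermat.Agent.Lib.Ihara.Rb.TwLocal
import Fermat.Agent.Lib.Ihara.Hm.LvlTW
import Fermat.Agent.Lib.Ihara.Hm.NonEis
import Fermat.Agent.Lib.Ihara.Hm.Rank
import Fermat.Agent.Lib.Ihara.Grp.Arith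

set_option autoImplicit false
set_option linter.unusedSectionVars false
set_option linter.unusedVariables false
set_option linter.style.haveILetI false
set_option maxHeartbeats 4000000

open IsLocalRing Matrix Polynomial Fermat.Agent.S53Lib Fermat.Agent.TW Fermat.Agent.Ihara
open Matrix MatrixGroups CongruenceSubgroup ModularCurve ModularCurve.Period Module
open Fermat.Agent.DS Fermat.Agent.T1 Fermat.Agent.T1G Fermat.Agent.T2

namespace Fermat.Agent.MLT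

local notation "Qbar" => AlgebraicClosure ℚ
local notation "GQ" => (AlgebraicClosure ℚ ≃ₐ[ℚ] AlgebraicClosure ℚ)

section Main

set_option maxSynthPendingDepth 3

variable (O : Type) [CommRing O] [IsDomain O] [IsDiscreteValuationRing O] [CharZero O]
  [IsAdicComplete (maximalIdeal O) O] [Finite (ResidueField O)]
  (p : ℕ) [Fact p.Prime]

/-- **the level datum `MltmLevel` at a Taylor–Wiles set, ordinary problem (`p ∥ N`), `Jh5 p N`** -/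
theorem mltm_level_ord (hp2 : p ≠ 2) (hpO : (p : O) ∈ maximalIdeal O)
    (N : ℕ) [NeZero N] (hp5 : Jh5 p N) (hNsq : Squarefree N) (hpN : p ∣ N)
    (Smin : Finset ℕ) (hpSmin : p ∈ Smin) (hSN : ∀ ℓ : ℕ, ℓ.Prime → ℓ ∣ N → ℓ ∈ Smin)
    (hSminN : ∀ q ∈ Smin, q.Prime → q ≠ p → q ∣ N)
    (ρbar : ResidualGaloisRep (ResidueField O)) (habs : ρbar.IsAbsolutelyIrreducible)
    (hord : (GaloisRepAdic.ofResidualGaloisRep ρbar).IsOrdinaryAt p)
    (b : Module.Basis (Fin 2) (ResidueField O) ρbar.V)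
    (Ps : Set ℕ) (hPs : ∀ ℓ : ℕ, ℓ.Prime → ℓ ∉ Smin → ℓ ∈ Ps) (θ₀ : ℕ → O)
    (hfrob₀ : ∀ (ℓ : ℕ), ℓ.Prime → ℓ ∉ Smin →
      ∀ P : ValuationSubring Qbar, P.LiesOverPrime ℓ → ∀ σ : GQ, P.IsFrobeniusAt σ ℓ →
        LinearMap.charpoly (ρbar.ρ σ) =
          X ^ 2 - C (residue O (θ₀ ℓ)) * X + C ((ℓ : ResidueField O)))
    (hne : ih4Part O N Ps θ₀ ≠ ⊥)
    -- the Taylor–Wiles set
    {r : ℕ} (hr : 0 < r) (qv : Fin r → ℕ) (hqinj : Function.Injective qv) (n : ℕ)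
    (hqv : ∀ i, (qv i).Prime ∧ qv i ∉ Smin ∧ p ^ (n + 1) ∣ qv i - 1)
    (hunr : ∀ i, ρbar.IsUnramifiedAt (qv i)) (hTW : ∀ i, IsTWPrime ρbar (qv i))
    -- the deformation problems
    {𝒟 𝒟' : ∀ ⦃A : Type⦄ [CommRing A] [IsLocalRing A] [Algebra O A], GaloisRepAdic A → Prop}
    (h𝒟to : ∀ ⦃A : Type⦄ [CommRing A] [IsLocalRing A] [Algebra O A] (ρ : GaloisRepAdic A),
      𝒟 ρ → 𝒟' ρ)
    (h𝒟of : ∀ ⦃A : Type⦄ [CommRing A] [IsLocalRing A] [Algebra O A] (ρ : GaloisRepAdic A),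
      𝒟' ρ → mltmUnrAt (Finset.univ.image qv) ρ → 𝒟 ρ)
    (h𝒟unr : ∀ ⦃A : Type⦄ [CommRing A] [IsLocalRing A] [Algebra O A] (ρ : GaloisRepAdic A),
      𝒟 ρ → mltmUnrAt (Finset.univ.image qv) ρ)
    (hbc : ∀ ⦃A B : Type⦄ [CommRing A] [IsLocalRing A] [Algebra O A] [CommRing B] [IsLocalRing B]
      [Algebra O B] (φ : A →ₐ[O] B) (hφ : IsLocalHom (φ : A →+* B)), Function.Surjective φ →
      ∀ ρ : GaloisRepAdic A, 𝒟' ρ → 𝒟' (ρ.baseChangeAlong (φ : A →+* B) hφ))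
    (h𝒟det : ∀ ⦃A : Type⦄ [CommRing A] [IsLocalRing A] [Algebra O A] (ρ : GaloisRepAdic A),
      𝒟' ρ → ρ.DetIsCyclotomic p)
    (h𝒟tw : ∀ ⦃A : Type⦄ [CommRing A] [IsLocalRing A] [IsAdicComplete (maximalIdeal A) A]
      [IsReduced A] [Algebra O A] [IsLocalHom (algebraMap O A)] (ρ : GaloisRepAdic A),
      ρ.residual.IsEquiv (ρbar.baseChangeAlong (ResidueField.map (algebraMap O A))) →
      twCond O (fun A _ _ ρ => ρ.IsOrdinaryAt p) p Smin (Smin ∪ Finset.univ.image qv) ρ → 𝒟' ρ)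
    (D : GaloisRep.DeformationRingData O ρbar 𝒟) (D' : GaloisRep.DeformationRingData O ρbar 𝒟')
    (γ : MvPowerSeries (Fin r) O →ₐ[O] D'.R) (hγ : Function.Surjective γ)
    -- the base level
    {E : Type} [CommRing E] [IsLocalRing E] [IsNoetherianRing E]
    [IsAdicComplete (maximalIdeal E) E] [Algebra O E] [IsLocalHom (algebraMap O E)]
    (hresE : Function.Surjective (residue E ∘ algebraMap O E))
    (rE : GQ →* Matrix (Fin 2) (Fin 2) E) (hctsE : MatCts E rE)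
    (hstrictE : IsStrictLift (𝒪 := O) (resMat ρbar b) rE) (htypeE : 𝒟 (ofMat rE hctsE))
    (ψE : D.R →ₐ[O] E) (hψE : IsLocalHom (ψE : D.R →+* E))
    (hψEρ : (D.ρ.baseChangeAlong (ψE : D.R →+* E) hψE).IsEquiv (ofMat rE hctsE))
    [Module D.R ↥(ih4Part O N Ps θ₀)] {d : ℕ}
    (e : Module.Basis (Fin d) O ↥(ih4Part O N Ps θ₀))
    (actE : E →ₐ[O] Module.End O ↥(ih4Part O N Ps θ₀)) (hinjE : Function.Injective actE)
    (hmod : ∀ (t : D.R) (x : ↥(ih4Part O N Ps θ₀)), t • x = actE (ψE t) x)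
    (aE : ℕ → E)
    (hfrE : ∀ ℓ : ℕ, ℓ.Prime → ℓ ∉ Smin ∪ Finset.univ.image qv →
      ∀ P : ValuationSubring Qbar, P.LiesOverPrime ℓ →
      ∀ σ : GQ, P.IsFrobeniusAt σ ℓ → (rE σ).trace = aE ℓ ∧ (rE σ).det = (ℓ : E))
    (hactE : ∀ ℓ : ℕ, ℓ.Prime → ℓ ∉ Smin ∪ Finset.univ.image qv →
      ∀ y : ↥(ih4Part O N Ps θ₀),
        ((actE (aE ℓ) y : ↥(ih4Part O N Ps θ₀)) : Ih4H O O N) = ih4Op O N ℓ (y : Ih4H O O N)) :
    MltmLevel p r D.R (H := ↥(ih4Part O N Ps θ₀)) e n := by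
  classical
  have hp : p.Prime := Fact.out
  have hp5M : Jh5 p (N * ∏ i, qv i) := jh5_of_dvd (Dvd.intro _ rfl) hp5
  haveI hTcE : IsEmpty ↥mltmTc := mltm_Tc_isEmpty
  -- arithmetic of the levels
  have hqprime : ∀ i, (qv i).Prime := fun i => (hqv i).1
  have hqN : ∀ i, ¬ qv i ∣ N := fun i h => (hqv i).2.1 (hSN _ (hqprime i) h)
  have hqp : ∀ i, qv i ≠ p := fun i h => (hqv i).2.1 (h ▸ hpSmin)
  have hqn : ∀ i, p ^ (n + 1) ∣ qv i - 1 := fun i => (hqv i).2.2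
  have hq1 : ∀ i, p ∣ qv i - 1 :=
    fun i => (dvd_pow_self p (Nat.succ_ne_zero n)).trans (hqn i)
  have hprodpos : 0 < ∏ i, qv i := Finset.prod_pos fun i _ => (hqprime i).pos
  have hM0 : 0 < N * ∏ i, qv i := Nat.mul_pos (Nat.pos_of_ne_zero (NeZero.ne N)) hprodpos
  have hM6 : 6 ≤ N * ∏ i, qv i :=
    mltm_six_le_level hp hp2 (Nat.pos_of_ne_zero (NeZero.ne N)) hr qv (fun i => ⟨hqprime i, hq1 i⟩)
  have hMsq : Squarefree (N * ∏ i, qv i) := ihq_squarefree_level qv hNsq hqinj hqprime hqN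
  have h : IhqData (N * ∏ i, qv i) (ihqPrimes mltmTc qv) (ihqOrders mltmTc qv p) :=
    ihq_data_sum mltmTc qv (fun v => (hTcE.false v).elim) hqinj hqprime hqN
  haveI : NeZero (N * ∏ i, qv i) := ⟨hM0.ne'⟩
  have hRlne : ihqRl mltmTc qv ≠ [] := mltm_Rl_ne_nil qv hr
  have hRlprod : (ihqRl mltmTc qv).prod = ∏ i, qv i := mltm_Rl_prod qv
  have hN'0 : 0 < N * (∏ i, qv i) * (ihqRl mltmTc qv).prod := by
    rw [hRlprod]
    exact Nat.mul_pos hM0 hprodpos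
  haveI : NeZero (N * (∏ i, qv i) * (ihqRl mltmTc qv).prod) := ⟨hN'0.ne'⟩
  have hpprod : ¬ p ∣ ∏ i, qv i := by
    intro h0
    obtain ⟨i, hi⟩ := ihq_prime_dvd_prod qv hqprime hp h0
    exact hqp i hi
  have hpN' : p ∣ N * (∏ i, qv i) * (ihqRl mltmTc qv).prod ∧
      ¬ p ^ 2 ∣ N * (∏ i, qv i) * (ihqRl mltmTc qv).prod := by
    rw [hRlprod]
    refine ⟨(hpN.trans (Dvd.intro _ rfl)).trans (Dvd.intro _ rfl), ?_⟩
    intro h0
    have hcop : Nat.Coprime (p ^ 2) (∏ i, qv i) :=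
      Nat.Coprime.pow_left 2 ((Nat.Prime.coprime_iff_not_dvd hp).mpr hpprod)
    have h1 : p ^ 2 ∣ N * ∏ i, qv i := hcop.dvd_of_dvd_mul_right h0
    have h2 : p ^ 2 ∣ N := hcop.dvd_of_dvd_mul_right h1
    rw [pow_two] at h2
    exact hp.not_isUnit (hNsq p h2)
  have hS : ∀ l : ℕ, l.Prime → l ∣ N * (∏ i, qv i) * (ihqRl mltmTc qv).prod →
      l ∈ Smin ∪ Finset.univ.image qv := by
    intro l hl h0
    rw [hRlprod] at h0
    have hprod : l ∣ ∏ i, qv i → l ∈ Smin ∪ Finset.univ.image qv := by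
      intro h2
      obtain ⟨i, hi⟩ := ihq_prime_dvd_prod qv hqprime hl h2
      exact Finset.mem_union_right _ (Finset.mem_image.mpr ⟨i, Finset.mem_univ i, hi⟩)
    rcases (Nat.Prime.dvd_mul hl).mp h0 with h1 | h1
    · rcases (Nat.Prime.dvd_mul hl).mp h1 with h2 | h2
      · exact Finset.mem_union_left _ (hSN l hl h2)
      · exact hprod h2
    · exact hprod h1
  have hSminQ : ∀ q ∈ Smin, ∀ i, q ≠ qv i := fun q hq i h0 => (hqv i).2.1 (h0 ▸ hq)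
  have hSmin' : ∀ q ∈ Smin, q.Prime → q ≠ p →
      q ∣ N * (∏ i, qv i) * (ihqRl mltmTc qv).prod ∧
        ¬ q ^ 2 ∣ N * (∏ i, qv i) * (ihqRl mltmTc qv).prod := by
    intro q hq hqpr hqp'
    have hqprod : ¬ q ∣ ∏ i, qv i := by
      intro h0
      obtain ⟨i, hi⟩ := ihq_prime_dvd_prod qv hqprime hqpr h0
      exact hSminQ q hq i hi.symm
    refine ⟨((hSminN q hq hqpr hqp').trans (Dvd.intro _ rfl)).trans (Dvd.intro _ rfl), ?_⟩
    rw [hRlprod]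
    intro h0
    have hcop : Nat.Coprime (q ^ 2) (∏ i, qv i) :=
      Nat.Coprime.pow_left 2 ((Nat.Prime.coprime_iff_not_dvd hqpr).mpr hqprod)
    have h1 : q ^ 2 ∣ N * ∏ i, qv i := hcop.dvd_of_dvd_mul_right h0
    have h2 : q ^ 2 ∣ N := hcop.dvd_of_dvd_mul_right h1
    rw [pow_two] at h2
    exact hqpr.not_isUnit (hNsq q h2)
  have hL : JhfLevel p (N * ∏ i, qv i) (ihqKappa h).ker :=
    jhq_level hp hp5M hMsq h (ihqOrders_pow mltmTc qv)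
  -- the list of Taylor–Wiles primes
  have hmem : ∀ q ∈ List.ofFn qv, ∃ i, qv i = q := fun q hq => (List.mem_ofFn' qv q).mp hq
  have hMQ : N * ∏ i, qv i = (List.ofFn qv).foldl (· * ·) N := (mltm_foldl_ofFn N qv).symm
  have hnd : (List.ofFn qv).Nodup := List.nodup_ofFn.mpr hqinj
  have hQ4 : ∀ q ∈ List.ofFn qv, q.Prime ∧ q ∉ Smin ∧ p ∣ q - 1 ∧ IsTWPrime ρbar q := by
    intro q hq
    obtain ⟨i, rfl⟩ := hmem q hq
    exact ⟨hqprime i, (hqv i).2.1, hq1 i, hTW i⟩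
  have hQ2 : ∀ q ∈ List.ofFn qv, q.Prime ∧ ¬ q ∣ N := by
    intro q hq
    obtain ⟨i, rfl⟩ := hmem q hq
    exact ⟨hqprime i, hqN i⟩
  have hPsQ : ∀ q ∈ List.ofFn qv, q ∈ Ps := by
    intro q hq
    obtain ⟨i, rfl⟩ := hmem q hq
    exact hPs _ (hqprime i) (hqv i).2.1
  -- (B) the eigensystem at level `M` and freeness
  obtain ⟨θ, bq, hoff, hsum, hθQ, hcharQ, hneQ, -, hfree, hinst⟩ :=
    jhm_lvl_free_TW O ρbar habs Smin θ₀ hfrob₀ hpO N hSN (List.ofFn qv) hnd hQ4 (N * ∏ i, qv i) hM6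
      hMQ (ihqKappa h).ker hL Ps hPs
  have hshift : ih4Shift O θ bq (List.ofFn qv) = θ₀ := by
    funext ℓ
    unfold ih4Shift
    by_cases hℓ : ℓ ∈ List.ofFn qv
    · simp only [hℓ, if_true]
      exact hsum ℓ hℓ
    · simp only [hℓ, if_false]
      exact hoff ℓ hℓ
  have hd : Module.finrank O ↥(ih4Part O N Ps θ₀) = d := by
    rw [Module.finrank_eq_card_basis e, Fintype.card_fin]
  subst hd
  have hd0 : 0 < Module.finrank O ↥(ih4Part O N Ps θ₀) := by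
    by_contra h0
    have h1 : Module.finrank O ↥(ih4Part O N Ps θ₀) = 0 := by omega
    haveI : IsEmpty (Fin (Module.finrank O ↥(ih4Part O N Ps θ₀))) := by
      rw [h1]
      infer_instance
    haveI : Subsingleton ↥(ih4Part O N Ps θ₀) := (ihm_basis_subsingleton_iff O e).mpr inferInstance
    exact hne ((Submodule.subsingleton_iff_eq_bot).mp inferInstance)
  obtain ⟨w, -, -, hχfree⟩ := hfree
  -- the (trivial) character of `Δ₁`
  obtain ⟨b', hb'⟩ := hχfree (ihqD1 h) (1 : ↥(ihqD1 h) →* O) (ihqD2 h) (ihqD_isCompl h)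
  haveI : Module.Free O (IhmChiPart O (N * ∏ i, qv i) hM6 (ihqKappa h).ker Ps θ (ihqD1 h)
      (1 : ↥(ihqD1 h) →* O)) := Module.Free.of_basis b'
  haveI : Nontrivial (IhmChiPart O (N * ∏ i, qv i) hM6 (ihqKappa h).ker Ps θ (ihqD1 h)
      (1 : ↥(ihqD1 h) →* O)) := nontrivial_of_ne _ _ (b'.ne_zero (⟨0, hd0⟩, 1))
  -- (C) the twisted Hecke action
  have hyp : IhtcHyp (N * ∏ i, qv i) (ihqKappa h).ker (ihqRl mltmTc qv) (ihqK mltmTc qv p) :=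
    ihq_tcHyp_sum mltmTc qv hMsq hp hp2 h
  have hMN' : N * ∏ i, qv i ∣ N * (∏ i, qv i) * (ihqRl mltmTc qv).prod := Dvd.intro _ rfl
  obtain ⟨a₀, ha₀⟩ := ihtc_exists_hom hyp hRlne (N' := N * (∏ i, qv i) * (ihqRl mltmTc qv).prod) rfl O
    (↑(Smin ∪ Finset.univ.image qv) : Set ℕ) (fun l hl hlN' => by exact_mod_cast hS l hl hlN')
  have hPs' : ∀ l : ℕ, l.Prime → l ∉ Smin ∪ Finset.univ.image qv → l ∈ Ps :=
    fun l hl hlS => hPs l hl (fun h0 => hlS (Finset.mem_union_left _ h0))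
  have hpS : p ∈ Smin ∪ Finset.univ.image qv := Finset.mem_union_left _ hpSmin
  have hfrob : ∀ (ℓ : ℕ), ℓ.Prime → ℓ ∉ Smin ∪ Finset.univ.image qv →
      ∀ A : ValuationSubring Qbar, A.LiesOverPrime ℓ → ∀ σ : GQ, A.IsFrobeniusAt σ ℓ →
        LinearMap.charpoly (ρbar.ρ σ) =
          X ^ 2 - C (residue O (θ ℓ)) * X + C ((ℓ : ResidueField O)) := by
    intro ℓ hℓ hℓS A hA σ hσ
    have hℓS₀ : ℓ ∉ Smin := fun h0 => hℓS (Finset.mem_union_left _ h0)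
    have hℓQ : ℓ ∉ List.ofFn qv := fun h0 => by
      obtain ⟨i, hi⟩ := hmem ℓ h0
      exact hℓS (Finset.mem_union_right _ (Finset.mem_image.mpr ⟨i, Finset.mem_univ i, hi⟩))
    rw [hoff ℓ hℓQ]
    exact hfrob₀ ℓ hℓ hℓS₀ A hA σ hσ
  -- (K)
  obtain ⟨a, θ', hpart, hnt, rA, hcts, out⟩ := khk_main_chi' O (N * ∏ i, qv i) hM6 (ihqKappa h).ker Ps θ
    (ihqD1 h) (1 : ↥(ihqD1 h) →* O) hL hpO hMN' hS hPs' hpS hpN' (ihtcZ (N * ∏ i, qv i) (ihqRl mltmTc qv)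
    (ihqK mltmTc qv p)) a₀ ha₀ ρbar habs hord hfrob b Smin hSmin'
  haveI := hnt
  haveI : Module.IsTorsionFree O (IhmChiPart O (N * ∏ i, qv i) hM6 (ihqKappa h).ker Ps θ (ihqD1 h)
      (1 : ↥(ihqD1 h) →* O)) := inferInstance
  haveI : IsReduced (IhdImg O a θ') := ihdImg_isReduced θ' a hS
  -- the local data at the Taylor–Wiles primes
  obtain ⟨Pl, φ, σ, hloc0⟩ := ihg_exists_frob_gen_fn p qv hqprime hqp
  have hloc : ∀ i, (Pl i).LiesOverPrime (qv i) ∧ (Pl i).IsFrobeniusAt (φ i) (qv i) ∧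
      IhgGen p (Pl i) (σ i) ∧ ρbar.IsUnramifiedAt (qv i) :=
    fun i => ⟨(hloc0 i).1, (hloc0 i).2.1, (hloc0 i).2.2, hunr i⟩
  have hAQ := mltm_hAQO O p (N * ∏ i, qv i) hM6 h Ps θ (1 : ↥(ihqD1 h) →* O) hp5M hpO hMsq rfl hpS hS
    ρbar habs b Smin (fun Δ₁' χ' => (hinst Δ₁' χ').1) (List.ofFn qv)
    (fun i => (List.mem_ofFn' qv _).mpr ⟨i, rfl⟩) hPsQ bq hθQ n hqn Pl φ σ hloc hTW a θ' hpart rA
    hcts out
  choose aq aq' eA hAQ1 hSC hWL using hAQ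
  -- the non-Eisenstein prime and the control map
  obtain ⟨ℓ₀, hℓ₀, hℓ₀S, hℓ₀T, hu0⟩ :=
    ihm_exists_nonEis O ρbar habs Smin ((List.ofFn qv).toFinset ∪ (N * ∏ i, qv i).primeFactors) θ₀
      hfrob₀
  have hℓ₀Q : ℓ₀ ∉ List.ofFn qv :=
    fun h0 => hℓ₀T (Finset.mem_union_left _ (List.mem_toFinset.mpr h0))
  have hℓ₀M : ¬ ℓ₀ ∣ N * ∏ i, qv i := fun h0 =>
    hℓ₀T (Finset.mem_union_right _ (Nat.mem_primeFactors.mpr ⟨hℓ₀, h0, hM0.ne'⟩))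
  have hℓ₀Ps : ℓ₀ ∈ Ps := hPs ℓ₀ hℓ₀ hℓ₀S
  have hθℓ₀ : IsUnit (θ ℓ₀ - ((ℓ₀ : O) + 1)) := by rw [hoff ℓ₀ hℓ₀Q]; exact hu0
  obtain ⟨pr, hprs, hprk, hprd, hpro⟩ := mltm_exists_pr3 O (N * ∏ i, qv i) hM6 (ihqKappa h).ker Ps θ
    hL hpO hℓ₀ hℓ₀M hℓ₀Ps hθℓ₀ (ihqD1 h) N (List.ofFn qv) hMQ hnd hQ2 hPsQ bq hθQ θ₀ hshift
  -- the datum in the shape of `mltm_level_of_glue`
  have hD : KheDatum O (N * ∏ i, qv i) hM6 (ihqKappa h).ker Ps θ p (ihqD1 h) (1 : ↥(ihqD1 h) →* O)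
      (Smin ∪ Finset.univ.image qv) (ihtcZ (N * ∏ i, qv i) (ihqRl mltmTc qv) (ihqK mltmTc qv p))
      ρbar b Smin a θ' hpart rA hcts :=
    (kheDatum_iff_out O (N * ∏ i, qv i) hM6 (ihqKappa h).ker Ps θ p (ihqD1 h) (1 : ↥(ihqD1 h) →* O)
      (Smin ∪ Finset.univ.image qv) (ihtcZ (N * ∏ i, qv i) (ihqRl mltmTc qv) (ihqK mltmTc qv p))
      ρbar b Smin a θ' hpart rA hcts).mpr out
  have hfrA : ∀ ℓ : ℕ, ℓ.Prime → ℓ ∉ Smin ∪ Finset.univ.image qv →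
      ∀ P : ValuationSubring Qbar, P.LiesOverPrime ℓ → ∀ σ' : GQ, P.IsFrobeniusAt σ' ℓ →
        (rA σ').trace = ihnTau O (N * ∏ i, qv i) hM6 (ihqKappa h).ker Ps θ (ihqD1 h)
          (1 : ↥(ihqD1 h) →* O) (Smin ∪ Finset.univ.image qv) a θ' ℓ ∧
        (rA σ').det = (ℓ : IhdImg O a θ') :=
    fun ℓ hℓ hℓS P hP σ' hσ' =>
      khn_chi_frob O (N * ∏ i, qv i) hM6 (ihqKappa h).ker Ps θ p (ihqD1 h) (1 : ↥(ihqD1 h) →* O)
        (Smin ∪ Finset.univ.image qv) (ihtcZ (N * ∏ i, qv i) (ihqRl mltmTc qv) (ihqK mltmTc qv p))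
        ρbar b Smin a θ' hpart rA hcts hD hpS hS ℓ hℓ hℓS P hP σ' hσ'
  have hτ : ∀ ℓ : ℕ, ℓ.Prime → ℓ ∉ Smin ∪ Finset.univ.image qv →
      ihiAct O a θ' hpart (ihnTau O (N * ∏ i, qv i) hM6 (ihqKappa h).ker Ps θ (ihqD1 h)
          (1 : ↥(ihqD1 h) →* O) (Smin ∪ Finset.univ.image qv) a θ' ℓ) =
        ihmChiOp O (N * ∏ i, qv i) hM6 (ihqKappa h).ker Ps θ (ihqD1 h) (1 : ↥(ihqD1 h) →* O) ℓ *
          ihmChiDia O (N * ∏ i, qv i) hM6 (ihqKappa h).ker Ps θ (ihqD1 h) (1 : ↥(ihqD1 h) →* O)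
            ((ihtcZ (N * ∏ i, qv i) (ihqRl mltmTc qv) (ihqK mltmTc qv p) ℓ :
              (ZMod (N * ∏ i, qv i))ˣ) : (ZMod (N * ∏ i, qv i))ˣ ⧸ (ihqKappa h).ker) :=
    fun ℓ hℓ hℓS =>
      khn_chi_tau O (N * ∏ i, qv i) hM6 (ihqKappa h).ker Ps θ p (ihqD1 h) (1 : ↥(ihqD1 h) →* O)
        (Smin ∪ Finset.univ.image qv) (ihtcZ (N * ∏ i, qv i) (ihqRl mltmTc qv) (ihqK mltmTc qv p))
        ρbar b Smin a θ' hpart rA hcts hD hS ℓ hℓ hℓS
  have hgenA := mltm_adjoin_tau O a θ' hS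
    (ihnTau O (N * ∏ i, qv i) hM6 (ihqKappa h).ker Ps θ (ihqD1 h)
      (1 : ↥(ihqD1 h) →* O) (Smin ∪ Finset.univ.image qv) a θ')
    (fun ℓ hℓ hℓN hℓS => ihnTau_eq O (N * ∏ i, qv i) hM6 (ihqKappa h).ker Ps θ (ihqD1 h)
      (1 : ↥(ihqD1 h) →* O) (Smin ∪ Finset.univ.image qv) a θ' ℓ hℓ hℓN hℓS)
  haveI : Module.Finite O (IhmChiPart O (N * ∏ i, qv i) hM6 (ihqKappa h).ker Ps θ (ihqD1 h)
      (1 : ↥(ihqD1 h) →* O)) := (hinst _ _).2.1
  -- the diamond action of `Δ_Q`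
  have hxg : ∀ g' : IhqDelta (fun i : Fin r => p ^ padicValNat p (qv i - 1)),
      ((ihmChiDia O (N * ∏ i, qv i) hM6 (ihqKappa h).ker Ps θ (ihqD1 h)
        (1 : ↥(ihqD1 h) →* O)).comp (ihscIota h)) g'
      = ihmChiDia O (N * ∏ i, qv i) hM6 (ihqKappa h).ker Ps θ (ihqD1 h) (1 : ↥(ihqD1 h) →* O)
          (((ihqD2Equiv h).symm g' : ↥(ihqD2 h)) :
            (ZMod (N * ∏ i, qv i))ˣ ⧸ (ihqKappa h).ker) := fun g' => rfl
  have hprk' : ∀ v, pr v = 0 → v ∈ Submodule.span O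
      {z | ∃ (g' : IhqDelta (fun i : Fin r => p ^ padicValNat p (qv i - 1)))
        (u : IhmChiPart O (N * ∏ i, qv i) hM6 (ihqKappa h).ker Ps θ (ihqD1 h)
          (1 : ↥(ihqD1 h) →* O)),
        z = ((ihmChiDia O (N * ∏ i, qv i) hM6 (ihqKappa h).ker Ps θ (ihqD1 h)
          (1 : ↥(ihqD1 h) →* O)).comp (ihscIota h)) g' u - u} := by
    intro v hv
    refine Submodule.span_mono ?_ (hprk v hv)
    rintro z ⟨δ, u, rfl⟩
    obtain ⟨δ₁, g', rfl⟩ := ihsc_iota_compl h δ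
    refine ⟨g', u, ?_⟩
    rw [map_mul, Module.End.mul_apply, ihmChiDia_of_mem, MonoidHom.one_apply, one_smul]
    rfl
  exact mltm_level_of_glue hp ρbar habs b (Finset.univ.image qv) h𝒟to h𝒟of h𝒟unr hbc h𝒟det D D'
    hresE rE hctsE hstrictE htypeE ψE hψE hψEρ e actE hinjE hmod (Smin ∪ Finset.univ.image qv) aE
    hfrE qv (fun i => Finset.mem_image.mpr ⟨i, Finset.mem_univ i, rfl⟩) n
    (fun i => ⟨hqprime i, hqp i⟩) hunr hTW γ hγ Pl (fun i => (hloc i).1) φ σ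
    (fun i => (hloc i).2.1) (fun i => (hloc i).2.2.1.mem)
    (A := IhdImg O a θ') out.res_surj rA hcts out.strict
    (h𝒟tw _ (residual_ofMat_isEquiv ρbar b rA hcts out.strict) out.tw)
    (ihnTau O (N * ∏ i, qv i) hM6 (ihqKappa h).ker Ps θ (ihqD1 h)
      (1 : ↥(ihqD1 h) →* O) (Smin ∪ Finset.univ.image qv) a θ') hfrA hgenA
    (M := IhmChiPart O (N * ∏ i, qv i) hM6 (ihqKappa h).ker Ps θ (ihqD1 h) (1 : ↥(ihqD1 h) →* O))
    (ihiAct O a θ' hpart)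
    (G := IhqDelta (fun i : Fin r => p ^ padicValNat p (qv i - 1)))
    ((ihmChiDia O (N * ∏ i, qv i) hM6 (ihqKappa h).ker Ps θ (ihqD1 h)
      (1 : ↥(ihqD1 h) →* O)).comp (ihscIota h))
    (fun j => ihmChiPartMk O (N * ∏ i, qv i) hM6 (ihqKappa h).ker Ps θ (ihqD1 h)
      (1 : ↥(ihqD1 h) →* O) (w j))
    (b'.reindex (Equiv.prodCongr (Equiv.refl _) (ihqD2Equiv h).toEquiv))
    (ihqGen _) (fun i => padicValNat p (qv i - 1))
    (fun t g' => (out.dia_comm _ t).symm)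
    (fun j g' => by
      rw [Module.Basis.reindex_apply, hxg]
      exact hb' j _)
    (fun i => by
      have h1 : n + 1 ≤ padicValNat p (qv i - 1) := ihq_le_padicValNat hp (hqprime i) (hqn i)
      exact ⟨by omega, by omega, ihq_orderOf_gen _ i⟩)
    (ihq_closure_gen _) (fun Y _ y hy => ihq_univ _ y hy)
    (fun i => ihsc_exists_unit_part hp (hqprime i).two_le)
    aq aq' eA hAQ1
    (fun h2 i v => hSC i (mltm_Rl_erase_ne_nil qv h h2 i) v)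
    (fun i v hv1 hv2 => hWL i v hv1 hv2)
    pr hprs hprk'
    (fun g' u => hprd _ u)
    (fun ℓ hℓ hℓS v => by
      have hℓQ : ℓ ∉ List.ofFn qv := fun h0 => by
        obtain ⟨i, hi⟩ := hmem ℓ h0
        exact hℓS (Finset.mem_union_right _ (Finset.mem_image.mpr ⟨i, Finset.mem_univ i, hi⟩))
      rw [hτ ℓ hℓ hℓS, Module.End.mul_apply]
      apply Subtype.ext
      rw [hpro ℓ hℓQ, hprd, hactE ℓ hℓ hℓS])

end Main

end Fermat.Agent.MLT
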