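/-
MLT (project S59) / Min (helper2): **the minimal case `MltRT B ∅` from Taylor–Wiles level data**, generic
in the local condition at `p` (flat / ordinary) and in the cut.

* `mltm_cond_of_isEquiv`, `mltm_cond_bc_surj` : the deformation problem `B.cond Σ` is invariant under
  equivalence and stable under surjective base change;
* `mltm_surj_of_compat` : a comparison map `φ : R_Σ → T_Σ` (any `Σ`) is automatically surjective (S54 +
  uniqueness in the universal property), and `Hk.ρ` is of type `B.cond Σ`;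
* `mltm_rep_of_datum`   : the matrix representation over the Hecke ring `E = IhdImg` of a Hecke module,
  built from a GIVEN Hecke–Galois datum;
* `MltmHasLevels B`     : "level data `MltmLevel` exist for every `n`" for every base-level package;
* `mltm_RT_of_levels`   : `MltmHasLevels B → MltRT B ∅`.
-/
import Mathlib
import Fermat.Agent.Lib.MLT.Min.Act
import Fermat.Agent.Lib.MLT.Min.LevelAlg
import Fermat.Agent.Lib.MLT.Min.UnivQ
import Fermat.Agent.Lib.MLT.Min.RTAlg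
import Fermat.Agent.Lib.MLT.TWO.OrdTW
import Fermat.Agent.Lib.Ihara.Img.Rep
import Fermat.Agent.Lib.Ihara.Img.Act
import Fermat.Agent.S54

set_option autoImplicit false
set_option linter.unusedSectionVars false
set_option linter.unusedVariables false
set_option linter.style.haveILetI false

open IsLocalRing Polynomial Fermat.Agent.S53Lib Fermat.Agent.TW Fermat.Agent.Ihara GaloisRep

namespace Fermat.Agent.MLT

local notation "Qbar" => AlgebraicClosure ℚ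
local notation "GQ" => (AlgebraicClosure ℚ ≃ₐ[ℚ] AlgebraicClosure ℚ)

set_option maxSynthPendingDepth 3

/-! ### Closure properties of the deformation problem -/

section Closure

variable {A A' : Type} [CommRing A] [IsLocalRing A] [CommRing A'] [IsLocalRing A']

theorem mltm_isOrdinaryAt_of_isEquiv {ρ₁ ρ₂ : GaloisRepAdic A} (he : ρ₁.IsEquiv ρ₂) {p : ℕ}
    (h : ρ₁.IsOrdinaryAt p) : ρ₂.IsOrdinaryAt p := by
  obtain ⟨e⟩ := he
  intro P hP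
  obtain ⟨L, ⟨b, hb⟩, hD, hI⟩ := h P hP
  refine ⟨L.map e.toLinearEquiv.toLinearMap, ⟨b.map e.toLinearEquiv, ?_⟩, ?_, ?_⟩
  · rw [hb, Submodule.map_span, Set.image_singleton, Module.Basis.map_apply]
    rfl
  · intro σ hσ v hv
    obtain ⟨w, hw, rfl⟩ := hv
    exact ⟨ρ₁.ρ σ w, hD σ hσ w hw, e.map_apply σ w⟩
  · intro σ hσ v
    refine ⟨ρ₁.ρ σ (e.toLinearEquiv.symm v) - e.toLinearEquiv.symm v, hI σ hσ _, ?_⟩
    rw [map_sub]
    show e.toLinearEquiv _ - e.toLinearEquiv _ = _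
    rw [e.map_apply, LinearEquiv.apply_symm_apply]

theorem mltm_X_of_isEquiv (p : ℕ) (flat : Bool) {ρ₁ ρ₂ : GaloisRepAdic A} (he : ρ₁.IsEquiv ρ₂)
    (h : mltX p flat ρ₁) : mltX p flat ρ₂ := by
  cases flat with
  | true => exact isFlatAt_of_isEquiv he h
  | false => exact mltm_isOrdinaryAt_of_isEquiv he h

theorem mltm_X_bc_surj (p : ℕ) (flat : Bool) (φ : A →+* A') (hφ : IsLocalHom φ)
    (hs : Function.Surjective φ) (ρ : GaloisRepAdic A) (h : mltX p flat ρ) :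
    mltX p flat (ρ.baseChangeAlong φ hφ) := by
  cases flat with
  | true => exact isFlatAt_baseChangeAlong_of_surjective φ hφ hs ρ h
  | false => exact mlto_isOrdinaryAt_baseChangeAlong φ hφ ρ h

variable {𝒪 : Type} [CommRing 𝒪] [Algebra 𝒪 A] [Algebra 𝒪 A']

theorem mltm_cond_of_isEquiv (p : ℕ) (flat : Bool) (Smin Sig : Finset ℕ)
    {ρ₁ ρ₂ : GaloisRepAdic A} (he : ρ₁.IsEquiv ρ₂)
    (h : mltCond 𝒪 p flat Smin Sig ρ₁) : mltCond 𝒪 p flat Smin Sig ρ₂ :=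
  ⟨⟨detIsCyclotomic_of_isEquiv he h.1.1, mltm_X_of_isEquiv p flat he h.1.2.1,
    fun q hq hqT => isUnramifiedAt_of_isEquiv he (h.1.2.2 q hq hqT)⟩,
    fun q hqS hq hqp => isUnipotentOnInertiaAt_of_isEquiv he (h.2 q hqS hq hqp)⟩

theorem mltm_cond_bc_surj (p : ℕ) (flat : Bool) (Smin Sig : Finset ℕ)
    (φ : A →ₐ[𝒪] A') (hφ : IsLocalHom (φ : A →+* A')) (hs : Function.Surjective φ)
    (ρ : GaloisRepAdic A) (h : mltCond 𝒪 p flat Smin Sig ρ) :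
    mltCond 𝒪 p flat Smin Sig (ρ.baseChangeAlong (φ : A →+* A') hφ) :=
  ⟨⟨detIsCyclotomic_baseChangeAlong _ hφ ρ h.1.1, mltm_X_bc_surj p flat _ hφ hs ρ h.1.2.1,
    fun q hq hqT => isUnramifiedAt_baseChangeAlong _ hφ ρ (h.1.2.2 q hq hqT)⟩,
    fun q hqS hq hqp => isUnipotentOnInertiaAt_baseChangeAlong _ hφ ρ (h.2 q hqS hq hqp)⟩

end Closure

/-! ### The matrix representation over the Hecke ring of a Hecke module, from a given datum -/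

section Rep

variable {p : ℕ} {𝒪 : Type} [CommRing 𝒪] [IsDomain 𝒪] [IsDiscreteValuationRing 𝒪]
  [IsAdicComplete (maximalIdeal 𝒪) 𝒪] [Finite (ResidueField 𝒪)] [CharZero 𝒪]
  {N : ℕ} [NeZero N] {S : Finset ℕ}
  {θ : CuspForm.heckeAlgebra N 2 (↑S : Set ℕ) →+* ResidueField 𝒪}
  {M : Type*} [AddCommGroup M] [Module 𝒪 M] [Module.IsTorsionFree 𝒪 M]
  (a : CuspForm.heckeAlgebra N 2 (↑S : Set ℕ) →+* Module.End 𝒪 M)
  [Nontrivial (ihdPart 𝒪 a θ)]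

/-- **the matrix representation over the Hecke ring of `M`**, from a given Hecke–Galois datum -/
theorem mltm_rep_of_datum (hNS : ∀ q : ℕ, q.Prime → q ∣ N → q ∈ S)
    (ρbar : ResidualGaloisRep (ResidueField 𝒪)) (habs : ρbar.IsAbsolutelyIrreducible)
    (hfrob : ∀ (ℓ : ℕ) (hℓ : ℓ.Prime) (hℓN : ¬ ℓ ∣ N) (hℓS : ℓ ∉ (↑S : Set ℕ)),
      ∀ P : ValuationSubring Qbar, P.LiesOverPrime ℓ → ∀ σ : GQ, P.IsFrobeniusAt σ ℓ →
        LinearMap.charpoly (ρbar.ρ σ) =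
          X ^ 2 - C (θ (CuspForm.heckeAlgebra.T hℓ hℓN hℓS)) * X + C ((ℓ : ResidueField 𝒪)))
    (b : Module.Basis (Fin 2) (ResidueField 𝒪) ρbar.V)
    (H : CuspForm.HeckeGaloisRepDatum N (↑S : Set ℕ) 𝒪 θ (IhdT 𝒪 θ)) (hπ : H.π = ihdPi 𝒪 θ) :
    ∃ (rA : GQ →* Matrix (Fin 2) (Fin 2) (IhdImg 𝒪 a θ)) (hcts : MatCts (IhdImg 𝒪 a θ) rA),
      Function.Surjective (residue (IhdImg 𝒪 a θ) ∘ algebraMap 𝒪 (IhdImg 𝒪 a θ)) ∧
      IsStrictLift (𝒪 := 𝒪) (resMat ρbar b) rA ∧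
      (ihdImgRep a H).IsEquiv (ofMat rA hcts) ∧
      (∀ (ℓ : ℕ) (hℓ : ℓ.Prime) (hℓN : ¬ ℓ ∣ N) (hℓS : ℓ ∉ (↑S : Set ℕ)),
        ∀ P : ValuationSubring Qbar, P.LiesOverPrime ℓ → ∀ σ : GQ, P.IsFrobeniusAt σ ℓ →
          (rA σ).trace = ihdImgPi 𝒪 a θ (CuspForm.heckeAlgebra.T hℓ hℓN hℓS) ∧
            (rA σ).det = (ℓ : IhdImg 𝒪 a θ)) := by
  classical
  obtain ⟨-, hresA⟩ := ihdImgRep_residual a hNS ρbar habs hfrob H hπ
  obtain ⟨rA, hcts, hstrict, ⟨e⟩⟩ :=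
    exists_strictLift_of_residual_isEquiv ρbar b (ihdImgRep a H) hresA
  have heq : (ihdImgRep a H).IsEquiv (ofMat rA hcts) := ⟨e⟩
  have hchar : ∀ (ℓ : ℕ) (hℓ : ℓ.Prime) (hℓN : ¬ ℓ ∣ N) (hℓS : ℓ ∉ (↑S : Set ℕ)),
      ∀ P : ValuationSubring Qbar, P.LiesOverPrime ℓ → ∀ σ : GQ, P.IsFrobeniusAt σ ℓ →
        LinearMap.charpoly ((ofMat rA hcts).ρ σ) =
          X ^ 2 - C (ihdImgPi 𝒪 a θ (CuspForm.heckeAlgebra.T hℓ hℓN hℓS)) * X
            + C ((ℓ : IhdImg 𝒪 a θ)) := by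
    intro ℓ hℓ hℓN hℓS P hP σ hσ
    rw [Fermat.Agent.Lib.Helper6.charpoly_eq_of_galoisRepAdic_equiv e σ]
    exact ihdImgRep_charpoly a H hπ ℓ hℓ hℓN hℓS P hP σ hσ
  have hmat : ∀ σ : GQ, LinearMap.toMatrix (ofMatBasis rA hcts) (ofMatBasis rA hcts)
      ((ofMat rA hcts).ρ σ) = rA σ := fun σ =>
    DFunLike.congr_fun (toMatrixRep_ofMat rA hcts) σ
  refine ⟨rA, hcts, ihi_residue_surjective a H, hstrict, heq, ?_⟩
  intro ℓ hℓ hℓN hℓS P hP σ hσ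
  have h := Fermat.Agent.S31T.s31t_trace_det_of_charpoly (ofMatBasis rA hcts)
    ((ofMat rA hcts).ρ σ) _ _ (hchar ℓ hℓ hℓN hℓS P hP σ hσ)
  rw [hmat] at h
  exact h

end Rep

variable {𝒪 : Type} [CommRing 𝒪] [IsDomain 𝒪] [IsDiscreteValuationRing 𝒪] [CharZero 𝒪]
  [IsAdicComplete (maximalIdeal 𝒪) 𝒪] [Finite (ResidueField 𝒪)]

/-! ### Every comparison map is surjective -/

section Surj

variable (B : MltBase 𝒪) (hB : B.Valid) (hS0 : B.S0 = B.Smin ∪ B.cut)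
  (Sig : Finset ℕ) (hSig : B.IsAux Sig) [NeZero (B.level Sig)]
  (θ : CuspForm.heckeAlgebra (B.level Sig) 2 (↑(B.bad Sig) : Set ℕ) →+* ResidueField 𝒪)

include hB hS0 hSig in
/-- **every comparison map `R_Σ → T_Σ` is surjective**, `Hk.ρ` is residually `ρbar` and of type
`B.cond Σ` -/
theorem mltm_surj_of_compat
    (D : DeformationRingData 𝒪 B.ρbar (B.cond Sig))
    (Hk : CuspForm.HeckeGaloisRepDatum (B.level Sig) (↑(B.bad Sig) : Set ℕ) 𝒪 θ (IhdT 𝒪 θ))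
    (φ : D.R →ₐ[𝒪] IhdT 𝒪 θ) (hφ : IsLocalHom (φ : D.R →+* IhdT 𝒪 θ))
    (hcompat : (D.ρ.baseChangeAlong (φ : D.R →+* IhdT 𝒪 θ) hφ).IsEquiv Hk.ρ) :
    Function.Surjective φ ∧ B.cond Sig Hk.ρ ∧
      Hk.ρ.residual.IsEquiv
        (B.ρbar.baseChangeAlong (ResidueField.map (algebraMap 𝒪 (IhdT 𝒪 θ)))) := by
  have hNS := mltm_hNS B hB Sig hSig
  obtain ⟨er⟩ := mlto_residual_bc D φ hφ
  obtain ⟨ec⟩ := hcompat
  have hres : Hk.ρ.residual.IsEquiv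
      (B.ρbar.baseChangeAlong (ResidueField.map (algebraMap 𝒪 (IhdT 𝒪 θ)))) :=
    ⟨(GaloisRepAdic.Equiv.residual ec.symm).trans er⟩
  have hcond := mltm_cond B hB hS0 Sig hSig θ Hk hres
  obtain ⟨φ', hsurj, hφ', hequiv⟩ := Fermat.Agent.S54.result D Hk
    (fun q hq hqN => Finset.mem_coe.mpr (hNS q hq hqN)) hcond hres
  obtain ⟨φ₀, -, huniq⟩ := D.universal (IhdT 𝒪 θ) Hk.residue_surjective Hk.ρ hcond hres
  have e1 : φ = φ₀ := huniq φ ⟨hφ, ⟨ec⟩⟩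
  have e2 : φ' = φ₀ := huniq φ' ⟨hφ', hequiv⟩
  rw [e1, ← e2]
  exact ⟨hsurj, hcond, hres⟩

end Surj

/-! ### The level hypothesis -/

/-- **Taylor–Wiles level data exist for all `n`**, for every base-level package
(`E`, `rE`, `ψE : R_∅ → E`, `actE : E ↪ End H_∅`, traces `aE ℓ` acting as `T_ℓ`) -/
def MltmHasLevels (B : MltBase 𝒪) [NeZero (B.level ∅)] : Prop :=
  ∀ (D : DeformationRingData 𝒪 B.ρbar (B.cond ∅))
    (b : Module.Basis (Fin 2) (ResidueField 𝒪) B.ρbar.V)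
    {E : Type} [CommRing E] [IsLocalRing E] [IsNoetherianRing E]
    [IsAdicComplete (maximalIdeal E) E] [Algebra 𝒪 E] [IsLocalHom (algebraMap 𝒪 E)]
    (hresE : Function.Surjective (residue E ∘ algebraMap 𝒪 E))
    (rE : GQ →* Matrix (Fin 2) (Fin 2) E) (hctsE : MatCts E rE)
    (hstrictE : IsStrictLift (𝒪 := 𝒪) (resMat B.ρbar b) rE)
    (htypeE : B.cond ∅ (ofMat rE hctsE))
    (ψE : D.R →ₐ[𝒪] E) (hψE : IsLocalHom (ψE : D.R →+* E))
    (hψEρ : (D.ρ.baseChangeAlong (ψE : D.R →+* E) hψE).IsEquiv (ofMat rE hctsE))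
    [Module D.R ↥(B.H ∅)] {d : ℕ} (e : Module.Basis (Fin d) 𝒪 ↥(B.H ∅))
    (actE : E →ₐ[𝒪] Module.End 𝒪 ↥(B.H ∅)) (hinjE : Function.Injective actE)
    (hmod : ∀ (t : D.R) (x : ↥(B.H ∅)), t • x = actE (ψE t) x)
    (aE : ℕ → E)
    (hfrE : ∀ ℓ : ℕ, ℓ.Prime → ℓ ∉ B.S0 → ∀ P : ValuationSubring Qbar, P.LiesOverPrime ℓ →
      ∀ σ : GQ, P.IsFrobeniusAt σ ℓ → (rE σ).trace = aE ℓ ∧ (rE σ).det = (ℓ : E))
    (hactE : ∀ ℓ : ℕ, ℓ.Prime → ℓ ∉ B.S0 → ∀ y : ↥(B.H ∅),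
      ((actE (aE ℓ) y : ↥(B.H ∅)) : Ih4H 𝒪 𝒪 (B.level ∅)) =
        ih4Op 𝒪 (B.level ∅) ℓ (y : Ih4H 𝒪 𝒪 (B.level ∅))),
    ∃ r : ℕ, ∀ n : ℕ, MltmLevel B.p r D.R e n

end Fermat.Agent.MLT
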