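/-
MLT (project S59) / Min (helper2): **`MltmHasLevels B → MltRT B ∅`**: the minimal case from Taylor–Wiles
level data (patching `mltm_patch_of_levels`), generic in the local condition at `p` and in the cut.
-/
import Mathlib
import Fermat.Agent.Lib.MLT.Min.RTGen

set_option autoImplicit false
set_option linter.unusedSectionVars false
set_option linter.unusedVariables false
set_option linter.style.haveILetI false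

open IsLocalRing Polynomial Fermat.Agent.S53Lib Fermat.Agent.TW Fermat.Agent.Ihara GaloisRep

namespace Fermat.Agent.MLT

local notation "Qbar" => AlgebraicClosure ℚ
local notation "GQ" => (AlgebraicClosure ℚ ≃ₐ[ℚ] AlgebraicClosure ℚ)

set_option maxSynthPendingDepth 3

variable {𝒪 : Type} [CommRing 𝒪] [IsDomain 𝒪] [IsDiscreteValuationRing 𝒪] [CharZero 𝒪]
  [IsAdicComplete (maximalIdeal 𝒪) 𝒪] [Finite (ResidueField 𝒪)]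

/-- **the minimal case from level data** -/
theorem mltm_RT_of_levels (B : MltBase 𝒪) (hB : B.Valid) (hS0 : B.S0 = B.Smin ∪ B.cut)
    [NeZero (B.level ∅)] (hlev : MltmHasLevels B) : MltRT B ∅ := by
  classical
  intro θ hθ D Hk hHk φ hφ hcompat
  have hSig : B.IsAux ∅ := fun q hq => absurd hq (Finset.notMem_empty q)
  have hp := hB.prime
  have hp2 := hB.odd
  have hp𝒪 := hB.mem
  have hp2' : 2 < B.p := lt_of_le_of_ne hp.two_le (Ne.symm hp2)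
  have hp0 : ((B.p : ℕ) : 𝒪) ≠ 0 := by exact_mod_cast hp.ne_zero
  have hNS := mltm_hNS B hB ∅ hSig
  obtain ⟨hsurj, hcond, hres⟩ := mltm_surj_of_compat B hB hS0 ∅ hSig θ D Hk φ hφ hcompat
  -- the Hecke action
  obtain ⟨a, ha, haT⟩ := mltm_exists_heckeHom B hB ∅ hSig
  have hpart := mltm_part_top B hB ∅ hSig a haT θ hθ
  haveI hH : Nontrivial ↥(B.H ∅) := Submodule.nontrivial_iff_ne_bot.mpr hB.modular
  haveI : Nontrivial ↥(ihdPart 𝒪 a θ) := (LinearEquiv.ofTop (ihdPart 𝒪 a θ) hpart).toEquiv.nontrivial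
  haveI : Module.IsTorsionFree 𝒪 ↥(B.H ∅) := inferInstance
  -- the representation over the Hecke ring
  let b : Module.Basis (Fin 2) (ResidueField 𝒪) B.ρbar.V :=
    Module.finBasisOfFinrankEq _ _ B.ρbar.finrank_eq
  obtain ⟨rE, hctsE, hresE, hstrictE, heq, hfr⟩ := mltm_rep_of_datum a hNS B.ρbar hB.absIrr
    (mltm_hfrob B hB ∅ θ hθ) b Hk hHk
  have hmk := ihdImgMk_isLocalHom 𝒪 a θ
  have hmks := ihdImgMk_surjective 𝒪 a θ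
  have htypeE : B.cond ∅ (ofMat rE hctsE) :=
    mltm_cond_of_isEquiv B.p B.flat B.Smin ∅ heq
      (mltm_cond_bc_surj B.p B.flat B.Smin ∅ (ihdImgMk 𝒪 a θ) hmk hmks Hk.ρ hcond)
  -- the map `R → E`
  have hcomp : (((ihdImgMk 𝒪 a θ).comp φ : D.R →ₐ[𝒪] IhdImg 𝒪 a θ) : D.R →+* IhdImg 𝒪 a θ) =
      (ihdImgMk 𝒪 a θ : IhdT 𝒪 θ →+* IhdImg 𝒪 a θ).comp (φ : D.R →+* IhdT 𝒪 θ) := rfl
  have hloc : IsLocalHom ((ihdImgMk 𝒪 a θ : IhdT 𝒪 θ →+* IhdImg 𝒪 a θ).comp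
      (φ : D.R →+* IhdT 𝒪 θ)) := @RingHom.isLocalHom_comp _ _ _ _ _ _ _ _ hmk hφ
  have hψE : IsLocalHom (((ihdImgMk 𝒪 a θ).comp φ : D.R →ₐ[𝒪] IhdImg 𝒪 a θ) :
      D.R →+* IhdImg 𝒪 a θ) := by
    rw [hcomp]
    exact hloc
  have hψEρ : (D.ρ.baseChangeAlong (((ihdImgMk 𝒪 a θ).comp φ : D.R →ₐ[𝒪] IhdImg 𝒪 a θ) :
      D.R →+* IhdImg 𝒪 a θ) hψE).IsEquiv (ofMat rE hctsE) := by
    have h1 : ((D.ρ.baseChangeAlong (φ : D.R →+* IhdT 𝒪 θ) hφ).baseChangeAlong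
        (ihdImgMk 𝒪 a θ : IhdT 𝒪 θ →+* IhdImg 𝒪 a θ) hmk).IsEquiv (ihdImgRep a Hk) :=
      mlto_isEquiv_bc hcompat _ hmk
    have h2 := mlto_bc_comp (φ : D.R →+* IhdT 𝒪 θ) hφ
      (ihdImgMk 𝒪 a θ : IhdT 𝒪 θ →+* IhdImg 𝒪 a θ) hmk hloc D.ρ
    have h3 := mlto_bc_congr hcomp hψE hloc D.ρ
    exact mlto_isEquiv_trans h3 (mlto_isEquiv_trans (mlto_isEquiv_symm h2)
      (mlto_isEquiv_trans h1 heq))
  -- the module structure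
  let actE : IhdImg 𝒪 a θ →ₐ[𝒪] Module.End 𝒪 ↥(B.H ∅) := ihiAct 𝒪 a θ hpart
  have hinjE : Function.Injective actE := ihiAct_injective 𝒪 a θ hpart
  letI instM : Module D.R ↥(B.H ∅) := Module.compHom _
    ((actE.comp ((ihdImgMk 𝒪 a θ).comp φ) : D.R →ₐ[𝒪] Module.End 𝒪 ↥(B.H ∅)) :
      D.R →+* Module.End 𝒪 ↥(B.H ∅))
  have hmod : ∀ (t : D.R) (x : ↥(B.H ∅)),
      t • x = actE (((ihdImgMk 𝒪 a θ).comp φ : D.R →ₐ[𝒪] IhdImg 𝒪 a θ) t) x := fun _ _ => rfl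
  haveI instT : IsScalarTower 𝒪 D.R ↥(B.H ∅) := ⟨fun o t x => by
    rw [hmod, hmod, map_smul, map_smul, LinearMap.smul_apply]⟩
  let e : Module.Basis (Fin (Module.finrank 𝒪 ↥(B.H ∅))) 𝒪 ↥(B.H ∅) := Module.finBasis 𝒪 ↥(B.H ∅)
  -- the traces
  have hbad : ∀ ℓ : ℕ, ℓ ∉ B.S0 → ℓ ∉ (↑(B.bad ∅) : Set ℕ) := by
    intro ℓ hℓ h
    rw [Finset.mem_coe, B.bad_empty] at h
    exact hℓ h
  have hlN : ∀ ℓ : ℕ, ℓ.Prime → ℓ ∉ B.S0 → ¬ ℓ ∣ B.level ∅ := by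
    intro ℓ hℓ hℓS h
    have h1 := hNS ℓ hℓ h
    rw [B.bad_empty] at h1
    exact hℓS h1
  have hfrE : ∀ ℓ : ℕ, ℓ.Prime → ℓ ∉ B.S0 → ∀ P : ValuationSubring Qbar, P.LiesOverPrime ℓ →
      ∀ σ : GQ, P.IsFrobeniusAt σ ℓ →
        (rE σ).trace = ihdEig (ihdImgPi 𝒪 a θ) ℓ ∧ (rE σ).det = (ℓ : IhdImg 𝒪 a θ) := by
    intro ℓ hℓ hℓS P hP σ hσ
    rw [ihdEig_eq _ hℓ (hlN ℓ hℓ hℓS) (hbad ℓ hℓS)]
    exact hfr ℓ hℓ (hlN ℓ hℓ hℓS) (hbad ℓ hℓS) P hP σ hσ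
  have hactE : ∀ ℓ : ℕ, ℓ.Prime → ℓ ∉ B.S0 → ∀ y : ↥(B.H ∅),
      ((actE (ihdEig (ihdImgPi 𝒪 a θ) ℓ) y : ↥(B.H ∅)) : Ih4H 𝒪 𝒪 (B.level ∅)) =
        ih4Op 𝒪 (B.level ∅) ℓ (y : Ih4H 𝒪 𝒪 (B.level ∅)) := by
    intro ℓ hℓ hℓS y
    rw [ihdEig_eq _ hℓ (hlN ℓ hℓ hℓS) (hbad ℓ hℓS)]
    show ((ihiAct 𝒪 a θ hpart (ihdImgPi 𝒪 a θ _) y : ↥(B.H ∅)) : Ih4H 𝒪 𝒪 (B.level ∅)) = _
    rw [ihiAct_pi]
    exact haT ℓ hℓ (hlN ℓ hℓ hℓS) (hbad ℓ hℓS) y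
  -- the levels and patching
  obtain ⟨r, hr⟩ := hlev D b hresE rE hctsE hstrictE htypeE _ hψE hψEρ e actE hinjE hmod _
    hfrE hactE
  obtain ⟨hfree, hann, ψ', f, hψ', hker⟩ := mltm_patch_of_levels hp hp2' hp𝒪 hp0
    D.residue_surjective e hr
  haveI := hfree
  haveI : Module.Finite D.R ↥(B.H ∅) := Module.Finite.of_restrictScalars_finite 𝒪 D.R ↥(B.H ∅)
  obtain ⟨hbij, d, hd, w, hw⟩ := mltm_rt_alg φ hsurj (ihdImgMk 𝒪 a θ) actE hmod hann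
  refine ⟨hbij, ⟨r, ψ', f, hψ', hker⟩, actE.comp (ihdImgMk 𝒪 a θ), ?_, d, hd, w, hw⟩
  intro ℓ hℓ hℓN hℓS x
  show ((ihiAct 𝒪 a θ hpart (ihdImgPi 𝒪 a θ _) x : ↥(B.H ∅)) : Ih4H 𝒪 𝒪 (B.level ∅)) = _
  rw [ihiAct_pi]
  exact haT ℓ hℓ hℓN hℓS x

end Fermat.Agent.MLT
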