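/-
MLT (project S59) / Min (helper2): **the minimal case for the FLAT problem, `5 ≤ p`, no cut**:
`MltRT B ∅` from S56 (Taylor–Wiles primes), `mltm_level_flat` (the Hecke datum at a TW level) and
`mltm_RT_of_levels` (patching).

* `mltmCastD`          : transport of deformation ring data along an equivalence of deformation problems;
* `mltm_level_zero`    : the level datum when there are no Taylor–Wiles primes (`r = 0`);
* `mltm_hasLevels_flat`: `MltmHasLevels B` for flat `B`, `5 ≤ p`, `cut = ∅`;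
* `mltm_RT_flat`       : `MltRT B ∅`.
-/
import Mathlib
import Fermat.Agent.Lib.MLT.Min.RTMain
import Fermat.Agent.Lib.MLT.Min.HeckeTW
import Fermat.Agent.S56

set_option autoImplicit false
set_option linter.unusedSectionVars false
set_option linter.unusedVariables false
set_option linter.style.haveILetI false

open IsLocalRing Polynomial Fermat.Agent.S53Lib Fermat.Agent.TW Fermat.Agent.Ihara GaloisRep

namespace Fermat.Agent.MLT

local notation "Qbar" => AlgebraicClosure ℚ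
local notation "GQ" => (AlgebraicClosure ℚ ≃ₐ[ℚ] AlgebraicClosure ℚ)

set_option maxSynthPendingDepth 3

section Cast

variable {𝒪 : Type} [CommRing 𝒪] [IsDomain 𝒪] [IsDiscreteValuationRing 𝒪]
  [IsAdicComplete (maximalIdeal 𝒪) 𝒪] {ρbar : ResidualGaloisRep (ResidueField 𝒪)}
  {𝒟 𝒟' : ∀ ⦃A : Type⦄ [CommRing A] [IsLocalRing A] [Algebra 𝒪 A], GaloisRepAdic A → Prop}

/-- transport of deformation ring data along a pointwise equivalence of deformation problems (same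
ring, same universal deformation) -/
def mltmCastD
    (h : ∀ ⦃A : Type⦄ [CommRing A] [IsLocalRing A] [Algebra 𝒪 A] (ρ : GaloisRepAdic A),
      𝒟 ρ ↔ 𝒟' ρ)
    (D : DeformationRingData 𝒪 ρbar 𝒟) : DeformationRingData 𝒪 ρbar 𝒟' where
  R := D.R
  residue_surjective := D.residue_surjective
  absIrr := D.absIrr
  ρ := D.ρ
  isOfType := (h D.ρ).mp D.isOfType
  residual_isEquiv := D.residual_isEquiv
  universal := fun A _ _ _ _ _ _ hres ρA hρA hresid =>
    D.universal A hres ρA ((h ρA).mpr hρA) hresid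

end Cast

section Zero

variable {𝒪 : Type} [CommRing 𝒪] [IsDomain 𝒪] [IsDiscreteValuationRing 𝒪]
  [IsAdicComplete (maximalIdeal 𝒪) 𝒪] [Finite (ResidueField 𝒪)]

/-- **the level datum without Taylor–Wiles primes** -/
theorem mltm_level_zero (p : ℕ) {R : Type} [CommRing R] [Algebra 𝒪 R]
    {H : Type} [AddCommGroup H] [Module 𝒪 H] [Module R H] [IsScalarTower 𝒪 R H]
    [Module.Finite 𝒪 H] {d : ℕ} (e : Module.Basis (Fin d) 𝒪 H)
    (γ : MvPowerSeries (Fin 0) 𝒪 →ₐ[𝒪] R) (hγ : Function.Surjective γ) (n : ℕ) :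
    MltmLevel p 0 R e n := by
  classical
  haveI : SMulCommClass R 𝒪 H := IsScalarTower.to_smulCommClass'
  refine ⟨R, inferInstance, inferInstance, γ, AlgHom.id 𝒪 R, H, inferInstance, inferInstance,
    inferInstance, Algebra.lsmul 𝒪 𝒪 H, Unit, inferInstance, inferInstance, 1, e,
    e.reindex (Equiv.prodPUnit (Fin d)).symm, fun i => i.elim0, fun i => i.elim0,
    fun i => i.elim0, LinearMap.id, hγ, Function.surjective_id, ?_, ?_, fun i => i.elim0,
    Subsingleton.elim _ _, ?_, fun i => i.elim0, fun i => i.elim0, fun i => i.elim0,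
    fun i => i.elim0, Function.surjective_id, ?_, ?_, ?_⟩
  · intro t g'
    exact Commute.one_right _
  · intro j g'
    rw [Module.Basis.reindex_apply]
    rfl
  · intro Y _ y _
    exact ⟨1, fun i => i.elim0⟩
  · intro v hv
    have h0 : v = 0 := hv
    rw [h0]
    exact Submodule.zero_mem _
  · intro g' u
    rfl
  · intro t v
    rfl

end Zero

variable {𝒪 : Type} [CommRing 𝒪] [IsDomain 𝒪] [IsDiscreteValuationRing 𝒪] [CharZero 𝒪]
  [IsAdicComplete (maximalIdeal 𝒪) 𝒪] [Finite (ResidueField 𝒪)]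

theorem mltm_X_flat_iff (p : ℕ) {flat : Bool} (hflat : flat = true) {A : Type} [CommRing A]
    [IsLocalRing A] (ρ : GaloisRepAdic A) : mltX p flat ρ ↔ ρ.IsFlatAt p := by
  subst hflat
  exact Iff.rfl

/-- for a flat base datum, `B.cond Q` is the literal condition of S56 -/
theorem mltm_cond_flat_iff (B : MltBase 𝒪) (hflat : B.flat = true) (Q : Finset ℕ)
    {A : Type} [CommRing A] [IsLocalRing A] [Algebra 𝒪 A] (ρ : GaloisRepAdic A) :
    B.cond Q ρ ↔ (GaloisRep.flatCondition 𝒪 B.p (B.Smin ∪ Q) ρ ∧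
      ∀ q ∈ B.Smin, q.Prime → q ≠ B.p → ρ.IsUnipotentOnInertiaAt q) :=
  ⟨fun h => ⟨⟨h.1.1, (mltm_X_flat_iff B.p hflat ρ).mp h.1.2.1, h.1.2.2⟩, h.2⟩,
    fun h => ⟨⟨h.1.1, (mltm_X_flat_iff B.p hflat ρ).mpr h.1.2.1, h.1.2.2⟩, h.2⟩⟩

/-- **Taylor–Wiles level data for a flat base datum without cut, `5 ≤ p`** -/
theorem mltm_hasLevels_flat (B : MltBase 𝒪) (hB : B.Valid) (hp5 : 5 ≤ B.p)
    (hflat : B.flat = true) (hcut : B.cut = ∅) (hS0 : B.S0 = B.Smin ∪ B.cut)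
    [NeZero (B.level ∅)]
    (hring : ∀ Q : Finset ℕ, (∀ q ∈ Q, q.Prime ∧ q ∉ B.S0) →
      Nonempty (DeformationRingData 𝒪 B.ρbar (B.cond Q))) : MltmHasLevels B := by
  classical
  intro D b E _ _ _ _ _ _ hresE rE hctsE hstrictE htypeE ψE hψE hψEρ instM d e actE hinjE hmod aE
    hfrE hactE
  letI instM' : Module D.R ↥(ih4Part 𝒪 (B.level ∅) (B.Ps ∅) (B.theta ∅)) := instM
  haveI instT : IsScalarTower 𝒪 D.R ↥(B.H ∅) := ⟨fun o t x => by
    rw [hmod, hmod, map_smul, map_smul, LinearMap.smul_apply]⟩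
  haveI : Fact B.p.Prime := ⟨hB.prime⟩
  have hS0' : B.S0 = B.Smin := by rw [hS0, hcut, Finset.union_empty]
  obtain ⟨r, hr⟩ := (Fermat.Agent.S56.result B.p hB.odd hB.mem B.ρbar hB.absIrr hB.det hB.split
    hB.tw B.S0 B.Smin hB.p_mem_Smin hB.Smin_sub hB.S0_prime hB.Smin_iff).2
  refine ⟨r, fun n => ?_⟩
  obtain ⟨qv, hqinj, hqv, hTW, hγ⟩ := hr n
  have hqS : ∀ i, qv i ∉ B.Smin := fun i h => (hqv i).2.1 (hB.Smin_sub h)
  -- the deformation ring at the level `Q`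
  obtain ⟨D'⟩ := hring (Finset.univ.image qv) (by
    intro q hq
    obtain ⟨i, -, rfl⟩ := Finset.mem_image.mp hq
    exact ⟨(hqv i).1, (hqv i).2.1⟩)
  obtain ⟨γ, hγs⟩ := hγ (mltmCastD (𝒟 := B.cond (Finset.univ.image qv))
    (fun A _ _ _ ρ => mltm_cond_flat_iff B hflat (Finset.univ.image qv) ρ) D')
  by_cases hr0 : r = 0
  · -- no Taylor–Wiles primes
    subst hr0
    have hQ : (Finset.univ.image qv) = ∅ := by
      rw [Finset.univ_eq_empty, Finset.image_empty]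
    have hiff : ∀ ⦃A : Type⦄ [CommRing A] [IsLocalRing A] [Algebra 𝒪 A] (ρ : GaloisRepAdic A),
        B.cond (Finset.univ.image qv) ρ ↔ B.cond ∅ ρ := by
      intro A _ _ _ ρ
      rw [hQ]
    -- the two rings are canonically isomorphic; we only need a surjection `𝒪⟦⟧ → R_∅`
    obtain ⟨κ, hκ, hκρ⟩ := mltm_exists_kappa (fun A _ _ _ ρ h => (hiff ρ).mpr h) D D'
    have hκs : Function.Surjective κ := by
      obtain ⟨κ', hκ', hκρ'⟩ := mltm_exists_kappa (fun A _ _ _ ρ h => (hiff ρ).mp h) D' D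
      -- `κ ∘ κ' = id` by the universal property of `D`
      obtain ⟨φ₀, -, huniq⟩ := D.universal D.R D.residue_surjective D.ρ D.isOfType
        D.residual_isEquiv
      have hidloc : IsLocalHom ((AlgHom.id 𝒪 D.R : D.R →ₐ[𝒪] D.R) : D.R →+* D.R) :=
        ⟨fun a ha => ha⟩
      have e1 : AlgHom.id 𝒪 D.R = φ₀ := huniq _ ⟨hidloc, mlto_bc_id hidloc D.ρ⟩
      have hcomp : ((κ.comp κ' : D.R →ₐ[𝒪] D.R) : D.R →+* D.R) =
          (κ : D'.R →+* D.R).comp (κ' : D.R →+* D'.R) := rfl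
      have hloc : IsLocalHom ((κ : D'.R →+* D.R).comp (κ' : D.R →+* D'.R)) :=
        @RingHom.isLocalHom_comp _ _ _ _ _ _ _ _ hκ hκ'
      have hloc' : IsLocalHom ((κ.comp κ' : D.R →ₐ[𝒪] D.R) : D.R →+* D.R) := by
        rw [hcomp]; exact hloc
      have e2 : κ.comp κ' = φ₀ := huniq _ ⟨hloc', by
        have h1 := mlto_isEquiv_bc hκρ' (κ : D'.R →+* D.R) hκ
        have h2 := mlto_bc_comp (κ' : D.R →+* D'.R) hκ' (κ : D'.R →+* D.R) hκ hloc D.ρ
        have h3 := mlto_bc_congr hcomp hloc' hloc D.ρ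
        exact mlto_isEquiv_trans h3 (mlto_isEquiv_trans (mlto_isEquiv_symm h2)
          (mlto_isEquiv_trans h1 hκρ))⟩
      intro y
      refine ⟨κ' y, ?_⟩
      have h4 : (κ.comp κ') y = (AlgHom.id 𝒪 D.R) y := by rw [e2, ← e1]
      exact h4
    exact mltm_level_zero B.p e (κ.comp γ) (hκs.comp hγs) n
  · have hr1 : 0 < r := Nat.pos_of_ne_zero hr0
    -- arithmetic of the base level
    have hlev0 : B.level ∅ = B.N0 := B.level_empty
    have hNsq : Squarefree (B.level ∅) := by rw [hlev0]; exact hB.N0_sqfree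
    have hpN : ¬ B.p ∣ B.level ∅ := by
      rw [hlev0, hB.N0_dvd_iff B.p hB.prime, hcut]
      rintro (⟨-, h⟩ | ⟨-, h⟩ | h)
      · exact h rfl
      · rw [hflat] at h
        exact Bool.noConfusion h
      · exact absurd h (Finset.notMem_empty _)
    have hSN : ∀ ℓ : ℕ, ℓ.Prime → ℓ ∣ B.level ∅ → ℓ ∈ B.Smin := by
      intro ℓ hℓ h
      rw [hlev0] at h
      have := hB.N0_sub ℓ hℓ h
      rwa [hS0'] at this
    have hSminN : ∀ q ∈ B.Smin, q.Prime → q ≠ B.p → q ∣ B.level ∅ := by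
      intro q hq hqp hqne
      rw [hlev0]
      exact (hB.N0_dvd_iff q hqp).mpr (Or.inl ⟨hq, hqne⟩)
    have hPs : ∀ ℓ : ℕ, ℓ.Prime → ℓ ∉ B.Smin → ℓ ∈ B.Ps ∅ := by
      intro ℓ hℓ hℓS
      refine Or.inl ⟨hℓ, ?_⟩
      rw [B.bad_empty, hS0']
      exact hℓS
    have hfrob₀ : ∀ (ℓ : ℕ), ℓ.Prime → ℓ ∉ B.Smin →
        ∀ P : ValuationSubring Qbar, P.LiesOverPrime ℓ → ∀ σ : GQ, P.IsFrobeniusAt σ ℓ →
          LinearMap.charpoly (B.ρbar.ρ σ) =
            X ^ 2 - C (residue 𝒪 (B.theta ∅ ℓ)) * X + C ((ℓ : ResidueField 𝒪)) := by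
      intro ℓ hℓ hℓS P hP σ hσ
      rw [B.theta_of_good ∅ (Finset.notMem_empty ℓ) (by rw [hcut]; exact Finset.notMem_empty ℓ)]
      exact hB.frob ℓ hℓ (by rw [hS0']; exact hℓS) P hP σ hσ
    have hqv' : ∀ i, (qv i).Prime ∧ qv i ∉ B.Smin ∧ B.p ^ (n + 1) ∣ qv i - 1 :=
      fun i => ⟨(hqv i).1, hqS i, (hqv i).2.2⟩
    have hqp : ∀ i, qv i ≠ B.p := fun i h => hqS i (h ▸ hB.p_mem_Smin)
    have hunr : ∀ i, B.ρbar.IsUnramifiedAt (qv i) := by
      intro i
      by_contra h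
      exact hqS i ((hB.Smin_iff (qv i) (hqv i).1 (hqp i)).mpr h)
    -- the deformation problems
    have h𝒟to : ∀ ⦃A : Type⦄ [CommRing A] [IsLocalRing A] [Algebra 𝒪 A] (ρ : GaloisRepAdic A),
        B.cond ∅ ρ → B.cond (Finset.univ.image qv) ρ := by
      intro A _ _ _ ρ h
      refine ⟨⟨h.1.1, h.1.2.1, fun q hq hqT => h.1.2.2 q hq fun h' => hqT ?_⟩, h.2⟩
      exact Finset.union_subset_union_right (Finset.empty_subset _) h'
    have h𝒟of : ∀ ⦃A : Type⦄ [CommRing A] [IsLocalRing A] [Algebra 𝒪 A] (ρ : GaloisRepAdic A),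
        B.cond (Finset.univ.image qv) ρ → mltmUnrAt (Finset.univ.image qv) ρ → B.cond ∅ ρ := by
      intro A _ _ _ ρ h hU
      refine ⟨⟨h.1.1, h.1.2.1, fun q hq hqT => ?_⟩, h.2⟩
      by_cases hqQ : q ∈ Finset.univ.image qv
      · exact hU q hqQ
      · refine h.1.2.2 q hq fun h' => ?_
        rcases Finset.mem_union.mp h' with h1 | h1
        · exact hqT (Finset.mem_union_left _ h1)
        · exact hqQ h1
    have h𝒟unr : ∀ ⦃A : Type⦄ [CommRing A] [IsLocalRing A] [Algebra 𝒪 A] (ρ : GaloisRepAdic A),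
        B.cond ∅ ρ → mltmUnrAt (Finset.univ.image qv) ρ := by
      intro A _ _ _ ρ h q hq
      obtain ⟨i, -, rfl⟩ := Finset.mem_image.mp hq
      refine h.1.2.2 (qv i) (hqv i).1 fun h' => ?_
      rcases Finset.mem_union.mp h' with h1 | h1
      · exact hqS i h1
      · exact absurd h1 (Finset.notMem_empty _)
    have hbc : ∀ ⦃A A' : Type⦄ [CommRing A] [IsLocalRing A] [Algebra 𝒪 A] [CommRing A']
        [IsLocalRing A'] [Algebra 𝒪 A'] (φ : A →ₐ[𝒪] A') (hφ : IsLocalHom (φ : A →+* A')),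
        Function.Surjective φ → ∀ ρ : GaloisRepAdic A, B.cond (Finset.univ.image qv) ρ →
          B.cond (Finset.univ.image qv) (ρ.baseChangeAlong (φ : A →+* A') hφ) :=
      fun A A' _ _ _ _ _ _ φ hφ hs ρ h => mltm_cond_bc_surj B.p B.flat B.Smin _ φ hφ hs ρ h
    have h𝒟det : ∀ ⦃A : Type⦄ [CommRing A] [IsLocalRing A] [Algebra 𝒪 A] (ρ : GaloisRepAdic A),
        B.cond (Finset.univ.image qv) ρ → ρ.DetIsCyclotomic B.p := fun A _ _ _ ρ h => h.1.1
    have h𝒟tw : ∀ ⦃A : Type⦄ [CommRing A] [IsLocalRing A] [Algebra 𝒪 A] (ρ : GaloisRepAdic A),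
        twCond 𝒪 (fun A _ _ ρ => ρ.IsFlatAt B.p) B.p B.Smin (B.Smin ∪ Finset.univ.image qv) ρ →
          B.cond (Finset.univ.image qv) ρ :=
      fun A _ _ _ ρ h => ⟨⟨h.1.1, (mltm_X_flat_iff B.p hflat ρ).mpr h.1.2.1, h.1.2.2⟩, h.2⟩
    have hnotS0 : ∀ ℓ : ℕ, ℓ ∉ B.Smin ∪ Finset.univ.image qv → ℓ ∉ B.S0 := by
      intro ℓ hℓ h
      rw [hS0'] at h
      exact hℓ (Finset.mem_union_left _ h)
    exact mltm_level_flat 𝒪 B.p hp5 hB.mem (B.level ∅) hNsq hpN B.Smin hB.p_mem_Smin hSN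
      hSminN B.ρbar hB.absIrr b (B.Ps ∅) hPs (B.theta ∅) hfrob₀ hB.modular hr1 qv hqinj n hqv'
      hunr hTW h𝒟to h𝒟of h𝒟unr hbc h𝒟det h𝒟tw D D' γ hγs hresE rE hctsE hstrictE htypeE ψE hψE
      hψEρ e actE hinjE hmod aE
      (fun ℓ hℓ hℓS => hfrE ℓ hℓ (hnotS0 ℓ hℓS)) (fun ℓ hℓ hℓS => hactE ℓ hℓ (hnotS0 ℓ hℓS))

/-- **the minimal case, flat problem, `5 ≤ p`, no cut**: `R_∅ ≅ T_∅`, complete intersection, `H_∅` free
over `T_∅`, provided the universal deformation rings `R_Q` exist -/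
theorem mltm_RT_flat (B : MltBase 𝒪) (hB : B.Valid) (hp5 : 5 ≤ B.p)
    (hflat : B.flat = true) (hcut : B.cut = ∅) (hS0 : B.S0 = B.Smin ∪ B.cut)
    [NeZero (B.level ∅)]
    (hring : ∀ Q : Finset ℕ, (∀ q ∈ Q, q.Prime ∧ q ∉ B.S0) →
      Nonempty (DeformationRingData 𝒪 B.ρbar (B.cond Q))) : MltRT B ∅ :=
  mltm_RT_of_levels B hB hS0 (mltm_hasLevels_flat B hB hp5 hflat hcut hS0 hring)

end Fermat.Agent.MLT
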