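/-
MLT (project S59) / Min (helper2): **the minimal case for the FLAT problem, `p ∈ {3, 5}` (any odd `p` with
helper9's `Jh5 p N0`), auxiliary cut primes allowed**: `MltRT B ∅`.

Same chain as `Min/MinFlat.lean` with `mltm_level_flat3` (`Min/HeckeTW3.lean`): the Hecke side is run with
"`Smin`" `:= B.S0 = Smin ∪ cut`; over the (reduced) Hecke ring at a Taylor–Wiles level the representation
has unipotent inertia at the cut primes `c ∥ N`, hence is unramified there (`mltm_unramified_of_unipotent`),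
so it is of type `B.cond Q`.
-/
import Mathlib
import Fermat.Agent.Lib.MLT.Min.MinFlat
import Fermat.Agent.Lib.MLT.Min.HeckeTW3
import Fermat.Agent.Lib.MLT.Min.CutUnr

set_option autoImplicit false
set_option linter.unusedSectionVars false
set_option linter.unusedVariables false
set_option linter.style.haveILetI false

open IsLocalRing Polynomial Fermat.Agent.S53Lib Fermat.Agent.TW Fermat.Agent.Ihara GaloisRep

namespace Fermat.Agent.MLT

local notation "Qbar" => AlgebraicClosure ℚ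
local notation "GQ" => (AlgebraicClosure ℚ ≃ₐ[ℚ] AlgebraicClosure ℚ)

set_option maxSynthPendingDepth 3

variable {𝒪 : Type} [CommRing 𝒪] [IsDomain 𝒪] [IsDiscreteValuationRing 𝒪] [CharZero 𝒪]
  [IsAdicComplete (maximalIdeal 𝒪) 𝒪] [Finite (ResidueField 𝒪)]

/-- the level datum when the Taylor–Wiles set is empty: `R_Q = R_∅` -/
theorem mltm_level_zero_univ (B : MltBase 𝒪) [NeZero (B.level ∅)]
    (D : DeformationRingData 𝒪 B.ρbar (B.cond ∅)) (qv : Fin 0 → ℕ)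
    (D' : DeformationRingData 𝒪 B.ρbar (B.cond (Finset.univ.image qv)))
    (γ : MvPowerSeries (Fin 0) 𝒪 →ₐ[𝒪] D'.R) (hγs : Function.Surjective γ)
    [Module D.R ↥(B.H ∅)] [IsScalarTower 𝒪 D.R ↥(B.H ∅)] {d : ℕ}
    (e : Module.Basis (Fin d) 𝒪 ↥(B.H ∅)) (n : ℕ) : MltmLevel B.p 0 D.R e n := by
  have hQ : (Finset.univ.image qv) = ∅ := by
    rw [Finset.univ_eq_empty, Finset.image_empty]
  have hiff : ∀ ⦃A : Type⦄ [CommRing A] [IsLocalRing A] [Algebra 𝒪 A] (ρ : GaloisRepAdic A),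
      B.cond (Finset.univ.image qv) ρ ↔ B.cond ∅ ρ := by
    intro A _ _ _ ρ
    rw [hQ]
  obtain ⟨κ, hκ, hκρ⟩ := mltm_exists_kappa (fun A _ _ _ ρ h => (hiff ρ).mpr h) D D'
  have hκs : Function.Surjective κ := by
    obtain ⟨κ', hκ', hκρ'⟩ := mltm_exists_kappa (fun A _ _ _ ρ h => (hiff ρ).mp h) D' D
    obtain ⟨φ₀, -, huniq⟩ := D.universal D.R D.residue_surjective D.ρ D.isOfType
      D.residual_isEquiv
    have hidloc : IsLocalHom ((AlgHom.id 𝒪 D.R : D.R →ₐ[𝒪] D.R) : D.R →+* D.R) :=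
      ⟨fun a ha => ha⟩
    have e1 : AlgHom.id 𝒪 D.R = φ₀ := huniq _ ⟨hidloc, mlto_bc_id hidloc D.ρ⟩
    have hcomp : ((κ.comp κ' : D.R →ₐ[𝒪] D.R) : D.R →+* D.R) =
        (κ : D'.R →+* D.R).comp (κ' : D.R →+* D'.R) := rfl
    have hloc : IsLocalHom ((κ : D'.R →+* D.R).comp (κ' : D.R →+* D'.R)) :=
      @RingHom.isLocalHom_comp _ _ _ _ _ _ _ _ hκ hκ'
    have hloc' : IsLocalHom ((κ.comp κ' : D.R →ₐ[𝒪] D.R) : D.R →+* D.R) := by
      rw [hcomp]; exact hloc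
    have e2 : κ.comp κ' = φ₀ := huniq _ ⟨hloc', by
      have h1 := mlto_isEquiv_bc hκρ' (κ : D'.R →+* D.R) hκ
      have h2 := mlto_bc_comp (κ' : D.R →+* D'.R) hκ' (κ : D'.R →+* D.R) hκ hloc D.ρ
      have h3 := mlto_bc_congr hcomp hloc' hloc D.ρ
      exact mlto_isEquiv_trans h3 (mlto_isEquiv_trans (mlto_isEquiv_symm h2)
        (mlto_isEquiv_trans h1 hκρ))⟩
    intro y
    refine ⟨κ' y, ?_⟩
    have h4 : (κ.comp κ') y = (AlgHom.id 𝒪 D.R) y := by rw [e2, ← e1]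
    exact h4
  exact mltm_level_zero B.p e (κ.comp γ) (hκs.comp hγs) n

/-- `Jh5` for a valid base datum with `p ∈ {3, 5}` -/
theorem mltm_jh5 (B : MltBase 𝒪) (hB : B.Valid) (hp : B.p = 3 ∨ B.p = 5) : Jh5 B.p B.N0 := by
  refine ⟨hB.odd, ?_⟩
  rcases hp with h | h
  · exact Or.inr (hB.no_torsion h)
  · exact Or.inl (by omega)

/-- **Taylor–Wiles level data for a flat base datum, `p = 3` and auxiliary cut primes allowed** -/
theorem mltm_hasLevels_flat3 (B : MltBase 𝒪) (hB : B.Valid) (hp5 : Jh5 B.p B.N0)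
    (hflat : B.flat = true) (hS0 : B.S0 = B.Smin ∪ B.cut)
    [NeZero (B.level ∅)]
    (hring : ∀ Q : Finset ℕ, (∀ q ∈ Q, q.Prime ∧ q ∉ B.S0) →
      Nonempty (DeformationRingData 𝒪 B.ρbar (B.cond Q))) : MltmHasLevels B := by
  classical
  intro D b E _ _ _ _ _ _ hresE rE hctsE hstrictE htypeE ψE hψE hψEρ instM d e actE hinjE hmod aE
    hfrE hactE
  letI instM' : Module D.R ↥(ih4Part 𝒪 (B.level ∅) (B.Ps ∅) (B.theta ∅)) := instM
  haveI instT : IsScalarTower 𝒪 D.R ↥(B.H ∅) := ⟨fun o t x => by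
    rw [hmod, hmod, map_smul, map_smul, LinearMap.smul_apply]⟩
  haveI : Fact B.p.Prime := ⟨hB.prime⟩
  have hp := hB.prime
  obtain ⟨r, hr⟩ := (Fermat.Agent.S56.result B.p hB.odd hB.mem B.ρbar hB.absIrr hB.det hB.split
    hB.tw B.S0 B.Smin hB.p_mem_Smin hB.Smin_sub hB.S0_prime hB.Smin_iff).2
  refine ⟨r, fun n => ?_⟩
  obtain ⟨qv, hqinj, hqv, hTW, hγ⟩ := hr n
  have hqS : ∀ i, qv i ∉ B.Smin := fun i h => (hqv i).2.1 (hB.Smin_sub h)
  obtain ⟨D'⟩ := hring (Finset.univ.image qv) (by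
    intro q hq
    obtain ⟨i, -, rfl⟩ := Finset.mem_image.mp hq
    exact ⟨(hqv i).1, (hqv i).2.1⟩)
  obtain ⟨γ, hγs⟩ := hγ (mltmCastD (𝒟 := B.cond (Finset.univ.image qv))
    (fun A _ _ _ ρ => mltm_cond_flat_iff B hflat (Finset.univ.image qv) ρ) D')
  by_cases hr0 : r = 0
  · subst hr0
    exact mltm_level_zero_univ B D qv D' γ hγs e n
  · have hr1 : 0 < r := Nat.pos_of_ne_zero hr0
    have hpS0 : B.p ∈ B.S0 := hB.Smin_sub hB.p_mem_Smin
    have hpcut : B.p ∉ B.cut := by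
      rw [hB.p_mem_cut_iff, hflat]
      exact Bool.noConfusion
    have hlev0 : B.level ∅ = B.N0 := B.level_empty
    have hp5' : Jh5 B.p (B.level ∅) := by rw [hlev0]; exact hp5
    have hNsq : Squarefree (B.level ∅) := by rw [hlev0]; exact hB.N0_sqfree
    have hpN : ¬ B.p ∣ B.level ∅ := by
      rw [hlev0, hB.N0_dvd_iff B.p hB.prime]
      rintro (⟨-, h⟩ | ⟨-, h⟩ | h)
      · exact h rfl
      · rw [hflat] at h
        exact Bool.noConfusion h
      · exact hpcut h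
    have hSN : ∀ ℓ : ℕ, ℓ.Prime → ℓ ∣ B.level ∅ → ℓ ∈ B.S0 := by
      intro ℓ hℓ h
      rw [hlev0] at h
      exact hB.N0_sub ℓ hℓ h
    have hSminN : ∀ q ∈ B.S0, q.Prime → q ≠ B.p → q ∣ B.level ∅ := by
      intro q hq hqp hqne
      rw [hlev0, hB.N0_dvd_iff q hqp]
      rw [hS0] at hq
      rcases Finset.mem_union.mp hq with h | h
      · exact Or.inl ⟨h, hqne⟩
      · exact Or.inr (Or.inr h)
    have hPs : ∀ ℓ : ℕ, ℓ.Prime → ℓ ∉ B.S0 → ℓ ∈ B.Ps ∅ := by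
      intro ℓ hℓ hℓS
      refine Or.inl ⟨hℓ, ?_⟩
      rw [B.bad_empty]
      exact hℓS
    have hfrob₀ : ∀ (ℓ : ℕ), ℓ.Prime → ℓ ∉ B.S0 →
        ∀ P : ValuationSubring Qbar, P.LiesOverPrime ℓ → ∀ σ : GQ, P.IsFrobeniusAt σ ℓ →
          LinearMap.charpoly (B.ρbar.ρ σ) =
            X ^ 2 - C (residue 𝒪 (B.theta ∅ ℓ)) * X + C ((ℓ : ResidueField 𝒪)) := by
      intro ℓ hℓ hℓS P hP σ hσ
      rw [B.theta_of_good ∅ (Finset.notMem_empty ℓ) (fun h => hℓS (hB.cut_sub ℓ h).2)]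
      exact hB.frob ℓ hℓ hℓS P hP σ hσ
    have hqp : ∀ i, qv i ≠ B.p := fun i h => hqS i (h ▸ hB.p_mem_Smin)
    have hunr : ∀ i, B.ρbar.IsUnramifiedAt (qv i) := by
      intro i
      by_contra h
      exact hqS i ((hB.Smin_iff (qv i) (hqv i).1 (hqp i)).mpr h)
    -- the deformation problems
    have h𝒟to : ∀ ⦃A : Type⦄ [CommRing A] [IsLocalRing A] [Algebra 𝒪 A] (ρ : GaloisRepAdic A),
        B.cond ∅ ρ → B.cond (Finset.univ.image qv) ρ := by
      intro A _ _ _ ρ h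
      refine ⟨⟨h.1.1, h.1.2.1, fun q hq hqT => h.1.2.2 q hq fun h' => hqT ?_⟩, h.2⟩
      exact Finset.union_subset_union_right (Finset.empty_subset _) h'
    have h𝒟of : ∀ ⦃A : Type⦄ [CommRing A] [IsLocalRing A] [Algebra 𝒪 A] (ρ : GaloisRepAdic A),
        B.cond (Finset.univ.image qv) ρ → mltmUnrAt (Finset.univ.image qv) ρ → B.cond ∅ ρ := by
      intro A _ _ _ ρ h hU
      refine ⟨⟨h.1.1, h.1.2.1, fun q hq hqT => ?_⟩, h.2⟩
      by_cases hqQ : q ∈ Finset.univ.image qv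
      · exact hU q hqQ
      · refine h.1.2.2 q hq fun h' => ?_
        rcases Finset.mem_union.mp h' with h1 | h1
        · exact hqT (Finset.mem_union_left _ h1)
        · exact hqQ h1
    have h𝒟unr : ∀ ⦃A : Type⦄ [CommRing A] [IsLocalRing A] [Algebra 𝒪 A] (ρ : GaloisRepAdic A),
        B.cond ∅ ρ → mltmUnrAt (Finset.univ.image qv) ρ := by
      intro A _ _ _ ρ h q hq
      obtain ⟨i, -, rfl⟩ := Finset.mem_image.mp hq
      refine h.1.2.2 (qv i) (hqv i).1 fun h' => ?_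
      rcases Finset.mem_union.mp h' with h1 | h1
      · exact hqS i h1
      · exact absurd h1 (Finset.notMem_empty _)
    have hbc : ∀ ⦃A A' : Type⦄ [CommRing A] [IsLocalRing A] [Algebra 𝒪 A] [CommRing A']
        [IsLocalRing A'] [Algebra 𝒪 A'] (φ : A →ₐ[𝒪] A') (hφ : IsLocalHom (φ : A →+* A')),
        Function.Surjective φ → ∀ ρ : GaloisRepAdic A, B.cond (Finset.univ.image qv) ρ →
          B.cond (Finset.univ.image qv) (ρ.baseChangeAlong (φ : A →+* A') hφ) :=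
      fun A A' _ _ _ _ _ _ φ hφ hs ρ h => mltm_cond_bc_surj B.p B.flat B.Smin _ φ hφ hs ρ h
    have h𝒟det : ∀ ⦃A : Type⦄ [CommRing A] [IsLocalRing A] [Algebra 𝒪 A] (ρ : GaloisRepAdic A),
        B.cond (Finset.univ.image qv) ρ → ρ.DetIsCyclotomic B.p := fun A _ _ _ ρ h => h.1.1
    have h𝒟tw : ∀ ⦃A : Type⦄ [CommRing A] [IsLocalRing A] [IsAdicComplete (maximalIdeal A) A]
        [IsReduced A] [Algebra 𝒪 A] [IsLocalHom (algebraMap 𝒪 A)] (ρ : GaloisRepAdic A),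
        ρ.residual.IsEquiv (B.ρbar.baseChangeAlong (ResidueField.map (algebraMap 𝒪 A))) →
        twCond 𝒪 (fun A _ _ ρ => ρ.IsFlatAt B.p) B.p B.S0 (B.S0 ∪ Finset.univ.image qv) ρ →
          B.cond (Finset.univ.image qv) ρ := by
      intro A _ _ _ _ _ _ ρ hres h
      refine ⟨⟨h.1.1, (mltm_X_flat_iff B.p hflat ρ).mpr h.1.2.1, fun q hq hqT => ?_⟩,
        fun q hqS hq hqp => h.2 q (hB.Smin_sub hqS) hq hqp⟩
      by_cases hq0 : q ∈ B.S0
      · -- a cut prime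
        have hqSmin : q ∉ B.Smin := fun h' => hqT (Finset.mem_union_left _ h')
        have hqcut : q ∈ B.cut := by
          rw [hS0] at hq0
          rcases Finset.mem_union.mp hq0 with h' | h'
          · exact absurd h' hqSmin
          · exact h'
        have hqp : q ≠ B.p := fun h' => hqSmin (h' ▸ hB.p_mem_Smin)
        obtain ⟨-, b', -, hu1, hu2, hu3, hfr⟩ := hB.cut_aux q hqcut hqp
        have hunrq : B.ρbar.IsUnramifiedAt q := by
          by_contra h'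
          exact hqSmin ((hB.Smin_iff q hq hqp).mpr h')
        exact mltm_unramified_of_unipotent hp hq (Ne.symm hqp) h.1.1.1 B.ρbar hunrq (B.lam q) b'
          hu1 hu2 hu3 hfr ρ hres (h.2 q hq0 hq hqp)
      · refine h.1.2.2 q hq fun h' => ?_
        rcases Finset.mem_union.mp h' with h1 | h1
        · exact hq0 h1
        · exact hqT (Finset.mem_union_right _ h1)
    have hnotS0 : ∀ ℓ : ℕ, ℓ ∉ B.S0 ∪ Finset.univ.image qv → ℓ ∉ B.S0 :=
      fun ℓ hℓ h => hℓ (Finset.mem_union_left _ h)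
    exact mltm_level_flat3 𝒪 B.p hB.odd hB.mem (B.level ∅) hp5' hNsq hpN B.S0 hpS0 hSN
      hSminN B.ρbar hB.absIrr b (B.Ps ∅) hPs (B.theta ∅) hfrob₀ hB.modular hr1 qv hqinj n hqv
      hunr hTW h𝒟to h𝒟of h𝒟unr hbc h𝒟det h𝒟tw D D' γ hγs hresE rE hctsE hstrictE htypeE ψE hψE
      hψEρ e actE hinjE hmod aE
      (fun ℓ hℓ hℓS => hfrE ℓ hℓ (hnotS0 ℓ hℓS)) (fun ℓ hℓ hℓS => hactE ℓ hℓ (hnotS0 ℓ hℓS))

/-- **the minimal case, flat problem, `p ∈ {3, 5}`, auxiliary cut primes allowed** -/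
theorem mltm_RT_flat3 (B : MltBase 𝒪) (hB : B.Valid) (hp : B.p = 3 ∨ B.p = 5)
    (hflat : B.flat = true) (hS0 : B.S0 = B.Smin ∪ B.cut) [NeZero (B.level ∅)]
    (hring : ∀ Q : Finset ℕ, (∀ q ∈ Q, q.Prime ∧ q ∉ B.S0) →
      Nonempty (DeformationRingData 𝒪 B.ρbar (B.cond Q))) : MltRT B ∅ :=
  mltm_RT_of_levels B hB hS0 (mltm_hasLevels_flat3 B hB (mltm_jh5 B hB hp) hflat hS0 hring)

end Fermat.Agent.MLT
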