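/-
MLT (project S59) / Min (helper2): **the contract [M] version 2** (`MltMinContract2`,
`Contracts/Min.lean`) from the flat case (`mltm_RT_flat3`, proved) and the ordinary level data
(`MltmOrdLevels`, the only remaining input of stream [M]).
-/
import Mathlib
import Fermat.Agent.Lib.MLT.Contracts.Min
import Fermat.Agent.Lib.MLT.Min.MinFlat3

set_option autoImplicit false
set_option linter.unusedSectionVars false
set_option linter.unusedVariables false
set_option linter.style.haveILetI false

open IsLocalRing Fermat.Agent.TW Fermat.Agent.Ihara GaloisRep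

namespace Fermat.Agent.MLT

/-- **the ordinary level data** (case C: `W` multiplicative at `p`, `ρbar|_{D_p}` très ramifié): Taylor–Wiles
level data for the ordinary problem at level `N_∅ p` with the Hida cut `U_p ≡ lam p` -/
def MltmOrdLevels : Prop :=
  ∀ (𝒪 : Type) [CommRing 𝒪] [IsDomain 𝒪] [IsDiscreteValuationRing 𝒪] [CharZero 𝒪]
    [IsAdicComplete (maximalIdeal 𝒪) 𝒪] [Finite (ResidueField 𝒪)] (B : MltBase 𝒪),
    B.Valid → (B.p = 3 ∨ B.p = 5) → B.S0 = B.Smin ∪ B.cut →
    (∀ Sig : Finset ℕ, B.IsAux Sig →
      Nonempty (DeformationRingData 𝒪 B.ρbar (B.cond Sig))) →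
    B.flat = false → MltTWOOrdFirstOrderStrict B.p B.ρbar →
    ∀ [NeZero (B.level ∅)], MltmHasLevels B

/-- **contract [M] version 2** from the ordinary level data -/
theorem mltm_minContract2 (hord : MltmOrdLevels) : MltMinContract2 := by
  intro 𝒪 _ _ _ _ _ _ B hB hp hS0 hring hC _
  cases hfl : B.flat with
  | true => exact mltm_RT_flat3 B hB hp hfl hS0 hring
  | false =>
    exact mltm_RT_of_levels B hB hS0 (hord 𝒪 B hB hp hS0 hring hfl (hC hfl))

end Fermat.Agent.MLT
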