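/-
MLT (project S59) / Min (helper2): **the algebra at the end of the minimal case**: from "`H` is free over
`R` with trivial annihilator, `R` acting through `R → T → E → End H`" to "`R → T` is bijective and `H` is
free of positive rank over `T`" (the literal of clauses (1), (3) of `MltRT`).
-/
import Mathlib

set_option autoImplicit false
set_option linter.unusedSectionVars false
set_option linter.unusedVariables false
set_option linter.style.haveILetI false

namespace Fermat.Agent.MLT

section

variable {𝒪 : Type} [CommRing 𝒪] {R T E : Type} [CommRing R] [CommRing T] [CommRing E]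
  [Algebra 𝒪 R] [Algebra 𝒪 T] [Algebra 𝒪 E]
  {H : Type} [AddCommGroup H] [Module 𝒪 H] [Module R H]

/-- **`R ≅ T` and `H` free over `T`** from the output of patching -/
theorem mltm_rt_alg (φ : R →ₐ[𝒪] T) (hφs : Function.Surjective φ) (mk : T →ₐ[𝒪] E)
    (actE : E →ₐ[𝒪] Module.End 𝒪 H)
    (hmod : ∀ (t : R) (x : H), t • x = actE (mk (φ t)) x)
    [Module.Free R H] [Module.Finite R H] [Nontrivial H]
    (hann : Module.annihilator R H = ⊥) :
    Function.Bijective φ ∧
      ∃ d : ℕ, 0 < d ∧ ∃ w : Fin d → H, ∀ x : H,
        ∃! c : Fin d → T, x = ∑ i, (actE.comp mk) (c i) (w i) := by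
  classical
  have hinj : Function.Injective φ := by
    rw [injective_iff_map_eq_zero]
    intro t ht
    have h1 : t ∈ Module.annihilator R H := by
      rw [Module.mem_annihilator]
      intro x
      rw [hmod, ht, map_zero, map_zero, LinearMap.zero_apply]
    rw [hann] at h1
    exact h1
  refine ⟨⟨hinj, hφs⟩, ?_⟩
  haveI : Nontrivial R := by
    by_contra h
    rw [not_nontrivial_iff_subsingleton] at h
    haveI := h
    haveI : Subsingleton H := Module.subsingleton R H
    exact not_subsingleton H this
  let b0 := Module.Free.chooseBasis R H
  let b : Module.Basis (Fin (Fintype.card (Module.Free.ChooseBasisIndex R H))) R H :=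
    b0.reindex (Fintype.equivFin _)
  refine ⟨Fintype.card (Module.Free.ChooseBasisIndex R H), ?_, b, ?_⟩
  · rw [Fintype.card_pos_iff]
    by_contra h
    rw [not_nonempty_iff] at h
    haveI := h
    haveI : Subsingleton H := b0.repr.toEquiv.subsingleton
    exact not_subsingleton H this
  · intro x
    have hsum : ∀ c' : Fin _ → R, ∑ i, (actE.comp mk) (φ (c' i)) (b i) = ∑ i, c' i • b i := by
      intro c'
      refine Finset.sum_congr rfl fun i _ => ?_
      rw [hmod]
      rfl
    refine ⟨fun i => φ (b.repr x i), ?_, ?_⟩
    · show x = ∑ i, (actE.comp mk) (φ (b.repr x i)) (b i)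
      rw [hsum (fun i => b.repr x i)]
      exact (b.sum_repr x).symm
    · intro c hc
      choose c' hc' using fun i => hφs (c i)
      have h1 : x = ∑ i, c' i • b i := by
        rw [← hsum c']
        rw [hc]
        refine Finset.sum_congr rfl fun i _ => ?_
        rw [hc']
      have h2 : b.repr x = b.repr (∑ i, c' i • b i) := by rw [← h1]
      funext i
      rw [← hc' i]
      congr 1
      have h3 := DFunLike.congr_fun h2 i
      rw [h3, map_sum]
      simp only [map_smul, Module.Basis.repr_self, Finsupp.smul_single, smul_eq_mul, mul_one]
      rw [Finsupp.finsetSum_apply, Finset.sum_eq_single i]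
      · rw [Finsupp.single_eq_same]
      · intro j _ hj
        exact Finsupp.single_eq_of_ne' hj
      · intro h
        exact absurd (Finset.mem_univ i) h

end

end Fermat.Agent.MLT
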